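import Fermat.Agent.Corollaries.Table.TwoTable

/-!
# The elliptic curves of conductor `15`

There are exactly eight elliptic curves over `ℚ` of conductor `15`, up to isomorphism: the curves
`15a1`, …, `15a8` of Cremona's table.

Proof: the traces of Frobenius of a semistable curve `W` of conductor `15` are those of
`y² + xy + y = x³ + x²` (modularity and `dim S₂(Γ₀(15)) = 1`), which has a rational point of order
two; so all `a_ℓ` are even and `W` has a rational point of order two (Frobenius' density theorem).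
Such curves are given by the coprime solutions of `a² = 64 b + c`, all primes dividing `b c` being
`3` or `5`, and this equation reduces to `X = 16 V + Y`, `X + Y = 16 V` in powers of `3` and `5`:
`25 = 16 + 9`, `81 = 80 + 1`, `15 + 1 = 16`, and to `49 + 15 = 64`.
-/

set_option autoImplicit false

namespace Fermat.Agent.Cor.Table

open WeierstrassCurve

/-- The curves `15a1`, …, `15a8` (numbered `0`, …, `7`). -/
def E15 : Fin 8 → WeierstrassCurve ℤ :=
  ![⟨1, 1, 1, -10, -10⟩, ⟨1, 1, 1, -135, -660⟩, ⟨1, 1, 1, -5, 2⟩, ⟨1, 1, 1, 35, -28⟩,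
    ⟨1, 1, 1, -2160, -39540⟩, ⟨1, 1, 1, -110, -880⟩, ⟨1, 1, 1, -80, 242⟩, ⟨1, 1, 1, 0, 0⟩]

theorem E15_c₄ (i : Fin 8) : (E15 i).c₄ = ![481, 6481, 241, -1679, 103681, 5281, 3841, 1] i := by
  revert i; decide +kernel

theorem E15_c₆ (i : Fin 8) : (E15 i).c₆ = ![4879, 521479, -3689, 36631, 33384799, 720559, -238049,
    -161] i := by
  revert i; decide +kernel

theorem E15_Δ (i : Fin 8) : (E15 i).Δ = ![15 ^ 4, 3 ^ 8 * 5 ^ 2, 15 ^ 2, -(3 ^ 2 * 5 ^ 8),
    3 ^ 4 * 5, -(3 ^ 16 * 5), 15, -15] i := by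
  revert i; decide +kernel

theorem E15_Δ_ne_zero (i : Fin 8) : (E15 i).Δ ≠ 0 := by
  revert i; decide +kernel

/-- The bad primes are `3` and `5`. -/
theorem E15_prime_dvd_iff (i : Fin 8) {q : ℕ} (hq : q.Prime) :
    (q : ℤ) ∣ (E15 i).Δ ↔ q ∣ 15 := by
  have hqI := Nat.prime_iff_prime_int.mp hq
  have h15 : q ∣ 15 ↔ (q : ℤ) ∣ 3 ∨ (q : ℤ) ∣ 5 := by
    rw [show (15 : ℕ) = 3 * 5 by norm_num, hq.dvd_mul]
    exact or_congr Int.natCast_dvd_natCast.symm Int.natCast_dvd_natCast.symm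
  have key : ∀ m n : ℕ, m ≠ 0 → n ≠ 0 → ((q : ℤ) ∣ 3 ^ m * 5 ^ n ↔ q ∣ 15) := by
    intro m n hm hn
    rw [hqI.dvd_mul, hqI.dvd_pow_iff_dvd hm, hqI.dvd_pow_iff_dvd hn, h15]
  rw [E15_Δ]
  fin_cases i
  · rw [← key 4 4 (by norm_num) (by norm_num)]; norm_num
  · rw [← key 8 2 (by norm_num) (by norm_num)]; norm_num
  · rw [← key 2 2 (by norm_num) (by norm_num)]; norm_num
  · rw [← key 2 8 (by norm_num) (by norm_num), ← dvd_neg]; norm_num
  · rw [← key 4 1 (by norm_num) (by norm_num)]; norm_num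
  · rw [← key 16 1 (by norm_num) (by norm_num), ← dvd_neg]; norm_num
  · rw [← key 1 1 (by norm_num) (by norm_num)]; norm_num
  · rw [← key 1 1 (by norm_num) (by norm_num), ← dvd_neg]; norm_num

theorem E15_semistable (i : Fin 8) : (E15 i).IsSemistableModel := by
  intro q hq hd h4
  rw [E15_prime_dvd_iff i hq, show (15 : ℕ) = 3 * 5 by norm_num, hq.dvd_mul,
    Nat.prime_dvd_prime_iff_eq hq (by norm_num), Nat.prime_dvd_prime_iff_eq hq (by norm_num)] at hd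
  rw [E15_c₄] at h4
  rcases hd with rfl | rfl <;> revert i <;> decide +kernel

theorem E15_conductorLevel (i : Fin 8) : (E15 i).conductorLevel = 15 :=
  (eq_conductorLevel (E15_Δ_ne_zero i) (by decide +kernel)
    fun _ hq => (E15_prime_dvd_iff i hq).symm).symm

/-- The invariants of a semistable curve of conductor `15`. -/
theorem c_fifteen {W : WeierstrassCurve ℤ} (hΔ : W.Δ ≠ 0) (hW : W.IsSemistableModel)
    (hN : W.conductorLevel = 15) :
    (W.c₄ = 481 ∧ W.c₆ = 4879) ∨ (W.c₄ = 6481 ∧ W.c₆ = 521479) ∨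
    (W.c₄ = 241 ∧ W.c₆ = -3689) ∨ (W.c₄ = -1679 ∧ W.c₆ = 36631) ∨
    (W.c₄ = 103681 ∧ W.c₆ = 33384799) ∨ (W.c₄ = 5281 ∧ W.c₆ = 720559) ∨
    (W.c₄ = 3841 ∧ W.c₆ = -238049) ∨ (W.c₄ = 1 ∧ W.c₆ = -161) := by
  have hpr : ∀ q : ℕ, q.Prime → (q : ℤ) ∣ W.Δ → q = 3 ∨ q = 5 := by
    intro q hq hd
    have h := (W.prime_dvd_conductorLevel_iff hΔ hq).mpr hd
    rw [hN, show (15 : ℕ) = 3 * 5 by norm_num, hq.dvd_mul,
      Nat.prime_dvd_prime_iff_eq hq (by norm_num), Nat.prime_dvd_prime_iff_eq hq (by norm_num)] at h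
    exact h
  have h2 : ¬ (2 : ℤ) ∣ W.Δ := fun hd => by
    rcases hpr 2 Nat.prime_two (by exact_mod_cast hd) with h | h <;> norm_num at h
  obtain ⟨x, hx⟩ := not_irreducible_two hΔ fun ℓ hℓ hℓ2 hg => by
    rw [← apOfModel_eq_of_conductorLevel_eq (W' := E15 7) hΔ hW (E15_Δ_ne_zero 7)
      (E15_semistable 7) (by rw [E15_conductorLevel, hN]) (by rw [hN]; decide) hℓ hg]
    have hg' : (E15 7).IsGoodPrimeFor ℓ := fun hd => hg (by
      rw [← W.prime_dvd_conductorLevel_iff hΔ hℓ, hN]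
      exact (E15_prime_dvd_iff 7 hℓ).mp hd)
    refine even_apOfModel_of_root (E15_Δ_ne_zero 7) (x := -1) ?_ hℓ hℓ2 hg'
    have e2 : (E15 7).b₂ = 5 := by decide +kernel
    have e4 : (E15 7).b₄ = 1 := by decide +kernel
    have e6 : (E15 7).b₆ = 1 := by decide +kernel
    rw [e2, e4, e6]
    norm_num
  obtain ⟨a, b, c, ha, h, hab, hb, hc, hbc, h4, hI⟩ := exists_params hΔ hW h2 hx hpr
  rcases dioph_fifteen ha h hab hb hc hbc with ⟨rfl, rfl | rfl⟩ | ⟨rfl, rfl | rfl⟩ |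
    ⟨rfl, rfl | rfl⟩ | ⟨rfl, rfl | rfl⟩ | ⟨rfl, rfl | rfl⟩ | ⟨rfl, rfl | rfl⟩ |
    ⟨rfl, rfl | rfl⟩ <;> rcases hI with ⟨e4, e6⟩ | ⟨e4, e6⟩ <;> omega

/-- **The elliptic curves of conductor `15`.** Every Weierstrass equation over `ℤ` of a semistable
elliptic curve of conductor `15` is isomorphic over `ℤ` to one of `15a1`, …, `15a8`. -/
theorem exists_iso_fifteen {W : WeierstrassCurve ℤ} (hΔ : W.Δ ≠ 0) (hW : W.IsSemistableModel)
    (hN : W.conductorLevel = 15) :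
    ∃ i : Fin 8, ∃ r s t : ℤ, (⟨1, r, s, t⟩ : VariableChange ℤ) • W = E15 i := by
  rcases c_fifteen hΔ hW hN with ⟨h4, h6⟩ | ⟨h4, h6⟩ | ⟨h4, h6⟩ | ⟨h4, h6⟩ | ⟨h4, h6⟩ | ⟨h4, h6⟩ |
    ⟨h4, h6⟩ | ⟨h4, h6⟩
  · exact ⟨0, exists_variableChange (by rw [h4, E15_c₄]; rfl) (by rw [h6, E15_c₆]; rfl)⟩
  · exact ⟨1, exists_variableChange (by rw [h4, E15_c₄]; rfl) (by rw [h6, E15_c₆]; rfl)⟩
  · exact ⟨2, exists_variableChange (by rw [h4, E15_c₄]; rfl) (by rw [h6, E15_c₆]; rfl)⟩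
  · exact ⟨3, exists_variableChange (by rw [h4, E15_c₄]; rfl) (by rw [h6, E15_c₆]; rfl)⟩
  · exact ⟨4, exists_variableChange (by rw [h4, E15_c₄]; rfl) (by rw [h6, E15_c₆]; rfl)⟩
  · exact ⟨5, exists_variableChange (by rw [h4, E15_c₄]; rfl) (by rw [h6, E15_c₆]; rfl)⟩
  · exact ⟨6, exists_variableChange (by rw [h4, E15_c₄]; rfl) (by rw [h6, E15_c₆]; rfl)⟩
  · exact ⟨7, exists_variableChange (by rw [h4, E15_c₄]; rfl) (by rw [h6, E15_c₆]; rfl)⟩

/-- The eight curves are pairwise non-isomorphic over `ℚ`. -/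
theorem fifteen_not_iso {i j : Fin 8} (h : i ≠ j) : ¬ ∃ C : VariableChange ℚ,
    C • (E15 i).map (Int.castRingHom ℚ) = (E15 j).map (Int.castRingHom ℚ) := by
  refine not_iso_of_j ?_
  rw [E15_c₄, E15_c₄, E15_Δ, E15_Δ]
  revert i j
  decide +kernel

/-- **There are exactly eight elliptic curves over `ℚ` of conductor `15`**: an elliptic curve over
`ℚ` has a (minimal) Weierstrass equation over `ℤ` with multiplicative reduction at `3` and `5` and
good reduction elsewhere if and only if it is isomorphic to exactly one of `15a1`, …, `15a8`. -/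
theorem conductor_fifteen_iff (E : WeierstrassCurve ℚ) :
    (∃ W : WeierstrassCurve ℤ, W.IsIntegralModelOf E ∧ W.Δ ≠ 0 ∧ W.IsSemistableModel ∧
      W.conductorLevel = 15) ↔ ∃! i : Fin 8, (E15 i).IsIntegralModelOf E := by
  constructor
  · rintro ⟨W, hE, hΔ, hW, hN⟩
    obtain ⟨i, r, s, t, hi⟩ := exists_iso_fifteen hΔ hW hN
    refine ⟨i, isIntegralModelOf_of_iso' hi hE, fun j hj => ?_⟩
    by_contra hne
    exact fifteen_not_iso hne (iso_of_isIntegralModelOf hj (isIntegralModelOf_of_iso' hi hE))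
  · rintro ⟨i, hi, -⟩
    exact ⟨E15 i, hi, E15_Δ_ne_zero i, E15_semistable i, E15_conductorLevel i⟩

end Fermat.Agent.Cor.Table
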