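import Mathlib

/-!
# Integral Weierstrass equations with the same `c₄` and `c₆`

* `exists_variableChange` : two Weierstrass equations over `ℤ` with the same `c₄` and the same `c₆`
  are isomorphic over `ℤ` by a change of variables `x = x' + r`, `y = y' + s x' + t` with integers
  `r, s, t`.
* `c₆_emod` : if `c₄` is even, then `c₆ ≡ 0` or `8` modulo `32`.
-/

set_option autoImplicit false

namespace Fermat.Agent.Cor.Table

open Polynomial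

/-- A rational root of a monic quartic polynomial with integral coefficients is an integer. -/
theorem int_of_quartic {x : ℚ} {a b c d : ℤ}
    (h : x ^ 4 + a * x ^ 3 + b * x ^ 2 + c * x + d = 0) : ∃ m : ℤ, x = m := by
  have hint : IsIntegral ℤ x := by
    refine ⟨X ^ 4 + (C a * X ^ 3 + C b * X ^ 2 + C c * X + C d), ?_, ?_⟩
    · refine monic_X_pow_add ?_
      compute_degree!
    · rw [eval₂_add, eval₂_add, eval₂_add, eval₂_add, eval₂_mul, eval₂_mul, eval₂_mul, eval₂_pow,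
        eval₂_pow, eval₂_pow, eval₂_X, eval₂_C, eval₂_C, eval₂_C, eval₂_C]
      simp only [eq_intCast]
      linarith
  obtain ⟨m, hm⟩ := IsIntegrallyClosed.isIntegral_iff.mp hint
  exact ⟨m, by rw [← hm]; rfl⟩

/-- **Two integral Weierstrass equations with the same `c₄` and `c₆` are isomorphic over `ℤ`.** -/
theorem exists_variableChange {W W' : WeierstrassCurve ℤ} (h4 : W.c₄ = W'.c₄)
    (h6 : W.c₆ = W'.c₆) :
    ∃ r s t : ℤ, (⟨1, r, s, t⟩ : WeierstrassCurve.VariableChange ℤ) • W = W' := by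
  -- relations between the `b`s
  have e4 : 24 * (W'.b₄ - W.b₄) = W'.b₂ ^ 2 - W.b₂ ^ 2 := by
    rw [WeierstrassCurve.c₄, WeierstrassCurve.c₄] at h4
    linear_combination h4
  have e6 : 216 * (W'.b₆ - W.b₆) = W.b₂ ^ 3 - W'.b₂ ^ 3 + 36 * W'.b₂ * W'.b₄
      - 36 * W.b₂ * W.b₄ := by
    rw [WeierstrassCurve.c₆, WeierstrassCurve.c₆] at h6
    linear_combination h6
  have e8 := W.b_relation
  have e8' := W'.b_relation
  -- `r`
  obtain ⟨r, hr⟩ : ∃ r : ℤ, W'.b₂ = W.b₂ + 12 * r := by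
    set ρ : ℚ := ((W'.b₂ : ℚ) - W.b₂) / 12 with hρ
    have hb2 : (W'.b₂ : ℚ) = W.b₂ + 12 * ρ := by rw [hρ]; ring
    have e4q : 24 * ((W'.b₄ : ℚ) - W.b₄) = (W'.b₂ : ℚ) ^ 2 - (W.b₂ : ℚ) ^ 2 := by
      exact_mod_cast e4
    have e6q : 216 * ((W'.b₆ : ℚ) - W.b₆) = (W.b₂ : ℚ) ^ 3 - (W'.b₂ : ℚ) ^ 3
        + 36 * (W'.b₂ : ℚ) * W'.b₄ - 36 * (W.b₂ : ℚ) * W.b₄ := by exact_mod_cast e6
    have e8q : 4 * (W.b₈ : ℚ) = W.b₂ * W.b₆ - (W.b₄ : ℚ) ^ 2 := by exact_mod_cast e8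
    have e8q' : 4 * (W'.b₈ : ℚ) = W'.b₂ * W'.b₆ - (W'.b₄ : ℚ) ^ 2 := by exact_mod_cast e8'
    have f4 : (W'.b₄ : ℚ) = W.b₄ + ρ * W.b₂ + 6 * ρ ^ 2 := by
      rw [hb2] at e4q
      linear_combination e4q / 24
    have f6 : (W'.b₆ : ℚ) = W.b₆ + 2 * ρ * W.b₄ + ρ ^ 2 * W.b₂ + 4 * ρ ^ 3 := by
      rw [hb2, f4] at e6q
      linear_combination e6q / 216
    have f8 : (W'.b₈ : ℚ) = W.b₈ + 3 * ρ * W.b₆ + 3 * ρ ^ 2 * W.b₄ + ρ ^ 3 * W.b₂
        + 3 * ρ ^ 4 := by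
      rw [hb2, f4, f6] at e8q'
      linear_combination e8q' / 4 - e8q / 4
    obtain ⟨m, hm⟩ := int_of_quartic (x := 4 * ρ) (a := W.b₂) (b := 8 * W.b₄)
      (c := 16 * (W.b₆ - W'.b₆)) (d := 0) (by
        push_cast
        linear_combination (-64 * ρ) * f6)
    obtain ⟨n, hn⟩ := int_of_quartic (x := 3 * ρ) (a := W.b₂) (b := 9 * W.b₄)
      (c := 27 * W.b₆) (d := 27 * (W.b₈ - W'.b₈)) (by
        push_cast
        linear_combination (-27) * f8)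
    refine ⟨m - n, ?_⟩
    have h : ρ = ((m - n : ℤ) : ℚ) := by push_cast; linarith
    rw [h] at hb2
    exact_mod_cast hb2
  -- `s`
  have g2 : W'.a₁ ^ 2 + 4 * W'.a₂ = W.a₁ ^ 2 + 4 * W.a₂ + 12 * r := by
    rw [WeierstrassCurve.b₂, WeierstrassCurve.b₂] at hr
    exact hr
  obtain ⟨s, hs⟩ : ∃ s : ℤ, W'.a₁ = W.a₁ + 2 * s := by
    have h : (W'.a₁ - W.a₁) % 2 = 0 := by
      have h1 : Even (W'.a₁ ^ 2 - W.a₁ ^ 2) := ⟨2 * W.a₂ + 6 * r - 2 * W'.a₂, by linarith⟩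
      rw [Int.even_sub, Int.even_pow' two_ne_zero, Int.even_pow' two_ne_zero, ← Int.even_sub] at h1
      exact Int.even_iff.mp h1
    exact ⟨(W'.a₁ - W.a₁) / 2, by omega⟩
  have g2' : W'.a₂ = W.a₂ - s * W.a₁ + 3 * r - s ^ 2 := by
    rw [hs] at g2
    linarith
  -- `b₄`, `b₆`
  have f4 : W'.b₄ = W.b₄ + r * W.b₂ + 6 * r ^ 2 := by
    rw [hr] at e4
    linarith
  have f6 : W'.b₆ = W.b₆ + 2 * r * W.b₄ + r ^ 2 * W.b₂ + 4 * r ^ 3 := by
    rw [hr, f4] at e6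
    linarith
  -- `t`
  have g6 : W'.a₃ ^ 2 + 4 * W'.a₆ = (W.a₃ + r * W.a₁) ^ 2 +
      4 * (W.a₆ + r * W.a₄ + r ^ 2 * W.a₂ + r ^ 3) := by
    simp only [WeierstrassCurve.b₂, WeierstrassCurve.b₄, WeierstrassCurve.b₆] at f6
    linear_combination f6
  obtain ⟨t, ht⟩ : ∃ t : ℤ, W'.a₃ = W.a₃ + r * W.a₁ + 2 * t := by
    have h : (W'.a₃ - (W.a₃ + r * W.a₁)) % 2 = 0 := by
      have h1 : Even (W'.a₃ ^ 2 - (W.a₃ + r * W.a₁) ^ 2) :=
        ⟨2 * (W.a₆ + r * W.a₄ + r ^ 2 * W.a₂ + r ^ 3) - 2 * W'.a₆, by linarith⟩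
      rw [Int.even_sub, Int.even_pow' two_ne_zero, Int.even_pow' two_ne_zero, ← Int.even_sub] at h1
      exact Int.even_iff.mp h1
    exact ⟨(W'.a₃ - (W.a₃ + r * W.a₁)) / 2, by omega⟩
  have g4 : W'.a₄ = W.a₄ - s * W.a₃ + 2 * r * W.a₂ - (t + r * s) * W.a₁ + 3 * r ^ 2
      - 2 * s * t := by
    simp only [WeierstrassCurve.b₂, WeierstrassCurve.b₄] at f4
    rw [hs, ht] at f4
    linarith
  have g6' : W'.a₆ = W.a₆ + r * W.a₄ + r ^ 2 * W.a₂ + r ^ 3 - t * W.a₃ - t ^ 2 - r * t * W.a₁ := by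
    rw [ht] at g6
    linarith
  refine ⟨r, s, t, ?_⟩
  ext
  · simp only [WeierstrassCurve.variableChange_a₁, inv_one, Units.val_one, one_mul]
    exact hs.symm
  · simp only [WeierstrassCurve.variableChange_a₂, inv_one, Units.val_one, one_mul, one_pow]
    exact g2'.symm
  · simp only [WeierstrassCurve.variableChange_a₃, inv_one, Units.val_one, one_mul, one_pow]
    exact ht.symm
  · simp only [WeierstrassCurve.variableChange_a₄, inv_one, Units.val_one, one_mul, one_pow]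
    exact g4.symm
  · simp only [WeierstrassCurve.variableChange_a₆, inv_one, Units.val_one, one_mul, one_pow]
    exact g6'.symm

/-- If `c₄` is even, then `c₆` is `0` or `8` modulo `32`. -/
theorem c₆_emod {W : WeierstrassCurve ℤ} (h : (2 : ℤ) ∣ W.c₄) :
    W.c₆ % 32 = 0 ∨ W.c₆ % 32 = 8 := by
  obtain ⟨k, hk⟩ : ∃ k, W.a₁ = 2 * k := by
    have h1 : Even (W.a₁ ^ 4) := by
      obtain ⟨c, hc⟩ := h
      refine ⟨c - 4 * W.a₁ ^ 2 * W.a₂ - 8 * W.a₂ ^ 2 + 12 * W.b₄, ?_⟩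
      rw [WeierstrassCurve.c₄, WeierstrassCurve.b₂] at hc
      linear_combination hc
    rw [Int.even_pow' (by norm_num)] at h1
    obtain ⟨k, hk⟩ := h1
    exact ⟨k, by linarith⟩
  have e : W.c₆ = 32 * (-2 * (k ^ 2 + W.a₂) ^ 3 + 9 * (k ^ 2 + W.a₂) * (k * W.a₃ + W.a₄)
      - 27 * W.a₆ - 7 * W.a₃ ^ 2) + 8 * W.a₃ ^ 2 := by
    rw [WeierstrassCurve.c₆, WeierstrassCurve.b₂, WeierstrassCurve.b₄, WeierstrassCurve.b₆, hk]
    ring
  rcases Int.even_or_odd W.a₃ with ⟨j, hj⟩ | ⟨j, hj⟩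
  · left
    have e' : W.c₆ = 32 * (-2 * (k ^ 2 + W.a₂) ^ 3 + 9 * (k ^ 2 + W.a₂) * (k * W.a₃ + W.a₄)
      - 27 * W.a₆ - 7 * W.a₃ ^ 2 + j ^ 2) := by
      rw [e]; rw [hj]; ring
    rw [e', Int.mul_emod_right]
  · right
    have h1 : ∃ m, j ^ 2 + j = 2 * m := by
      obtain ⟨m, hm⟩ := Int.even_mul_succ_self j
      exact ⟨m, by linarith⟩
    obtain ⟨m, hm⟩ := h1
    have e' : W.c₆ = 8 + 32 * (-2 * (k ^ 2 + W.a₂) ^ 3 + 9 * (k ^ 2 + W.a₂) * (k * W.a₃ + W.a₄)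
      - 27 * W.a₆ - 7 * W.a₃ ^ 2 + 2 * m) := by
      have : W.a₃ ^ 2 = 1 + 8 * m := by rw [hj]; linear_combination 4 * hm
      rw [e]; linear_combination 8 * this
    rw [e', Int.add_mul_emod_self_left]
    rfl

end Fermat.Agent.Cor.Table
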