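import Fermat.Agent.Corollaries.Table.ThreePrime
import Fermat.Agent.Corollaries.Table.CEq
import Fermat.Agent.LTF.QuarticZero
import Fermat.Prelude.Def_WeierstrassCurve_ConductorLevel

/-!
# The semistable elliptic curves of prime conductor with a rational isogeny of degree three

* `reducible_three_iff`: `W[3]` is reducible if and only if the quartic
  `X⁴ - 6 c₄ X² - 8 c₆ X - 3 c₄²` has an integral root.
* `prime_conductor_three_iff`: a semistable elliptic curve over `ℚ` has prime conductor and reducible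
  mod `3` representation if and only if it is one of `19a1`, `19a2`, `19a3`, `37b1`, `37b2`, `37b3`.
-/

set_option autoImplicit false

namespace Fermat.Agent.Cor.Table

open WeierstrassCurve

/-- **Reducibility modulo `3`**. -/
theorem reducible_three_iff {W : WeierstrassCurve ℤ} (hΔ : W.Δ ≠ 0) :
    ¬ W.ModRepIsIrreducible 3 ↔
      ∃ X : ℤ, X ^ 4 - 6 * W.c₄ * X ^ 2 - 8 * W.c₆ * X - 3 * W.c₄ ^ 2 = 0 := by
  refine ⟨exists_root_three hΔ, ?_⟩
  rintro ⟨X, hX⟩ hirr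
  have h := (LTF.quartic_ne_zero W hΔ hirr (X - W.b₂) 4 (by
    rw [WeierstrassCurve.c₄, WeierstrassCurve.c₆] at hX
    linear_combination hX + 1728 * W.b_relation)).2
  norm_num at h

/-- The curve `19a1` of Cremona's table, `X₀(19)`. -/
def E19a1 : WeierstrassCurve ℤ := ⟨0, 1, 1, -9, -15⟩

/-- The curve `19a2` of Cremona's table. -/
def E19a2 : WeierstrassCurve ℤ := ⟨0, 1, 1, -769, -8470⟩

/-- The curve `19a3` of Cremona's table. -/
def E19a3 : WeierstrassCurve ℤ := ⟨0, 1, 1, 1, 0⟩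

/-- The curve `37b1` of Cremona's table. -/
def E37b1 : WeierstrassCurve ℤ := ⟨0, 1, 1, -23, -50⟩

/-- The curve `37b2` of Cremona's table. -/
def E37b2 : WeierstrassCurve ℤ := ⟨0, 1, 1, -1873, -31833⟩

/-- The curve `37b3` of Cremona's table. -/
def E37b3 : WeierstrassCurve ℤ := ⟨0, 1, 1, -3, 1⟩

theorem E19a1_inv : E19a1.c₄ = 448 ∧ E19a1.c₆ = 10088 ∧ E19a1.Δ = -19 ^ 3 := by
  refine ⟨?_, ?_, ?_⟩ <;>
    norm_num [E19a1, WeierstrassCurve.c₄, WeierstrassCurve.c₆, WeierstrassCurve.Δ,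
      WeierstrassCurve.b₂, WeierstrassCurve.b₄, WeierstrassCurve.b₆, WeierstrassCurve.b₈]

theorem E19a2_inv : E19a2.c₄ = 36928 ∧ E19a2.c₆ = 7096328 ∧ E19a2.Δ = -19 := by
  refine ⟨?_, ?_, ?_⟩ <;>
    norm_num [E19a2, WeierstrassCurve.c₄, WeierstrassCurve.c₆, WeierstrassCurve.Δ,
      WeierstrassCurve.b₂, WeierstrassCurve.b₄, WeierstrassCurve.b₆, WeierstrassCurve.b₈]

theorem E19a3_inv : E19a3.c₄ = -32 ∧ E19a3.c₆ = 8 ∧ E19a3.Δ = -19 := by
  refine ⟨?_, ?_, ?_⟩ <;>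
    norm_num [E19a3, WeierstrassCurve.c₄, WeierstrassCurve.c₆, WeierstrassCurve.Δ,
      WeierstrassCurve.b₂, WeierstrassCurve.b₄, WeierstrassCurve.b₆, WeierstrassCurve.b₈]

theorem E37b1_inv : E37b1.c₄ = 1120 ∧ E37b1.c₆ = 36296 ∧ E37b1.Δ = 37 ^ 3 := by
  refine ⟨?_, ?_, ?_⟩ <;>
    norm_num [E37b1, WeierstrassCurve.c₄, WeierstrassCurve.c₆, WeierstrassCurve.Δ,
      WeierstrassCurve.b₂, WeierstrassCurve.b₄, WeierstrassCurve.b₆, WeierstrassCurve.b₈]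

theorem E37b2_inv : E37b2.c₄ = 89920 ∧ E37b2.c₆ = 26964008 ∧ E37b2.Δ = 37 := by
  refine ⟨?_, ?_, ?_⟩ <;>
    norm_num [E37b2, WeierstrassCurve.c₄, WeierstrassCurve.c₆, WeierstrassCurve.Δ,
      WeierstrassCurve.b₂, WeierstrassCurve.b₄, WeierstrassCurve.b₆, WeierstrassCurve.b₈]

theorem E37b3_inv : E37b3.c₄ = 160 ∧ E37b3.c₆ = -2008 ∧ E37b3.Δ = 37 := by
  refine ⟨?_, ?_, ?_⟩ <;>
    norm_num [E37b3, WeierstrassCurve.c₄, WeierstrassCurve.c₆, WeierstrassCurve.Δ,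
      WeierstrassCurve.b₂, WeierstrassCurve.b₄, WeierstrassCurve.b₆, WeierstrassCurve.b₈]

/-- A model whose discriminant is a power of a prime `q` not dividing `c₄`. -/
theorem facts_of_pow {W : WeierstrassCurve ℤ} {q : ℕ} (hq : q.Prime) {n : ℕ} (hn : n ≠ 0)
    (hΔ : W.Δ = q ^ n ∨ W.Δ = -q ^ n) (h4 : ¬ (q : ℤ) ∣ W.c₄) :
    W.Δ ≠ 0 ∧ W.IsSemistableModel ∧ W.conductorLevel = q := by
  have hqI := Nat.prime_iff_prime_int.mp hq
  have habs : W.Δ.natAbs = q ^ n := by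
    rcases hΔ with h | h <;> rw [h]
    · rw [Int.natAbs_pow, Int.natAbs_natCast]
    · rw [Int.natAbs_neg, Int.natAbs_pow, Int.natAbs_natCast]
  refine ⟨?_, ?_, ?_⟩
  · intro h0
    rw [h0, Int.natAbs_zero] at habs
    exact pow_ne_zero n hq.ne_zero habs.symm
  · intro ℓ hℓ hd hd'
    have h1 : ℓ ∣ q ^ n := by rw [← habs]; exact Int.natCast_dvd.mp hd
    have h2 : ℓ = q := (Nat.prime_dvd_prime_iff_eq hℓ hq).mp (hℓ.dvd_of_dvd_pow h1)
    subst h2
    exact h4 hd'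
  · rw [WeierstrassCurve.conductorLevel, habs]
    rw [UniqueFactorizationMonoid.radical_pow _ hn,
      UniqueFactorizationMonoid.radical_of_prime (Nat.prime_iff.mp hq), normalize_eq]

theorem E19a1_facts : E19a1.Δ ≠ 0 ∧ E19a1.IsSemistableModel ∧ E19a1.conductorLevel = 19 :=
  facts_of_pow (q := 19) (by norm_num) (n := 3) (by norm_num)
    (Or.inr (by rw [E19a1_inv.2.2]; norm_num)) (by rw [E19a1_inv.1]; norm_num)

theorem E19a2_facts : E19a2.Δ ≠ 0 ∧ E19a2.IsSemistableModel ∧ E19a2.conductorLevel = 19 :=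
  facts_of_pow (q := 19) (by norm_num) (n := 1) (by norm_num)
    (Or.inr (by rw [E19a2_inv.2.2]; norm_num)) (by rw [E19a2_inv.1]; norm_num)

theorem E19a3_facts : E19a3.Δ ≠ 0 ∧ E19a3.IsSemistableModel ∧ E19a3.conductorLevel = 19 :=
  facts_of_pow (q := 19) (by norm_num) (n := 1) (by norm_num)
    (Or.inr (by rw [E19a3_inv.2.2]; norm_num)) (by rw [E19a3_inv.1]; norm_num)

theorem E37b1_facts : E37b1.Δ ≠ 0 ∧ E37b1.IsSemistableModel ∧ E37b1.conductorLevel = 37 :=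
  facts_of_pow (q := 37) (by norm_num) (n := 3) (by norm_num)
    (Or.inl (by rw [E37b1_inv.2.2]; norm_num)) (by rw [E37b1_inv.1]; norm_num)

theorem E37b2_facts : E37b2.Δ ≠ 0 ∧ E37b2.IsSemistableModel ∧ E37b2.conductorLevel = 37 :=
  facts_of_pow (q := 37) (by norm_num) (n := 1) (by norm_num)
    (Or.inl (by rw [E37b2_inv.2.2]; norm_num)) (by rw [E37b2_inv.1]; norm_num)

theorem E37b3_facts : E37b3.Δ ≠ 0 ∧ E37b3.IsSemistableModel ∧ E37b3.conductorLevel = 37 :=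
  facts_of_pow (q := 37) (by norm_num) (n := 1) (by norm_num)
    (Or.inl (by rw [E37b3_inv.2.2]; norm_num)) (by rw [E37b3_inv.1]; norm_num)

theorem E19a1_reducible : ¬ E19a1.ModRepIsIrreducible 3 :=
  (reducible_three_iff E19a1_facts.1).mpr ⟨64, by rw [E19a1_inv.1, E19a1_inv.2.1]; norm_num⟩

theorem E19a2_reducible : ¬ E19a2.ModRepIsIrreducible 3 :=
  (reducible_three_iff E19a2_facts.1).mpr ⟨-192, by rw [E19a2_inv.1, E19a2_inv.2.1]; norm_num⟩

theorem E19a3_reducible : ¬ E19a3.ModRepIsIrreducible 3 :=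
  (reducible_three_iff E19a3_facts.1).mpr ⟨4, by rw [E19a3_inv.1, E19a3_inv.2.1]; norm_num⟩

theorem E37b1_reducible : ¬ E37b1.ModRepIsIrreducible 3 :=
  (reducible_three_iff E37b1_facts.1).mpr ⟨100, by rw [E37b1_inv.1, E37b1_inv.2.1]; norm_num⟩

theorem E37b2_reducible : ¬ E37b2.ModRepIsIrreducible 3 :=
  (reducible_three_iff E37b2_facts.1).mpr ⟨-300, by rw [E37b2_inv.1, E37b2_inv.2.1]; norm_num⟩

theorem E37b3_reducible : ¬ E37b3.ModRepIsIrreducible 3 :=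
  (reducible_three_iff E37b3_facts.1).mpr ⟨16, by rw [E37b3_inv.1, E37b3_inv.2.1]; norm_num⟩

/-- A curve isomorphic over `ℤ` to an integral model of `E` is an integral model of `E`. -/
theorem isIntegralModelOf_of_iso {W A : WeierstrassCurve ℤ} {E : WeierstrassCurve ℚ}
    (h : W.IsIntegralModelOf E)
    (hA : ∃ r s t : ℤ, (⟨1, r, s, t⟩ : VariableChange ℤ) • W = A) : A.IsIntegralModelOf E := by
  obtain ⟨C, hC⟩ := h
  obtain ⟨r, s, t, hrst⟩ := hA
  refine ⟨(⟨1, r, s, t⟩ : VariableChange ℤ).map (Int.castRingHom ℚ) * C, ?_⟩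
  rw [mul_smul, hC, ← hrst, WeierstrassCurve.map_variableChange]

/-- **At most one bad prime and a rational isogeny of degree three**: the equation is isomorphic over `ℤ`
to one of the six curves. -/
theorem exists_iso_of_reducible_three {W : WeierstrassCurve ℤ} (hΔ : W.Δ ≠ 0)
    (hW : W.IsSemistableModel) {q : ℕ} (hq : q.Prime)
    (hbad : ∀ ℓ : ℕ, ℓ.Prime → (ℓ : ℤ) ∣ W.Δ → ℓ = q) (hred : ¬ W.ModRepIsIrreducible 3) :
    ∃ E : WeierstrassCurve ℤ,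
      ((q = 19 ∧ (E = E19a1 ∨ E = E19a2 ∨ E = E19a3)) ∨
        (q = 37 ∧ (E = E37b1 ∨ E = E37b2 ∨ E = E37b3))) ∧
      ∃ r s t : ℤ, (⟨1, r, s, t⟩ : VariableChange ℤ) • W = E := by
  rcases invariants_of_reducible_three hΔ hW hq hbad hred with
    ⟨h, ⟨h4, h6, -⟩ | ⟨h4, h6, -⟩ | ⟨h4, h6, -⟩⟩ | ⟨h, ⟨h4, h6, -⟩ | ⟨h4, h6, -⟩ | ⟨h4, h6, -⟩⟩
  · exact ⟨E19a3, Or.inl ⟨h, Or.inr (Or.inr rfl)⟩,
      exists_variableChange (h4.trans E19a3_inv.1.symm) (h6.trans E19a3_inv.2.1.symm)⟩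
  · exact ⟨E19a1, Or.inl ⟨h, Or.inl rfl⟩,
      exists_variableChange (h4.trans E19a1_inv.1.symm) (h6.trans E19a1_inv.2.1.symm)⟩
  · exact ⟨E19a2, Or.inl ⟨h, Or.inr (Or.inl rfl)⟩,
      exists_variableChange (h4.trans E19a2_inv.1.symm) (h6.trans E19a2_inv.2.1.symm)⟩
  · exact ⟨E37b3, Or.inr ⟨h, Or.inr (Or.inr rfl)⟩,
      exists_variableChange (h4.trans E37b3_inv.1.symm) (h6.trans E37b3_inv.2.1.symm)⟩
  · exact ⟨E37b1, Or.inr ⟨h, Or.inl rfl⟩,
      exists_variableChange (h4.trans E37b1_inv.1.symm) (h6.trans E37b1_inv.2.1.symm)⟩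
  · exact ⟨E37b2, Or.inr ⟨h, Or.inr (Or.inl rfl)⟩,
      exists_variableChange (h4.trans E37b2_inv.1.symm) (h6.trans E37b2_inv.2.1.symm)⟩

/-- **Semistable elliptic curves over `ℚ` of prime conductor with a rational isogeny of degree three**:
these are exactly `19a1`, `19a2`, `19a3`, `37b1`, `37b2`, `37b3`. -/
theorem prime_conductor_three_iff (E : WeierstrassCurve ℚ) :
    (∃ W : WeierstrassCurve ℤ, W.IsIntegralModelOf E ∧ W.Δ ≠ 0 ∧ W.IsSemistableModel ∧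
      W.conductorLevel.Prime ∧ ¬ W.ModRepIsIrreducible 3) ↔
    (E19a1.IsIntegralModelOf E ∨ E19a2.IsIntegralModelOf E ∨ E19a3.IsIntegralModelOf E ∨
      E37b1.IsIntegralModelOf E ∨ E37b2.IsIntegralModelOf E ∨ E37b3.IsIntegralModelOf E) := by
  have h19 : Nat.Prime 19 := by norm_num
  have h37 : Nat.Prime 37 := by norm_num
  constructor
  · rintro ⟨W, hE, hΔ, hW, hN, hred⟩
    obtain ⟨A, hA, hiso⟩ := exists_iso_of_reducible_three hΔ hW hN (fun ℓ hℓ hd =>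
      (Nat.prime_dvd_prime_iff_eq hℓ hN).mp ((W.prime_dvd_conductorLevel_iff hΔ hℓ).mpr hd)) hred
    have h := isIntegralModelOf_of_iso hE hiso
    rcases hA with ⟨-, rfl | rfl | rfl⟩ | ⟨-, rfl | rfl | rfl⟩ <;> tauto
  · rintro (h | h | h | h | h | h)
    · exact ⟨_, h, E19a1_facts.1, E19a1_facts.2.1, by rw [E19a1_facts.2.2]; exact h19, E19a1_reducible⟩
    · exact ⟨_, h, E19a2_facts.1, E19a2_facts.2.1, by rw [E19a2_facts.2.2]; exact h19, E19a2_reducible⟩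
    · exact ⟨_, h, E19a3_facts.1, E19a3_facts.2.1, by rw [E19a3_facts.2.2]; exact h19, E19a3_reducible⟩
    · exact ⟨_, h, E37b1_facts.1, E37b1_facts.2.1, by rw [E37b1_facts.2.2]; exact h37, E37b1_reducible⟩
    · exact ⟨_, h, E37b2_facts.1, E37b2_facts.2.1, by rw [E37b2_facts.2.2]; exact h37, E37b2_reducible⟩
    · exact ⟨_, h, E37b3_facts.1, E37b3_facts.2.1, by rw [E37b3_facts.2.2]; exact h37, E37b3_reducible⟩

end Fermat.Agent.Cor.Table
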