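import Fermat.Agent.Corollaries.CondLevel
import Fermat.Agent.Corollaries.Eleven.Reducible
import Fermat.Agent.Corollaries.Table.ThreeCurves

/-!
# The elliptic curves of conductor `19`

There are exactly three elliptic curves over `ℚ` of conductor `19`, up to isomorphism: `19a1`
(`y² + y = x³ + x² - 9 x - 15`, the modular curve `X₀(19)`), `19a2`
(`y² + y = x³ + x² - 769 x - 8470`) and `19a3` (`y² + y = x³ + x² + x`).

Proof: the traces of Frobenius are those of `19a3` (modularity and `dim S₂(Γ₀(19)) = 1`), and `(0, 0)` is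
a point of order three of `19a3`, so `3 ∣ ℓ + 1 - a_ℓ` and the representation modulo `3` is reducible; then
`ThreePrime`.
-/

set_option autoImplicit false

open WeierstrassCurve WeierstrassCurve.Affine

namespace Fermat.Agent.Cor.Table

section Field

variable (F : Type*) [Field F]

/-- The curve `y² + y = x³ + x² + x` over a field. -/
def V19 : WeierstrassCurve F := ⟨0, 1, 1, 1, 0⟩

theorem V19_nonsingular : (V19 F).toAffine.Nonsingular 0 0 := by
  rw [Affine.nonsingular_iff, Affine.equation_iff]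
  simp [V19]

variable [DecidableEq F]

/-- The point `(0, 0)`. -/
def pt19 : (V19 F).toAffine.Point := Point.some 0 0 (V19_nonsingular F)

theorem pt19_add : pt19 F + pt19 F = -pt19 F := by
  have hne : (0 : F) ≠ (V19 F).toAffine.negY 0 0 := by
    simp [V19, Affine.negY]
  have hs : (V19 F).toAffine.slope 0 0 0 0 = 1 := by
    rw [slope_of_Y_ne rfl hne]
    simp [V19, Affine.negY]
  unfold pt19
  rw [Point.add_self_of_Y_ne hne, Point.neg_some, Point.some.injEq, hs]
  constructor
  · simp [V19, Affine.addX]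
  · simp [V19, Affine.addY, Affine.negAddY, Affine.addX, Affine.negY]

theorem three_nsmul_pt19 : 3 • pt19 F = 0 := by
  have e : 3 • pt19 F = (pt19 F + pt19 F) + pt19 F := by abel
  rw [e, pt19_add, neg_add_cancel]

theorem three_dvd_card [Finite F] : 3 ∣ Nat.card (V19 F).toAffine.Point := by
  have hfin : Finite (V19 F).toAffine.Point := inferInstance
  have : Fact (Nat.Prime 3) := ⟨by norm_num⟩
  have h1 : addOrderOf (pt19 F) = 3 :=
    addOrderOf_eq_prime (three_nsmul_pt19 F) (Point.some_ne_zero _)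
  rw [← h1]
  exact addOrderOf_dvd_natCard _

end Field

/-- `3` divides the number of points of `19a3` modulo every prime. -/
theorem three_dvd {p : ℕ} (hp : p.Prime) : (3 : ℤ) ∣ p + 1 - E19a3.apOfModel p := by
  have : Fact p.Prime := ⟨hp⟩
  have h1 : E19a3.reductionMod p = V19 (ZMod p) := by
    simp only [E19a3, WeierstrassCurve.reductionMod, WeierstrassCurve.map, V19]
    simp
  have h2 := three_dvd_card (ZMod p)
  rw [apOfModel, h1, traceOfFrobenius, WeierstrassCurve.card, Nat.card_zmod]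
  have h3 : (p : ℤ) + 1 - ((p : ℤ) + 1 - (Nat.card (V19 (ZMod p)).toAffine.Point : ℤ)) =
      (Nat.card (V19 (ZMod p)).toAffine.Point : ℤ) := by ring
  rw [h3]
  exact_mod_cast h2

/-- The traces of Frobenius of a semistable curve of conductor `19`. -/
theorem apOfModel_nineteen {W : WeierstrassCurve ℤ} (hΔ : W.Δ ≠ 0) (hW : W.IsSemistableModel)
    (hN : W.conductorLevel = 19) {ℓ : ℕ} (hℓ : ℓ.Prime) (h : ℓ ≠ 19) :
    W.apOfModel ℓ = E19a3.apOfModel ℓ := by
  refine (apOfModel_eq_of_conductorLevel_eq (W' := E19a3) hΔ hW E19a3_facts.1 E19a3_facts.2.1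
    (by rw [E19a3_facts.2.2, hN]) (by rw [hN]; decide) hℓ fun hd => h ?_).symm
  have h1 := (W.prime_dvd_conductorLevel_iff hΔ hℓ).mpr hd
  rw [hN] at h1
  exact (Nat.prime_dvd_prime_iff_eq hℓ (by norm_num)).mp h1

/-- A semistable curve of conductor `19` is reducible modulo `3`. -/
theorem reducible_nineteen {W : WeierstrassCurve ℤ} (hΔ : W.Δ ≠ 0) (hW : W.IsSemistableModel)
    (hN : W.conductorLevel = 19) : ¬ W.ModRepIsIrreducible 3 := by
  refine Eleven.not_irreducible_of_dvd hΔ (by norm_num) (by norm_num) fun ℓ hℓ hg _ => ?_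
  have h19 : ℓ ≠ 19 := by
    rintro rfl
    exact hg ((W.prime_dvd_conductorLevel_iff hΔ hℓ).mp (by rw [hN]))
  rw [apOfModel_nineteen hΔ hW hN hℓ h19]
  exact three_dvd hℓ

/-- **The elliptic curves of conductor `19`.** Every Weierstrass equation over `ℤ` of a semistable
elliptic curve of conductor `19` is isomorphic over `ℤ` to `19a1`, `19a2` or `19a3`. -/
theorem exists_iso_nineteen {W : WeierstrassCurve ℤ} (hΔ : W.Δ ≠ 0) (hW : W.IsSemistableModel)
    (hN : W.conductorLevel = 19) :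
    ∃ E : WeierstrassCurve ℤ, (E = E19a1 ∨ E = E19a2 ∨ E = E19a3) ∧
      ∃ r s t : ℤ, (⟨1, r, s, t⟩ : VariableChange ℤ) • W = E := by
  have h19 : Nat.Prime 19 := by norm_num
  obtain ⟨E, hE, hiso⟩ := exists_iso_of_reducible_three hΔ hW h19 (fun ℓ hℓ hd => by
    have h1 := (W.prime_dvd_conductorLevel_iff hΔ hℓ).mpr hd
    rw [hN] at h1
    exact (Nat.prime_dvd_prime_iff_eq hℓ h19).mp h1) (reducible_nineteen hΔ hW hN)
  refine ⟨E, ?_, hiso⟩
  rcases hE with ⟨-, h⟩ | ⟨h, -⟩
  · exact h
  · omega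

/-- The three curves of conductor `19` are pairwise non-isomorphic over `ℚ`. -/
theorem nineteen_not_iso :
    (¬ ∃ C : VariableChange ℚ,
      C • E19a1.map (Int.castRingHom ℚ) = E19a2.map (Int.castRingHom ℚ)) ∧
    (¬ ∃ C : VariableChange ℚ,
      C • E19a1.map (Int.castRingHom ℚ) = E19a3.map (Int.castRingHom ℚ)) ∧
    (¬ ∃ C : VariableChange ℚ,
      C • E19a2.map (Int.castRingHom ℚ) = E19a3.map (Int.castRingHom ℚ)) := by
  have key : ∀ {A B : WeierstrassCurve ℤ}, A.c₄ ^ 3 * B.Δ ≠ B.c₄ ^ 3 * A.Δ →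
      ¬ ∃ C : VariableChange ℚ, C • A.map (Int.castRingHom ℚ) = B.map (Int.castRingHom ℚ) := by
    rintro A B h ⟨C, hC⟩
    apply h
    have h4 := congrArg WeierstrassCurve.c₄ hC
    have hD := congrArg WeierstrassCurve.Δ hC
    rw [WeierstrassCurve.variableChange_c₄, WeierstrassCurve.map_c₄, WeierstrassCurve.map_c₄,
      eq_intCast, eq_intCast] at h4
    rw [WeierstrassCurve.variableChange_Δ, WeierstrassCurve.map_Δ, WeierstrassCurve.map_Δ,
      eq_intCast, eq_intCast] at hD
    have h1 : (A.c₄ : ℚ) ^ 3 * B.Δ = (B.c₄ : ℚ) ^ 3 * A.Δ := by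
      rw [← h4, ← hD]; ring
    exact_mod_cast h1
  refine ⟨key ?_, key ?_, key ?_⟩
  · rw [E19a1_inv.1, E19a2_inv.1, E19a1_inv.2.2, E19a2_inv.2.2]; norm_num
  · rw [E19a1_inv.1, E19a3_inv.1, E19a1_inv.2.2, E19a3_inv.2.2]; norm_num
  · rw [E19a2_inv.1, E19a3_inv.1, E19a2_inv.2.2, E19a3_inv.2.2]; norm_num

/-- **There are exactly three elliptic curves over `ℚ` of conductor `19`**: an elliptic curve over `ℚ` has
a Weierstrass equation over `ℤ` with multiplicative reduction at `19` and good reduction elsewhere if and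
only if it is isomorphic to `19a1`, `19a2` or `19a3`. -/
theorem conductor_nineteen_iff (E : WeierstrassCurve ℚ) :
    (∃ W : WeierstrassCurve ℤ, W.IsIntegralModelOf E ∧ W.Δ ≠ 0 ∧ W.IsSemistableModel ∧
      W.conductorLevel = 19) ↔
    (E19a1.IsIntegralModelOf E ∨ E19a2.IsIntegralModelOf E ∨ E19a3.IsIntegralModelOf E) := by
  constructor
  · rintro ⟨W, hE, hΔ, hW, hN⟩
    obtain ⟨A, hA, hiso⟩ := exists_iso_nineteen hΔ hW hN
    have h := isIntegralModelOf_of_iso hE hiso
    rcases hA with rfl | rfl | rfl <;> tauto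
  · rintro (h | h | h)
    · exact ⟨_, h, E19a1_facts⟩
    · exact ⟨_, h, E19a2_facts⟩
    · exact ⟨_, h, E19a3_facts⟩

end Fermat.Agent.Cor.Table
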