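import Fermat.Agent.LTF.Chain.Irr5
import Fermat.Agent.Corollaries.CondLevel
import Fermat.Agent.Corollaries.Eleven.Reducible
import Fermat.Agent.Corollaries.Eleven.Points
import Fermat.Agent.Corollaries.Table.CEq

/-!
# The elliptic curves of conductor `11`

There are exactly three elliptic curves over `ℚ` of conductor `11`, up to isomorphism:

* `E11a1 : y² + y = x³ - x² - 10 x - 20`, the modular curve `X₀(11)`,
* `E11a2 : y² + y = x³ - x² - 7820 x - 263580`,
* `E11a3 : y² + y = x³ - x²`, the modular curve `X₁(11)`.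

More precisely `eq_eleven` : a minimal Weierstrass equation over `ℤ` with multiplicative reduction
at `11` and good reduction elsewhere is obtained from one of the three by a substitution
`x = x' + r`, `y = y' + s x' + t` with integers `r, s, t`.

Proof: the traces of Frobenius of `W` are those of `E11a3` (modularity and `dim S₂(Γ₀(11)) = 1`), and
`5 ∣ ℓ + 1 - a_ℓ`, so `W` has a rational subgroup of order `5`; hence there are coprime integers
`H, Q > 0` with `Δ = Q⁵ H`, `X² = H² + 22 H Q + 125 Q²`, `c₆ = - X (H² + 4 H Q - Q²)` (or the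
same for the isogenous curve), and `H`, `Q` are powers of `11` up to sign.
-/

set_option autoImplicit false

namespace Fermat.Agent.Cor.Table

open WeierstrassCurve

/-! ### The Diophantine equation -/

/-- A positive integer all of whose prime factors are equal to `p`. -/
theorem eq_pow_of_primes {p : ℕ} {Q : ℤ} (hQ : 0 < Q)
    (h : ∀ q : ℕ, q.Prime → (q : ℤ) ∣ Q → q = p) : ∃ n : ℕ, Q = (p : ℤ) ^ n := by
  obtain ⟨m, rfl⟩ := Int.eq_ofNat_of_zero_le hQ.le
  have hm : m ≠ 0 := by rintro rfl; simp at hQ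
  refine ⟨m.primeFactorsList.length, ?_⟩
  exact_mod_cast Nat.eq_prime_pow_of_unique_prime_dvd hm fun {d} hd hdm =>
    h d hd (by exact_mod_cast hdm)

/-- The equation `X² = u² + 22 u v + 125 v²` in powers of `11`. -/
theorem dioph_eleven {u v X : ℤ} (hco : IsCoprime u v) (hu : u ≠ 0) (hv : 0 < v)
    (h11 : ∀ q : ℕ, q.Prime → (q : ℤ) ∣ u * v → q = 11)
    (h : X ^ 2 = u ^ 2 + 22 * u * v + 125 * v ^ 2) :
    (v = 1 ∧ u = -11 ∧ (X = 2 ∨ X = -2)) ∨ (v = 11 ∧ u = -1 ∧ (X = 122 ∨ X = -122)) := by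
  obtain ⟨n, hn⟩ := eq_pow_of_primes (p := 11) hv fun q hq hd => h11 q hq (dvd_mul_of_dvd_right hd u)
  rcases Nat.eq_zero_or_pos n with h0 | h0
  · left
    rw [h0, pow_zero] at hn
    subst hn
    have h1 : (X - (u + 11)) * (X + (u + 11)) = 4 := by linear_combination h
    have h2 : X - (u + 11) ∣ 4 := ⟨_, h1.symm⟩
    have h3 : (X - (u + 11)).natAbs ∣ 4 := by
      have := Int.natAbs_dvd_natAbs.mpr h2
      simpa using this
    have h4 : (X - (u + 11)).natAbs ≤ 4 := Nat.le_of_dvd (by norm_num) h3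
    have h5 : -4 ≤ X - (u + 11) ∧ X - (u + 11) ≤ 4 := by omega
    generalize hA : X - (u + 11) = A at *
    generalize hB : X + (u + 11) = B at *
    obtain ⟨h6, h7⟩ := h5
    have hX : 2 * X = A + B := by rw [← hA, ← hB]; ring
    have hU : 2 * (u + 11) = B - A := by rw [← hA, ← hB]; ring
    interval_cases A <;> omega
  · right
    have hv11 : (11 : ℤ) ∣ v := by
      rw [hn]; exact dvd_pow_self _ h0.ne'
    have hv11' : 11 ≤ v := Int.le_of_dvd hv hv11
    -- `u = ± 1`
    have hu1 : u = 1 ∨ u = -1 := by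
      rw [← Int.isUnit_iff, Int.isUnit_iff_natAbs_eq]
      by_contra hne
      obtain ⟨q, hq, hqu⟩ := Nat.exists_prime_and_dvd hne
      have hqu' : (q : ℤ) ∣ u := Int.natCast_dvd.mpr hqu
      have hq11 := h11 q hq (dvd_mul_of_dvd_left hqu' v)
      subst hq11
      have h1 := hco.isUnit_of_dvd' hqu' (by exact_mod_cast hv11)
      exact (Nat.prime_iff_prime_int.mp hq).not_isUnit h1
    -- it is enough to treat `X > 0`
    have key : ∀ Y : ℤ, 0 < Y → Y ^ 2 = u ^ 2 + 22 * u * v + 125 * v ^ 2 →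
        v = 11 ∧ u = -1 ∧ Y = 122 := by
      intro Y hY hYe
      have hp11 : Prime (11 : ℤ) := by
        have : Nat.Prime 11 := by norm_num
        exact_mod_cast Nat.prime_iff_prime_int.mp this
      have hu2 : u ^ 2 = 1 := by rcases hu1 with rfl | rfl <;> norm_num
      have hprod : (Y - 1) * (Y + 1) = v * (125 * v + 22 * u) := by
        linear_combination hYe + hu2
      have hbig : ∀ k : ℤ, 0 ≤ k → (k * (v * k + 2) = 125 * v + 22 * u ∨
          k * (v * k - 2) = 125 * v + 22 * u) → k = 11 := by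
        intro k hk hk'
        have h1 : v * (k ^ 2 - 125) ≤ 22 + 2 * k ∧ -(22 + 2 * k) ≤ v * (k ^ 2 - 125) := by
          rcases hu1 with rfl | rfl <;> rcases hk' with hk' | hk' <;> constructor <;> nlinarith
        have hk12 : k < 12 := by
          by_contra hc
          push Not at hc
          nlinarith [h1.1, mul_le_mul_of_nonneg_right hv11' (show (0 : ℤ) ≤ k ^ 2 - 125 by nlinarith)]
        have hk10 : 10 < k := by
          by_contra hc
          push Not at hc
          have h2 : 25 ≤ 125 - k ^ 2 := by nlinarith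
          nlinarith [h1.2, mul_le_mul_of_nonneg_right hv11' (show (0 : ℤ) ≤ 125 - k ^ 2 by linarith)]
        omega
      by_cases hd : (11 : ℤ) ∣ Y + 1
      · have hnd : ¬ (11 : ℤ) ∣ Y - 1 := fun hd' => by omega
        have hc : IsCoprime v (Y - 1) := by
          rw [hn]
          exact IsCoprime.pow_left (by exact_mod_cast (hp11.coprime_iff_not_dvd.mpr hnd))
        have hdv : v ∣ Y + 1 := hc.dvd_of_dvd_mul_left (hprod ▸ dvd_mul_right v _)
        obtain ⟨k, hk⟩ := hdv
        have hk0 : 0 ≤ k := by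
          by_contra hcon
          push Not at hcon
          nlinarith
        have hY' : Y = v * k - 1 := by linarith
        have hk' : k * (v * k - 2) = 125 * v + 22 * u := by
          have : v * (k * (v * k - 2)) = v * (125 * v + 22 * u) := by
            rw [← hprod, hY']; ring
          exact mul_left_cancel₀ hv.ne' this
        have hk11 := hbig k hk0 (Or.inr hk')
        subst hk11
        exfalso
        rcases hu1 with rfl | rfl <;> omega
      · have hc : IsCoprime v (Y + 1) := by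
          rw [hn]
          exact IsCoprime.pow_left (by exact_mod_cast (hp11.coprime_iff_not_dvd.mpr hd))
        have hdv : v ∣ Y - 1 := hc.dvd_of_dvd_mul_right (hprod ▸ dvd_mul_right v _)
        obtain ⟨k, hk⟩ := hdv
        have hk0 : 0 ≤ k := by
          by_contra hcon
          push Not at hcon
          nlinarith
        have hY' : Y = v * k + 1 := by linarith
        have hk' : k * (v * k + 2) = 125 * v + 22 * u := by
          have : v * (k * (v * k + 2)) = v * (125 * v + 22 * u) := by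
            rw [← hprod, hY']; ring
          exact mul_left_cancel₀ hv.ne' this
        have hk11 := hbig k hk0 (Or.inl hk')
        subst hk11
        rcases hu1 with rfl | rfl
        · exfalso; omega
        · have : v = 11 := by omega
          subst this
          exact ⟨rfl, rfl, by omega⟩
    have hX0 : X ≠ 0 := by
      rintro rfl
      have h1 : 0 < u ^ 2 + 22 * u * v + 125 * v ^ 2 := by nlinarith [sq_nonneg (u + 11 * v)]
      rw [← h] at h1
      norm_num at h1
    rcases lt_or_gt_of_ne hX0 with hneg | hpos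
    · obtain ⟨h1, h2, h3⟩ := key (-X) (by linarith) (by rw [← h]; ring)
      exact ⟨h1, h2, Or.inr (by linarith)⟩
    · obtain ⟨h1, h2, h3⟩ := key X hpos h
      exact ⟨h1, h2, Or.inl h3⟩

/-! ### The invariants -/

theorem c₄_eq_of_pow {a b : ℤ} (h : a ^ 3 = b ^ 3) : a = b :=
  (Odd.strictMono_pow (by decide : Odd 3)).injective h

/-- The sign of `c₆` is determined by `c₆ ≡ 0, 8` modulo `32` if `c₄` is even. -/
theorem c_of_sign {W : WeierstrassCurve ℤ} {D c a : ℤ} (hD : W.Δ = D)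
    (hc : W.c₆ = c ∨ W.c₆ = -c) (ha : 1728 * D = a ^ 3 - c ^ 2) (h2 : (2 : ℤ) ∣ a)
    (h8 : c % 32 = 8) : W.c₄ = a ∧ W.c₆ = c := by
  have h1 := W.c_relation
  have h2' : W.c₆ ^ 2 = c ^ 2 := by
    rcases hc with hc | hc
    · rw [hc]
    · rw [hc, neg_sq]
  have h3 : W.c₄ = a := c₄_eq_of_pow (by rw [hD, h2'] at h1; linarith)
  have h4 := c₆_emod (W := W) (by rw [h3]; exact h2)
  exact ⟨h3, by omega⟩

theorem c_eleven_one {W : WeierstrassCurve ℤ} (hΔ : W.Δ ≠ 0)
    (h11 : ∀ q : ℕ, q.Prime → (q : ℤ) ∣ W.Δ → q = 11) {H Q X : ℤ} (hco : IsCoprime H Q)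
    (hQ : 0 < Q) (hX : X ^ 2 = H ^ 2 + 22 * H * Q + 125 * Q ^ 2)
    (h6 : W.c₆ = -X * (H ^ 2 + 4 * H * Q - Q ^ 2)) (hD : W.Δ = Q ^ 5 * H) :
    (W.c₄ = 496 ∧ W.c₆ = 20008) ∨ (W.c₄ = 16 ∧ W.c₆ = -152) := by
  have hH0 : H ≠ 0 := by
    rintro rfl
    exact hΔ (by rw [hD]; ring)
  have hpr : ∀ q : ℕ, q.Prime → (q : ℤ) ∣ H * Q → q = 11 := by
    intro q hq hd
    refine h11 q hq ?_
    rw [hD]
    rcases (Nat.prime_iff_prime_int.mp hq).dvd_or_dvd hd with h | h
    · exact dvd_mul_of_dvd_right h _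
    · exact dvd_mul_of_dvd_left (dvd_pow h (by norm_num)) _
  rcases dioph_eleven hco hH0 hQ hpr hX with ⟨rfl, rfl, hX'⟩ | ⟨rfl, rfl, hX'⟩
  · right
    refine c_of_sign (D := -11) (by rw [hD]; norm_num) ?_ (by norm_num) (by norm_num) (by norm_num)
    rcases hX' with rfl | rfl
    · left; rw [h6]; norm_num
    · right; rw [h6]; norm_num
  · left
    refine c_of_sign (D := -161051) (by rw [hD]; norm_num) ?_ (by norm_num) (by norm_num)
      (by norm_num)
    rcases hX' with rfl | rfl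
    · left; rw [h6]; norm_num
    · right; rw [h6]; norm_num

theorem c_eleven_five {W : WeierstrassCurve ℤ} (hΔ : W.Δ ≠ 0)
    (h11 : ∀ q : ℕ, q.Prime → (q : ℤ) ∣ W.Δ → q = 11) {G Q Y : ℤ} (hco : IsCoprime Q G)
    (hQ : 0 < Q) (hY : Y ^ 2 = Q ^ 2 + 22 * Q * G + 125 * G ^ 2)
    (h6 : W.c₆ = -Y * (15625 * G ^ 2 + 500 * G * Q - Q ^ 2)) (hD : W.Δ = Q ^ 5 * G) :
    (W.c₄ = 496 ∧ W.c₆ = 20008) ∨ (W.c₄ = 375376 ∧ W.c₆ = 229985128) := by
  have hG0 : G ≠ 0 := by
    rintro rfl
    exact hΔ (by rw [hD]; ring)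
  have hpr : ∀ q : ℕ, q.Prime → (q : ℤ) ∣ Q * G → q = 11 := by
    intro q hq hd
    refine h11 q hq ?_
    rw [hD]
    rcases (Nat.prime_iff_prime_int.mp hq).dvd_or_dvd hd with h | h
    · exact dvd_mul_of_dvd_left (dvd_pow h (by norm_num)) _
    · exact dvd_mul_of_dvd_right h _
  rcases lt_or_gt_of_ne hG0 with hneg | hpos
  · rcases dioph_eleven (u := -Q) (v := -G) (X := Y) hco.neg_neg (neg_ne_zero.mpr hQ.ne')
      (by linarith) (fun q hq hd => hpr q hq (by rwa [neg_mul_neg] at hd)) (by rw [hY]; ring)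
      with ⟨h1, h2, hX'⟩ | ⟨h1, h2, hX'⟩
    · obtain rfl : G = -1 := by linarith
      obtain rfl : Q = 11 := by linarith
      left
      refine c_of_sign (D := -161051) (by rw [hD]; norm_num) ?_ (by norm_num) (by norm_num)
        (by norm_num)
      rcases hX' with rfl | rfl
      · right; rw [h6]; norm_num
      · left; rw [h6]; norm_num
    · obtain rfl : G = -11 := by linarith
      obtain rfl : Q = 1 := by linarith
      right
      refine c_of_sign (D := -11) (by rw [hD]; norm_num) ?_ (by norm_num) (by norm_num)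
        (by norm_num)
      rcases hX' with rfl | rfl
      · right; rw [h6]; norm_num
      · left; rw [h6]; norm_num
  · exfalso
    rcases dioph_eleven hco hQ.ne' hpos hpr hY with ⟨-, h2, -⟩ | ⟨-, h2, -⟩ <;> linarith

/-- The invariants of a semistable curve with bad reduction only at `11` and a rational subgroup of
order `5`. -/
theorem c_eleven {W : WeierstrassCurve ℤ} (hΔ : W.Δ ≠ 0) (hW : W.IsSemistableModel)
    (hred : ¬ W.ModRepIsIrreducible 5) (h11 : ∀ q : ℕ, q.Prime → (q : ℤ) ∣ W.Δ → q = 11) :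
    (W.c₄ = 496 ∧ W.c₆ = 20008) ∨ (W.c₄ = 375376 ∧ W.c₆ = 229985128) ∨
      (W.c₄ = 16 ∧ W.c₆ = -152) := by
  obtain ⟨H, Q, X, hco, hQ, ⟨hX, h6, hD⟩ | ⟨hH, hX, h6, hD⟩⟩ :=
    LTF.Chain.integral_five W hΔ hW hred
  · rcases c_eleven_one hΔ h11 hco hQ hX h6 hD with h | h
    · exact Or.inl h
    · exact Or.inr (Or.inr h)
  · obtain ⟨G, rfl⟩ := hH
    obtain ⟨Y, rfl⟩ : (5 : ℤ) ∣ X := by
      have h5 : Prime (5 : ℤ) := by
        have : Nat.Prime 5 := by norm_num
        exact_mod_cast Nat.prime_iff_prime_int.mp this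
      refine h5.dvd_of_dvd_pow (n := 2) ⟨5 * (125 * G ^ 2 + 22 * G * Q + Q ^ 2), ?_⟩
      linarith
    rcases c_eleven_five hΔ h11 (IsCoprime.of_mul_left_right hco).symm hQ (Y := Y)
      (by linarith) (by linarith) (by linarith) with h | h
    · exact Or.inl h
    · exact Or.inr (Or.inl h)

/-! ### The table -/

/-- The curve `11a1` of Cremona's table, `X₀(11)`. -/
def E11a1 : WeierstrassCurve ℤ := ⟨0, -1, 1, -10, -20⟩

/-- The curve `11a2` of Cremona's table. -/
def E11a2 : WeierstrassCurve ℤ := ⟨0, -1, 1, -7820, -263580⟩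

/-- The curve `11a3` of Cremona's table, `X₁(11)`. -/
def E11a3 : WeierstrassCurve ℤ := ⟨0, -1, 1, 0, 0⟩

theorem E11a1_c₄ : E11a1.c₄ = 496 := by
  norm_num [E11a1, WeierstrassCurve.c₄, WeierstrassCurve.b₂, WeierstrassCurve.b₄]

theorem E11a2_c₄ : E11a2.c₄ = 375376 := by
  norm_num [E11a2, WeierstrassCurve.c₄, WeierstrassCurve.b₂, WeierstrassCurve.b₄]

theorem E11a3_c₄ : E11a3.c₄ = 16 := by
  norm_num [E11a3, WeierstrassCurve.c₄, WeierstrassCurve.b₂, WeierstrassCurve.b₄]

theorem E11a1_c₆ : E11a1.c₆ = 20008 := by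
  norm_num [E11a1, WeierstrassCurve.c₆, WeierstrassCurve.b₂, WeierstrassCurve.b₄,
    WeierstrassCurve.b₆]

theorem E11a2_c₆ : E11a2.c₆ = 229985128 := by
  norm_num [E11a2, WeierstrassCurve.c₆, WeierstrassCurve.b₂, WeierstrassCurve.b₄,
    WeierstrassCurve.b₆]

theorem E11a3_c₆ : E11a3.c₆ = -152 := by
  norm_num [E11a3, WeierstrassCurve.c₆, WeierstrassCurve.b₂, WeierstrassCurve.b₄,
    WeierstrassCurve.b₆]

theorem E11a1_Δ : E11a1.Δ = -11 ^ 5 := by
  norm_num [E11a1, WeierstrassCurve.Δ, WeierstrassCurve.b₂, WeierstrassCurve.b₄,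
    WeierstrassCurve.b₆, WeierstrassCurve.b₈]

theorem E11a2_Δ : E11a2.Δ = -11 := by
  norm_num [E11a2, WeierstrassCurve.Δ, WeierstrassCurve.b₂, WeierstrassCurve.b₄,
    WeierstrassCurve.b₆, WeierstrassCurve.b₈]

theorem E11a3_Δ : E11a3.Δ = -11 := by
  norm_num [E11a3, WeierstrassCurve.Δ, WeierstrassCurve.b₂, WeierstrassCurve.b₄,
    WeierstrassCurve.b₆, WeierstrassCurve.b₈]

theorem isSemistableModel_of_eleven {W : WeierstrassCurve ℤ} {n : ℕ} (hΔ : W.Δ = -11 ^ n)
    (h4 : ¬ (11 : ℤ) ∣ W.c₄) : W.IsSemistableModel := by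
  intro q hq hd hd'
  have hqI := Nat.prime_iff_prime_int.mp hq
  rw [hΔ, dvd_neg] at hd
  have h1 : (q : ℤ) ∣ 11 := hqI.dvd_of_dvd_pow hd
  have h2 : q ∣ 11 := by exact_mod_cast h1
  have h3 : q = 11 := (Nat.prime_dvd_prime_iff_eq hq (by norm_num)).mp h2
  subst h3
  exact h4 (by exact_mod_cast hd')

theorem conductorLevel_of_eleven {W : WeierstrassCurve ℤ} {n : ℕ} (hn : n ≠ 0)
    (hΔ : W.Δ = -11 ^ n) : W.conductorLevel = 11 := by
  rw [WeierstrassCurve.conductorLevel, hΔ, Int.natAbs_neg, Int.natAbs_pow]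
  change UniqueFactorizationMonoid.radical ((11 : ℕ) ^ n) = 11
  rw [UniqueFactorizationMonoid.radical_pow _ hn,
    UniqueFactorizationMonoid.radical_of_prime (Nat.prime_iff.mp (by norm_num)), normalize_eq]

theorem E11a1_semistable : E11a1.IsSemistableModel :=
  isSemistableModel_of_eleven E11a1_Δ (by rw [E11a1_c₄]; norm_num)

theorem E11a2_semistable : E11a2.IsSemistableModel :=
  isSemistableModel_of_eleven (n := 1) (by rw [E11a2_Δ, pow_one]) (by rw [E11a2_c₄]; norm_num)

theorem E11a3_semistable : E11a3.IsSemistableModel :=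
  isSemistableModel_of_eleven (n := 1) (by rw [E11a3_Δ, pow_one]) (by rw [E11a3_c₄]; norm_num)

theorem E11a1_conductorLevel : E11a1.conductorLevel = 11 :=
  conductorLevel_of_eleven (n := 5) (by norm_num) E11a1_Δ

theorem E11a2_conductorLevel : E11a2.conductorLevel = 11 :=
  conductorLevel_of_eleven (n := 1) one_ne_zero (by rw [E11a2_Δ, pow_one])

theorem E11a3_conductorLevel : E11a3.conductorLevel = 11 :=
  conductorLevel_of_eleven (n := 1) one_ne_zero (by rw [E11a3_Δ, pow_one])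

theorem E11a3_Δ_ne_zero : E11a3.Δ ≠ 0 := by rw [E11a3_Δ]; norm_num

/-- Curves with different `j`-invariants are not isomorphic. -/
theorem not_exists_variableChange {A B : WeierstrassCurve ℤ}
    (h : A.c₄ ^ 3 * B.Δ ≠ B.c₄ ^ 3 * A.Δ) :
    ¬ ∃ C : VariableChange ℚ, C • A.map (Int.castRingHom ℚ) = B.map (Int.castRingHom ℚ) := by
  rintro ⟨C, hC⟩
  apply h
  have h4 := congrArg WeierstrassCurve.c₄ hC
  have hD := congrArg WeierstrassCurve.Δ hC
  rw [WeierstrassCurve.variableChange_c₄, WeierstrassCurve.map_c₄, WeierstrassCurve.map_c₄,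
    eq_intCast, eq_intCast] at h4
  rw [WeierstrassCurve.variableChange_Δ, WeierstrassCurve.map_Δ, WeierstrassCurve.map_Δ,
    eq_intCast, eq_intCast] at hD
  have h1 : (A.c₄ : ℚ) ^ 3 * B.Δ = (B.c₄ : ℚ) ^ 3 * A.Δ := by
    rw [← h4, ← hD]; ring
  exact_mod_cast h1

/-- **The elliptic curves of conductor `11`.** Every Weierstrass equation over `ℤ` of a semistable
elliptic curve of conductor `11` is isomorphic over `ℤ` to `11a1`, `11a2` or `11a3`. -/
theorem exists_iso_eleven {W : WeierstrassCurve ℤ} (hΔ : W.Δ ≠ 0) (hW : W.IsSemistableModel)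
    (hN : W.conductorLevel = 11) :
    ∃ E : WeierstrassCurve ℤ, (E = E11a1 ∨ E = E11a2 ∨ E = E11a3) ∧
      ∃ r s t : ℤ, (⟨1, r, s, t⟩ : VariableChange ℤ) • W = E := by
  have hred : ¬ W.ModRepIsIrreducible 5 := by
    refine Eleven.not_irreducible_of_dvd hΔ (by norm_num) (by norm_num) fun ℓ hℓ hg _ => ?_
    rw [← apOfModel_eq_of_conductorLevel_eq (W' := E11a3) hΔ hW E11a3_Δ_ne_zero E11a3_semistable
      (by rw [E11a3_conductorLevel, hN]) (by rw [hN]; decide) hℓ hg]
    exact Eleven.five_dvd hℓ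
  have h11 : ∀ q : ℕ, q.Prime → (q : ℤ) ∣ W.Δ → q = 11 := by
    intro q hq hd
    have h := (W.prime_dvd_conductorLevel_iff hΔ hq).mpr hd
    rw [hN] at h
    exact (Nat.prime_dvd_prime_iff_eq hq (by norm_num)).mp h
  rcases c_eleven hΔ hW hred h11 with ⟨h4, h6⟩ | ⟨h4, h6⟩ | ⟨h4, h6⟩
  · exact ⟨E11a1, Or.inl rfl, exists_variableChange (by rw [h4, E11a1_c₄]) (by rw [h6, E11a1_c₆])⟩
  · exact ⟨E11a2, Or.inr (Or.inl rfl),
      exists_variableChange (by rw [h4, E11a2_c₄]) (by rw [h6, E11a2_c₆])⟩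
  · exact ⟨E11a3, Or.inr (Or.inr rfl),
      exists_variableChange (by rw [h4, E11a3_c₄]) (by rw [h6, E11a3_c₆])⟩

/-- The three curves of conductor `11` are pairwise non-isomorphic over `ℚ`. -/
theorem eleven_not_iso :
    (¬ ∃ C : VariableChange ℚ,
      C • E11a1.map (Int.castRingHom ℚ) = E11a2.map (Int.castRingHom ℚ)) ∧
    (¬ ∃ C : VariableChange ℚ,
      C • E11a1.map (Int.castRingHom ℚ) = E11a3.map (Int.castRingHom ℚ)) ∧
    (¬ ∃ C : VariableChange ℚ,
      C • E11a2.map (Int.castRingHom ℚ) = E11a3.map (Int.castRingHom ℚ)) := by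
  refine ⟨not_exists_variableChange ?_, not_exists_variableChange ?_,
    not_exists_variableChange ?_⟩
  · rw [E11a1_c₄, E11a2_c₄, E11a1_Δ, E11a2_Δ]; norm_num
  · rw [E11a1_c₄, E11a3_c₄, E11a1_Δ, E11a3_Δ]; norm_num
  · rw [E11a2_c₄, E11a3_c₄, E11a2_Δ, E11a3_Δ]; norm_num

/-- **There are exactly three elliptic curves over `ℚ` of conductor `11`**: an elliptic curve over
`ℚ` has a (minimal) Weierstrass equation over `ℤ` with multiplicative reduction at `11` and good
reduction elsewhere if and only if it is isomorphic to `11a1`, `11a2` or `11a3`. -/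
theorem conductor_eleven_iff (E : WeierstrassCurve ℚ) :
    (∃ W : WeierstrassCurve ℤ, W.IsIntegralModelOf E ∧ W.Δ ≠ 0 ∧ W.IsSemistableModel ∧
      W.conductorLevel = 11) ↔
    (E11a1.IsIntegralModelOf E ∨ E11a2.IsIntegralModelOf E ∨ E11a3.IsIntegralModelOf E) := by
  constructor
  · rintro ⟨W, ⟨C, hC⟩, hΔ, hW, hN⟩
    obtain ⟨A, hA, r, s, t, hrst⟩ := exists_iso_eleven hΔ hW hN
    have h : A.IsIntegralModelOf E := by
      refine ⟨(⟨1, r, s, t⟩ : VariableChange ℤ).map (Int.castRingHom ℚ) * C, ?_⟩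
      rw [mul_smul, hC, ← hrst, WeierstrassCurve.map_variableChange]
    rcases hA with rfl | rfl | rfl
    · exact Or.inl h
    · exact Or.inr (Or.inl h)
    · exact Or.inr (Or.inr h)
  · rintro (h | h | h)
    · exact ⟨_, h, by rw [E11a1_Δ]; norm_num, E11a1_semistable, E11a1_conductorLevel⟩
    · exact ⟨_, h, by rw [E11a2_Δ]; norm_num, E11a2_semistable, E11a2_conductorLevel⟩
    · exact ⟨_, h, by rw [E11a3_Δ]; norm_num, E11a3_semistable, E11a3_conductorLevel⟩

end Fermat.Agent.Cor.Table
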