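import Fermat.Agent.Corollaries.Table.Red2

/-!
# Weierstrass equations over `ℤ` with a rational point of order two

* `exists_two`: if `4 x³ + b₂ x² + 2 b₄ x + b₆` has a rational root and the equation is semistable
  at `2`, then there are integers `a`, `b` with
  (I) `a` odd, `c₄ = a² - 48 b`, `c₆ = - a (a² - 72 b)`, `Δ = b² (a² - 64 b)`, or
  (II) `b` odd, `c₄ = 4 a² - 3 b`, `c₆ = - a (8 a² - 9 b)`, `64 Δ = b² (a² - b)`;
* `isCoprime_two`: `a` and `b` are coprime if the equation is semistable;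
* `even_apOfModel_of_root`: `a_ℓ` is even for all good primes `ℓ ≠ 2`.
-/

set_option autoImplicit false

noncomputable section

namespace Fermat.Agent.Cor.Table

open WeierstrassCurve WeierstrassCurve.Affine WeierstrassCurve.Affine.Point
open Fermat.Agent.ECFrob Fermat.Agent.Classic Fermat.Agent.ECRed
open Matrix

variable {W : WeierstrassCurve ℤ}

/-! ### The congruences for `c₄` and `c₆` at `2` -/

/-- `c₄` is odd or divisible by `16`. -/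
theorem sixteen_dvd_c₄ (h : (2 : ℤ) ∣ W.c₄) : (16 : ℤ) ∣ W.c₄ := by
  have h2 : Prime (2 : ℤ) := Int.prime_two
  have h1 : (2 : ℤ) ∣ W.b₂ := by
    refine h2.dvd_of_dvd_pow (n := 2) ?_
    have h3 : W.b₂ ^ 2 = W.c₄ + 2 * (12 * W.b₄) := by rw [WeierstrassCurve.c₄]; ring
    rw [h3]
    exact dvd_add h (dvd_mul_right _ _)
  have h3 : (2 : ℤ) ∣ W.a₁ := by
    refine h2.dvd_of_dvd_pow (n := 2) ?_
    have h4 : W.a₁ ^ 2 = W.b₂ + 2 * (-2 * W.a₂) := by rw [WeierstrassCurve.b₂]; ring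
    rw [h4]
    exact dvd_add h1 (dvd_mul_right _ _)
  obtain ⟨k, hk⟩ := h3
  refine ⟨(k ^ 2 + W.a₂) ^ 2 - 3 * (W.a₄ + k * W.a₃), ?_⟩
  rw [WeierstrassCurve.c₄, WeierstrassCurve.b₂, WeierstrassCurve.b₄, hk]
  ring

/-- `c₆ ≡ -1` modulo `4` if `c₄` is odd. -/
theorem c₆_add_one (h : ¬ (2 : ℤ) ∣ W.c₄) : (4 : ℤ) ∣ W.c₆ + 1 := by
  have h3 : ¬ (2 : ℤ) ∣ W.a₁ := by
    intro h3
    apply h
    obtain ⟨k, hk⟩ := h3
    refine ⟨8 * ((k ^ 2 + W.a₂) ^ 2 - 3 * (W.a₄ + k * W.a₃)), ?_⟩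
    rw [WeierstrassCurve.c₄, WeierstrassCurve.b₂, WeierstrassCurve.b₄, hk]
    ring
  obtain ⟨k, hk⟩ : ∃ k, W.a₁ = 2 * k + 1 := ⟨W.a₁ / 2, by omega⟩
  have hb : W.b₂ = 1 + 4 * (k ^ 2 + k + W.a₂) := by
    rw [WeierstrassCurve.b₂, hk]
    ring
  set s := k ^ 2 + k + W.a₂
  refine ⟨-(3 * s + 12 * s ^ 2 + 16 * s ^ 3) + 9 * W.b₂ * W.b₄ - 54 * W.b₆, ?_⟩
  rw [WeierstrassCurve.c₆, hb]
  ring

/-! ### The normal form -/

/-- A rational root of `4 x³ + b₂ x² + 2 b₄ x + b₆` is a quarter of an integer. -/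
theorem exists_AB {x : ℚ} (hx : 4 * x ^ 3 + W.b₂ * x ^ 2 + 2 * W.b₄ * x + W.b₆ = 0) :
    ∃ A B : ℤ, W.c₄ = A ^ 2 - 3 * B ∧ 2 * W.c₆ = -(A * (2 * A ^ 2 - 9 * B)) ∧
      256 * W.Δ = B ^ 2 * (A ^ 2 - 4 * B) := by
  have hint : _root_.IsIntegral ℤ (4 * x) := by
    refine ⟨Polynomial.X ^ 3 + Polynomial.C W.b₂ * Polynomial.X ^ 2 +
      Polynomial.C (8 * W.b₄) * Polynomial.X + Polynomial.C (16 * W.b₆), ?_, ?_⟩
    · monicity!
    · simp only [Polynomial.eval₂_add, Polynomial.eval₂_mul, Polynomial.eval₂_pow,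
        Polynomial.eval₂_X, Polynomial.eval₂_C]
      simp only [algebraMap_int_eq, eq_intCast, Int.cast_mul, Int.cast_ofNat]
      linear_combination (16 : ℚ) * hx
  obtain ⟨e, he⟩ := (IsIntegrallyClosed.isIntegral_iff (R := ℤ)).mp hint
  have he' : (e : ℚ) = 4 * x := he
  have hroot : e ^ 3 + W.b₂ * e ^ 2 + 8 * W.b₄ * e + 16 * W.b₆ = 0 := by
    have h1 : (e : ℚ) ^ 3 + W.b₂ * (e : ℚ) ^ 2 + 8 * W.b₄ * (e : ℚ) + 16 * W.b₆ = 0 := by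
      rw [he']
      linear_combination (16 : ℚ) * hx
    exact_mod_cast h1
  have h8 := W.b_relation
  refine ⟨3 * e + W.b₂, 3 * e ^ 2 + 2 * W.b₂ * e + 8 * W.b₄, ?_, ?_, ?_⟩
  · rw [WeierstrassCurve.c₄]
    ring
  · rw [WeierstrassCurve.c₆]
    linear_combination (-27 : ℤ) * hroot
  · rw [WeierstrassCurve.Δ]
    linear_combination (-64 * W.b₂ ^ 2) * h8 +
      (18 * (3 * e + W.b₂) * (3 * e ^ 2 + 2 * W.b₂ * e + 8 * W.b₄) - 4 * (3 * e + W.b₂) ^ 3 -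
        27 * (e ^ 3 + W.b₂ * e ^ 2 + 8 * W.b₄ * e + 16 * W.b₆)) * hroot

/-- **The normal form.** -/
theorem exists_two (h2 : (2 : ℤ) ∣ W.Δ → ¬ (2 : ℤ) ∣ W.c₄) {x : ℚ}
    (hx : 4 * x ^ 3 + W.b₂ * x ^ 2 + 2 * W.b₄ * x + W.b₆ = 0) :
    ∃ a b : ℤ, (¬ (2 : ℤ) ∣ a ∧ W.c₄ = a ^ 2 - 48 * b ∧ W.c₆ = -(a * (a ^ 2 - 72 * b)) ∧
        W.Δ = b ^ 2 * (a ^ 2 - 64 * b)) ∨
      (¬ (2 : ℤ) ∣ b ∧ W.c₄ = 4 * a ^ 2 - 3 * b ∧ W.c₆ = -(a * (8 * a ^ 2 - 9 * b)) ∧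
        64 * W.Δ = b ^ 2 * (a ^ 2 - b)) := by
  obtain ⟨A, B, h4, h6, hD⟩ := exists_AB hx
  have hp : Prime (2 : ℤ) := Int.prime_two
  by_cases hA : (2 : ℤ) ∣ A
  · obtain ⟨a, rfl⟩ := hA
    by_cases hB : (2 : ℤ) ∣ B
    · exfalso
      have h5 : (2 : ℤ) ∣ W.c₄ := by
        rw [h4]
        obtain ⟨c, rfl⟩ := hB
        exact ⟨2 * a ^ 2 - 3 * c, by ring⟩
      have h7 : ¬ (2 : ℤ) ∣ W.Δ := fun h => h2 h h5
      obtain ⟨c, hc⟩ := sixteen_dvd_c₄ h5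
      obtain ⟨B₁, rfl⟩ := hB
      obtain ⟨B₂, rfl⟩ : (2 : ℤ) ∣ B₁ := ⟨a ^ 2 - 4 * c - B₁, by linarith⟩
      have h8 : a ^ 2 - 3 * B₂ = 4 * c := by linarith
      have h9 : 4 * W.Δ = B₂ ^ 2 * (a ^ 2 - 4 * B₂) := by nlinarith
      by_cases ha : (2 : ℤ) ∣ a
      · obtain ⟨a₁, rfl⟩ := ha
        obtain ⟨B₃, rfl⟩ : (4 : ℤ) ∣ B₂ := ⟨B₂ - (a₁ ^ 2 - c), by linarith⟩
        apply h7
        exact ⟨2 * B₃ ^ 2 * (4 * a₁ ^ 2 - 16 * B₃), by linarith⟩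
      · have hB₂ : ¬ (2 : ℤ) ∣ B₂ := by
          rintro ⟨B₃, rfl⟩
          apply ha
          exact hp.dvd_of_dvd_pow (n := 2) ⟨2 * c + 3 * B₃, by linarith⟩
        have h10 : (2 : ℤ) ∣ B₂ ^ 2 * (a ^ 2 - 4 * B₂) := ⟨2 * W.Δ, by linarith⟩
        rcases hp.dvd_or_dvd h10 with h11 | h11
        · exact hB₂ (hp.dvd_of_dvd_pow h11)
        · obtain ⟨d, hd⟩ := h11
          exact ha (hp.dvd_of_dvd_pow (n := 2) ⟨d + 2 * B₂, by linarith⟩)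
    · refine ⟨a, B, Or.inr ⟨hB, ?_, ?_, ?_⟩⟩
      · rw [h4]; ring
      · linarith
      · linarith
  · have h3 : ¬ (2 : ℤ) ∣ A ^ 2 - 4 * B := by
      rintro ⟨c, hc⟩
      exact hA (hp.dvd_of_dvd_pow (n := 2) ⟨c + 2 * B, by linarith⟩)
    have h5 : (16 : ℤ) ^ 2 ∣ B ^ 2 := by
      have h6 : IsCoprime ((16 : ℤ) ^ 2) (A ^ 2 - 4 * B) := by
        have h7 : IsCoprime (2 : ℤ) (A ^ 2 - 4 * B) := (hp.coprime_iff_not_dvd).mpr h3
        have h8 : (16 : ℤ) ^ 2 = 2 ^ 8 := by norm_num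
        rw [h8]
        exact h7.pow_left
      exact h6.dvd_of_dvd_mul_right ⟨W.Δ, by rw [← hD]; ring⟩
    obtain ⟨b, rfl⟩ := (Int.pow_dvd_pow_iff two_ne_zero).mp h5
    refine ⟨A, b, Or.inl ⟨hA, ?_, ?_, ?_⟩⟩
    · rw [h4]; ring
    · linarith
    · linarith

/-- The integers `a`, `b` are coprime. -/
theorem isCoprime_two (hW : W.IsSemistableModel) {a b : ℤ}
    (h : (¬ (2 : ℤ) ∣ a ∧ W.c₄ = a ^ 2 - 48 * b ∧ W.Δ = b ^ 2 * (a ^ 2 - 64 * b)) ∨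
      (¬ (2 : ℤ) ∣ b ∧ W.c₄ = 4 * a ^ 2 - 3 * b ∧ 64 * W.Δ = b ^ 2 * (a ^ 2 - b))) :
    IsCoprime a b := by
  rw [Int.isCoprime_iff_gcd_eq_one, Int.gcd_def]
  refine Nat.Coprime.gcd_eq_one (Nat.coprime_of_dvd fun q hq ha hb => ?_)
  have ha' : (q : ℤ) ∣ a := Int.natCast_dvd.mpr ha
  have hb' : (q : ℤ) ∣ b := Int.natCast_dvd.mpr hb
  have hqp := Nat.prime_iff_prime_int.mp hq
  rcases h with ⟨-, h4, hD⟩ | ⟨h2, h4, hD⟩
  · refine hW q hq ?_ ?_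
    · rw [hD, sq]
      exact (hb'.mul_right _).mul_right _
    · rw [h4, sq]
      exact dvd_sub (ha'.mul_right _) (hb'.mul_left _)
  · refine hW q hq ?_ ?_
    · have h5 : (q : ℤ) ∣ 64 * W.Δ := by
        rw [hD, sq]
        exact (hb'.mul_right _).mul_right _
      rcases hqp.dvd_or_dvd h5 with h6 | h6
      · exfalso
        have h7 : (64 : ℤ) = 2 ^ 6 := by norm_num
        rw [h7] at h6
        have h8 : q ∣ 2 := by exact_mod_cast hqp.dvd_of_dvd_pow h6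
        rw [(Nat.prime_dvd_prime_iff_eq hq Nat.prime_two).mp h8] at hb'
        exact h2 (by exact_mod_cast hb')
      · exact h6
    · rw [h4, sq]
      exact dvd_sub ((ha'.mul_right _).mul_left _) (hb'.mul_left _)

/-! ### The traces of Frobenius -/

/-- **If there is a rational point of order two, then `a_ℓ` is even** for all good `ℓ ≠ 2`. -/
theorem even_apOfModel_of_root (hΔ : W.Δ ≠ 0) {x : ℚ}
    (hx : 4 * x ^ 3 + W.b₂ * x ^ 2 + 2 * W.b₄ * x + W.b₆ = 0) {ℓ : ℕ} (hℓ : ℓ.Prime)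
    (h2 : ℓ ≠ 2) (hg : W.IsGoodPrimeFor ℓ) : (2 : ℤ) ∣ W.apOfModel ℓ := by
  have ht : psiTwo W (algebraMap ℚ (AlgebraicClosure ℚ) x) = 0 := by
    rw [psiTwo, EQ_b₂, EQ_b₄, EQ_b₆]
    have h1 := congrArg (algebraMap ℚ (AlgebraicClosure ℚ)) hx
    simpa only [map_add, map_mul, map_pow, map_intCast, map_ofNat,
      _root_.map_zero] using h1
  obtain ⟨u, hns, h2P⟩ := exists_point_of_psiTwo hΔ ht
  have hu2 := (psiTwo_eq_zero h2P).2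
  obtain ⟨A, hA, φ, hφ⟩ := Frob.exists_frobenius ℓ hℓ
  have htr := trace_repP_frobenius (p := 2) hΔ hℓ hg h2 hA hφ
  have hdet := det_repP_frobenius (p := 2) hΔ hℓ hg h2 hA hφ
  have ht' : φ (algebraMap ℚ (AlgebraicClosure ℚ) x) = algebraMap ℚ (AlgebraicClosure ℚ) x :=
    φ.commutes x
  have hu : φ u = u := by
    have h3 : u = -((EQ W).a₁ * algebraMap ℚ (AlgebraicClosure ℚ) x + (EQ W).a₃) / 2 := by
      linear_combination (1 / 2 : AlgebraicClosure ℚ) * hu2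
    rw [h3, EQ_a₁, EQ_a₃]
    simp only [map_div₀, map_neg, map_add, map_mul, map_intCast, map_ofNat, ht']
  have hfix : φ • some (algebraMap ℚ (AlgebraicClosure ℚ) x) u hns = some _ u hns := by
    have h4 : φ • some (algebraMap ℚ (AlgebraicClosure ℚ) x) u hns =
        some (φ (algebraMap ℚ (AlgebraicClosure ℚ) x)) (φ u)
        (((W.map (Int.castRingHom ℚ)).toAffine.baseChange_nonsingular
          (f := (φ : AlgebraicClosure ℚ →ₐ[ℚ] AlgebraicClosure ℚ))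
          φ.injective ..).mpr hns) := rfl
    exact h4.trans ((some.injEq ..).mpr ⟨ht', hu⟩)
  obtain ⟨e, he⟩ := exists_equiv 2 hΔ
  set P : Submodule.torsionBy ℤ
      ((W.map (Int.castRingHom ℚ))⁄(AlgebraicClosure ℚ)).Point ((2 : ℕ) : ℤ) :=
    ⟨some (algebraMap ℚ (AlgebraicClosure ℚ) x) u hns,
      (Fermat.Agent.Torsion.mem_torsionBy_nat_iff 2 _).mpr h2P⟩ with hP
  have hP0 : P ≠ 0 := fun h0 => some_ne_zero _ (congrArg Subtype.val h0)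
  have hPfix : φ • P = P := Subtype.ext hfix
  have hv : (repP 2 hΔ φ : Matrix (Fin 2) (Fin 2) (ZMod 2)) *ᵥ e P = e P := by
    rw [← he, hPfix]
  have h1 : (1 - (repP 2 hΔ φ : Matrix (Fin 2) (Fin 2) (ZMod 2))).det = 0 := by
    refine Matrix.exists_mulVec_eq_zero_iff.mp ⟨e P, ?_, ?_⟩
    · rwa [ne_eq, LinearEquiv.map_eq_zero_iff]
    · rw [Matrix.sub_mulVec, one_mulVec, hv, sub_self]
  have h3 : ∀ M : Matrix (Fin 2) (Fin 2) (ZMod 2), (1 - M).det = 1 - M.trace + M.det := by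
    decide
  have h5 : ((ℓ : ℕ) : ZMod 2) = 1 := by
    have h6 : ℓ % 2 = 1 := Nat.odd_iff.mp (hℓ.odd_of_ne_two h2)
    rw [← ZMod.natCast_mod, h6, Nat.cast_one]
  rw [h3, htr, hdet, h5] at h1
  have h8 : (2 : ZMod 2) = 0 := by decide
  have h7 : ((W.apOfModel ℓ : ℤ) : ZMod 2) = 0 := by linear_combination -h1 + h8
  exact_mod_cast (ZMod.intCast_zmod_eq_zero_iff_dvd (W.apOfModel ℓ) 2).mp h7

end Fermat.Agent.Cor.Table
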