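import Fermat.Agent.Corollaries.CondLevel
import Fermat.Agent.Corollaries.Eleven.Dioph
import Fermat.Agent.Corollaries.Table.Eleven
import Fermat.Agent.Corollaries.Table.Two

/-!
# The elliptic curves of conductor `17`

There are exactly four elliptic curves over `ℚ` of conductor `17`, up to isomorphism:

* `E17a1 : y² + x y + y = x³ - x² - x - 14`, the modular curve `X₀(17)`,
* `E17a2 : y² + x y + y = x³ - x² - 6 x - 4`,
* `E17a3 : y² + x y + y = x³ - x² - 91 x - 310`,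
* `E17a4 : y² + x y + y = x³ - x² - x`.

Every Weierstrass equation over `ℤ` with multiplicative reduction at `17` and good reduction
elsewhere is obtained from one of the four by a substitution `x = x' + r`, `y = y' + s x' + t` with
integers `r, s, t` (`exists_iso_seventeen`).

Proof: the traces of Frobenius of `W` are those of `E17a4` (modularity and
`dim S₂(Γ₀(17)) = 1`), hence even, so `W` has a rational point of order `2`; in the normal form of
`Table/Two.lean` this gives `a² = 64 u + v` with `u`, `v` coprime and, up to sign, powers of `17`,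
and `Δ = u² v` or `Δ = u v²`. The solutions are `33² = 64 · 17 + 1`, `9² = 64 + 17` and
`15² = - 64 + 17²`.
-/

set_option autoImplicit false

namespace Fermat.Agent.Cor.Table

open WeierstrassCurve

/-! ### The Diophantine equation -/

/-- `α² = 64 · 17 ^ i + 1`. -/
theorem dioph17_one {α i : ℕ} (h : α ^ 2 = 64 * 17 ^ i + 1) : α = 33 ∧ i = 1 := by
  have hp : Nat.Prime 17 := by norm_num
  obtain ⟨x, rfl⟩ : ∃ x, α = 2 * x + 1 := by
    have h1 : ¬ Even (α ^ 2) := by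
      rw [h, Nat.not_even_iff_odd]
      exact ⟨32 * 17 ^ i, by ring⟩
    rw [Nat.even_pow' two_ne_zero, Nat.not_even_iff_odd] at h1
    exact h1
  have h1 : x * (x + 1) = 16 * 17 ^ i := by nlinarith
  by_cases h17 : 17 ∣ x
  · exfalso
    have h2 : ¬ 17 ∣ x + 1 := by omega
    have h3 : Nat.Coprime (17 ^ i) (x + 1) :=
      Nat.Coprime.pow_left i ((Nat.Prime.coprime_iff_not_dvd hp).mpr h2)
    obtain ⟨n, hn⟩ := h3.dvd_of_dvd_mul_right (h1 ▸ dvd_mul_left _ _ : 17 ^ i ∣ x * (x + 1))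
    have h4 : n * (x + 1) = 16 := by
      have h5 : 17 ^ i * (n * (x + 1)) = 17 ^ i * 16 := by
        rw [← mul_assoc, ← hn, h1]; ring
      exact Nat.eq_of_mul_eq_mul_left (by positivity) h5
    have h5 : x + 1 ≤ 16 := Nat.le_of_dvd (by norm_num) ⟨n, by rw [← h4]; ring⟩
    have h6 : x = 0 := by omega
    rw [h6] at h1
    have h7 : 0 < 17 ^ i := by positivity
    omega
  · have h3 : Nat.Coprime (17 ^ i) x :=
      Nat.Coprime.pow_left i ((Nat.Prime.coprime_iff_not_dvd hp).mpr h17)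
    obtain ⟨n, hn⟩ := h3.dvd_of_dvd_mul_left (h1 ▸ dvd_mul_left _ _ : 17 ^ i ∣ x * (x + 1))
    have h4 : x * n = 16 := by
      have h5 : 17 ^ i * (x * n) = 17 ^ i * 16 := by
        calc 17 ^ i * (x * n) = x * (17 ^ i * n) := by ring
          _ = 17 ^ i * 16 := by rw [← hn, h1]; ring
      exact Nat.eq_of_mul_eq_mul_left (by positivity) h5
    have h5 : x ≤ 16 := Nat.le_of_dvd (by norm_num) ⟨n, h4.symm⟩
    have h7 : 0 < 17 ^ i := by positivity
    have h8 : n ≤ x + 1 := by rw [hn]; nlinarith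
    have h9 : x = 16 := by
      interval_cases x <;> omega
    subst h9
    have h10 : n = 1 := by omega
    subst h10
    have h11 : (17 : ℕ) ^ i = 17 ^ 1 := by omega
    exact ⟨by norm_num, Nat.pow_right_injective (le_refl 17 |>.trans' (by norm_num)) h11⟩

/-- `α² = 64 + 17 ^ j`. -/
theorem dioph17_two {α j : ℕ} (h : α ^ 2 = 64 + 17 ^ j) : α = 9 ∧ j = 1 := by
  have hp : Nat.Prime 17 := by norm_num
  have h0 : 0 < 17 ^ j := by positivity
  obtain ⟨β, rfl⟩ : ∃ β, α = β + 8 := ⟨α - 8, by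
    have : 8 < α := by nlinarith
    omega⟩
  have h1 : β * (β + 16) = 17 ^ j := by nlinarith
  obtain ⟨t, -, ht⟩ := (Nat.dvd_prime_pow hp).mp (⟨_, h1.symm⟩ : β ∣ 17 ^ j)
  obtain ⟨s, -, hs⟩ := (Nat.dvd_prime_pow hp).mp (⟨β, by rw [← h1]; ring⟩ : β + 16 ∣ 17 ^ j)
  rcases Nat.eq_zero_or_pos t with rfl | htpos
  · rw [pow_zero] at ht
    subst ht
    have h2 : (17 : ℕ) ^ j = 17 ^ 1 := by omega
    exact ⟨by norm_num, Nat.pow_right_injective (le_refl 17 |>.trans' (by norm_num)) h2⟩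
  · exfalso
    have h2 : 17 ∣ β := ht ▸ dvd_pow_self 17 htpos.ne'
    rcases Nat.eq_zero_or_pos s with rfl | hspos
    · omega
    · have h3 : 17 ∣ β + 16 := hs ▸ dvd_pow_self 17 hspos.ne'
      omega

theorem pow17_mod (m : ℕ) : (17 : ZMod 91) ^ (2 * m + 1) = 17 ∨
    (17 : ZMod 91) ^ (2 * m + 1) = 90 ∨ (17 : ZMod 91) ^ (2 * m + 1) = 75 := by
  induction m with
  | zero => left; decide
  | succ m ih =>
    have h1 : (17 : ZMod 91) ^ (2 * (m + 1) + 1) = 17 ^ (2 * m + 1) * 289 := by ring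
    rw [h1]
    rcases ih with h | h | h <;> rw [h]
    · right; left; decide
    · right; right; decide
    · left; decide

theorem sq_mod91 : ∀ x : ZMod 91, x ^ 2 + 64 ≠ 17 ∧ x ^ 2 + 64 ≠ 90 ∧ x ^ 2 + 64 ≠ 75 := by
  decide

/-- `α² + 64 = 17 ^ j`. -/
theorem dioph17_three {α j : ℕ} (h : α ^ 2 + 64 = 17 ^ j) : α = 15 ∧ j = 2 := by
  rcases Nat.even_or_odd' j with ⟨m, rfl | rfl⟩
  · have hodd : Odd (17 ^ m) := Odd.pow (by decide)
    have h1 : α ^ 2 + 64 = (17 ^ m) ^ 2 := by rw [h, ← pow_mul, mul_comm m 2]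
    have h2 : α < 17 ^ m := by
      by_contra hcon
      push Not at hcon
      have h3 : (17 ^ m) ^ 2 ≤ α ^ 2 := Nat.pow_le_pow_left hcon 2
      omega
    generalize hy : 17 ^ m = y at *
    obtain ⟨d, rfl⟩ : ∃ d, y = α + d := ⟨y - α, by omega⟩
    have h3 : 64 = 2 * α * d + d ^ 2 := by nlinarith
    have hd : d ≤ 8 := by nlinarith
    have hd0 : 0 < d := by omega
    obtain ⟨k, hk⟩ := hodd
    have h4 : d = 2 ∧ α = 15 := by
      interval_cases d <;> omega
    obtain ⟨rfl, rfl⟩ := h4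
    have h5 : (17 : ℕ) ^ m = 17 ^ 1 := by omega
    have h6 := Nat.pow_right_injective (le_refl 17 |>.trans' (by norm_num)) h5
    exact ⟨rfl, by rw [h6]⟩
  · exfalso
    have h1 : ((α : ℕ) : ZMod 91) ^ 2 + 64 = 17 ^ (2 * m + 1) := by
      have := congrArg (fun n : ℕ => (n : ZMod 91)) h
      push_cast at this
      exact this
    obtain ⟨h2, h3, h4⟩ := sq_mod91 (α : ZMod 91)
    rcases pow17_mod m with h5 | h5 | h5 <;> rw [h5] at h1
    · exact h2 h1
    · exact h3 h1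
    · exact h4 h1

/-- **`a² = 64 u + v` in coprime `17`-units `u`, `v`.** -/
theorem dioph_seventeen {a u v : ℤ} (ha : ¬ (2 : ℤ) ∣ a) (hco : IsCoprime u v) (hu : u ≠ 0)
    (hv : v ≠ 0) (hpu : ∀ q : ℕ, q.Prime → (q : ℤ) ∣ u → q = 17)
    (hpv : ∀ q : ℕ, q.Prime → (q : ℤ) ∣ v → q = 17) (h : a ^ 2 = 64 * u + v) :
    (u = 17 ∧ v = 1 ∧ (a = 33 ∨ a = -33)) ∨ (u = 1 ∧ v = 17 ∧ (a = 9 ∨ a = -9)) ∨
      (u = -1 ∧ v = 289 ∧ (a = 15 ∨ a = -15)) := by
  obtain ⟨i, hi⟩ := Eleven.natAbs_eq_pow hu 17 hpu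
  obtain ⟨j, hj⟩ := Eleven.natAbs_eq_pow hv 17 hpv
  have hv8 : v % 8 = 1 := by
    obtain ⟨k, hk⟩ : ∃ k, a = 2 * k + 1 := ⟨a / 2, by omega⟩
    obtain ⟨m, hm⟩ := Int.even_mul_succ_self k
    have h1 : v = 8 * (m - 8 * u) + 1 := by rw [hk] at h; linarith
    omega
  have hj8 : 17 ^ j % 8 = 1 := by
    rw [Nat.pow_mod]
    norm_num
  have hvj : v = ((17 ^ j : ℕ) : ℤ) := by
    rcases Int.natAbs_eq v with h1 | h1
    · rw [h1, hj]
    · exfalso
      rw [hj] at h1
      omega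
  have ha2 : ((a.natAbs : ℕ) : ℤ) ^ 2 = a ^ 2 := by rw [Int.natCast_natAbs, sq_abs]
  have hsign : ∀ n : ℕ, a.natAbs = n → a = n ∨ a = -n := fun n hn => by omega
  rcases Nat.eq_zero_or_pos j with rfl | hjpos
  · rw [pow_zero] at hvj
    have hv1 : v = 1 := by exact_mod_cast hvj
    have hu0 : 0 < u := by
      have : 0 ≤ a ^ 2 := sq_nonneg a
      omega
    have hui : u = ((17 ^ i : ℕ) : ℤ) := by omega
    have h1 : a.natAbs ^ 2 = 64 * 17 ^ i + 1 := by
      have h2 : ((a.natAbs : ℕ) : ℤ) ^ 2 = 64 * ((17 ^ i : ℕ) : ℤ) + 1 := by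
        rw [ha2, h, hv1, ← hui]
      exact_mod_cast h2
    obtain ⟨h2, rfl⟩ := dioph17_one h1
    exact Or.inl ⟨by rw [hui]; norm_num, hv1, hsign 33 h2⟩
  · have hi0 : i = 0 := by
      by_contra hi0
      have h1 : (17 : ℤ) ∣ u := by
        have : 17 ∣ u.natAbs := hi ▸ dvd_pow_self 17 hi0
        exact_mod_cast Int.natCast_dvd.mpr this
      have h2 : (17 : ℤ) ∣ v := by
        have : 17 ∣ v.natAbs := hj ▸ dvd_pow_self 17 hjpos.ne'
        exact_mod_cast Int.natCast_dvd.mpr this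
      have h3 := Int.isUnit_iff.mp (hco.isUnit_of_dvd' h1 h2)
      omega
    rw [hi0, pow_zero] at hi
    rcases Int.natAbs_eq_iff.mp hi with h1 | h1
    · have hu1 : u = 1 := by exact_mod_cast h1
      have h2 : a.natAbs ^ 2 = 64 + 17 ^ j := by
        have h3 : ((a.natAbs : ℕ) : ℤ) ^ 2 = 64 + ((17 ^ j : ℕ) : ℤ) := by
          rw [ha2, h, hu1, ← hvj]; ring
        exact_mod_cast h3
      obtain ⟨h3, rfl⟩ := dioph17_two h2
      exact Or.inr (Or.inl ⟨hu1, by rw [hvj]; norm_num, hsign 9 h3⟩)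
    · have hu1 : u = -1 := by exact_mod_cast h1
      have h2 : a.natAbs ^ 2 + 64 = 17 ^ j := by
        have h3 : ((a.natAbs : ℕ) : ℤ) ^ 2 + 64 = ((17 ^ j : ℕ) : ℤ) := by
          rw [ha2, h, hu1, ← hvj]; ring
        exact_mod_cast h3
      obtain ⟨h3, rfl⟩ := dioph17_three h2
      exact Or.inr (Or.inr ⟨hu1, by rw [hvj]; norm_num, hsign 15 h3⟩)

/-! ### The invariants -/

/-- The invariants of a semistable curve with bad reduction only at `17` and a rational point of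
order `2`. -/
theorem c_seventeen {W : WeierstrassCurve ℤ} (hΔ : W.Δ ≠ 0) (hW : W.IsSemistableModel) {x : ℚ}
    (hx : 4 * x ^ 3 + W.b₂ * x ^ 2 + 2 * W.b₄ * x + W.b₆ = 0)
    (h17 : ∀ q : ℕ, q.Prime → (q : ℤ) ∣ W.Δ → q = 17) :
    (W.c₄ = 33 ∧ W.c₆ = 12015) ∨ (W.c₄ = 273 ∧ W.c₆ = 4455) ∨
      (W.c₄ = 4353 ∧ W.c₆ = 287199) ∨ (W.c₄ = 33 ∧ W.c₆ = -81) := by
  have hW2 : (2 : ℤ) ∣ W.Δ → ¬ (2 : ℤ) ∣ W.c₄ := fun h h' =>
    hW 2 Nat.prime_two (by exact_mod_cast h) (by exact_mod_cast h')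
  have hsign : ∀ c : ℤ, ¬ (2 : ℤ) ∣ W.c₄ → (4 : ℤ) ∣ c + 1 → (W.c₆ = c ∨ W.c₆ = -c) →
      W.c₆ = c := by
    intro c h h1 h2
    have h3 := c₆_add_one h
    omega
  obtain ⟨a, b, ⟨ha, h4, h6, hD⟩ | ⟨hb, h4, h6, hD⟩⟩ := exists_two hW2 hx
  · have hco := isCoprime_two hW (Or.inl ⟨ha, h4, hD⟩)
    have hb0 : b ≠ 0 := by
      rintro rfl
      exact hΔ (by rw [hD]; ring)
    have hv0 : a ^ 2 - 64 * b ≠ 0 := fun h0 => hΔ (by rw [hD, h0, mul_zero])
    have hco' : IsCoprime b (a ^ 2 - 64 * b) := by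
      have h1 : IsCoprime b (a ^ 2) := hco.symm.pow_right
      have h2 : a ^ 2 - 64 * b = a ^ 2 + b * (-64) := by ring
      rw [h2]
      exact h1.add_mul_left_right _
    rcases dioph_seventeen (a := a) ha hco' hb0 hv0
      (fun q hq hd => h17 q hq (by rw [hD, sq]; exact (hd.mul_right _).mul_right _))
      (fun q hq hd => h17 q hq (by rw [hD]; exact hd.mul_left _)) (by ring)
      with ⟨rfl, h1, h2⟩ | ⟨rfl, h1, h2⟩ | ⟨rfl, h1, h2⟩
    · have h3 : W.c₄ = 273 := by rcases h2 with rfl | rfl <;> rw [h4] <;> norm_num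
      refine Or.inr (Or.inl ⟨h3, hsign 4455 (by rw [h3]; norm_num) (by norm_num) ?_⟩)
      rcases h2 with rfl | rfl
      · left; rw [h6]; norm_num
      · right; rw [h6]; norm_num
    · have h3 : W.c₄ = 33 := by rcases h2 with rfl | rfl <;> rw [h4] <;> norm_num
      refine Or.inr (Or.inr (Or.inr ⟨h3, hsign (-81) (by rw [h3]; norm_num) (by norm_num) ?_⟩))
      rcases h2 with rfl | rfl
      · left; rw [h6]; norm_num
      · right; rw [h6]; norm_num
    · have h3 : W.c₄ = 273 := by rcases h2 with rfl | rfl <;> rw [h4] <;> norm_num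
      refine Or.inr (Or.inl ⟨h3, hsign 4455 (by rw [h3]; norm_num) (by norm_num) ?_⟩)
      rcases h2 with rfl | rfl
      · right; rw [h6]; norm_num
      · left; rw [h6]; norm_num
  · have hco := isCoprime_two hW (Or.inr ⟨hb, h4, hD⟩)
    obtain ⟨u, hu⟩ : (64 : ℤ) ∣ a ^ 2 - b := by
      have h1 : IsCoprime (64 : ℤ) (b ^ 2) := by
        have h2 : IsCoprime (2 : ℤ) b := (Int.prime_two.coprime_iff_not_dvd).mpr hb
        have h3 : (64 : ℤ) = 2 ^ 6 := by norm_num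
        rw [h3]
        exact h2.pow
      exact h1.dvd_of_dvd_mul_left ⟨W.Δ, hD.symm⟩
    have hD' : W.Δ = b ^ 2 * u := by
      rw [hu] at hD
      linarith
    have ha : ¬ (2 : ℤ) ∣ a := by
      intro h
      apply hb
      have h1 : b = a ^ 2 - 64 * u := by linarith
      rw [h1, sq]
      exact dvd_sub (h.mul_right _) ⟨32 * u, by ring⟩
    have hb0 : b ≠ 0 := fun h0 => hb (h0 ▸ dvd_zero _)
    have hu0 : u ≠ 0 := by
      rintro rfl
      exact hΔ (by rw [hD', mul_zero])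
    have hco' : IsCoprime u b := by
      have h1 : IsCoprime b (a ^ 2) := hco.symm.pow_right
      have h2 : a ^ 2 = 64 * u + b * 1 := by linarith
      rw [h2] at h1
      exact (IsCoprime.of_add_mul_left_right h1).of_mul_right_right.symm
    rcases dioph_seventeen (a := a) ha hco' hu0 hb0
      (fun q hq hd => h17 q hq (by rw [hD']; exact hd.mul_left _))
      (fun q hq hd => h17 q hq (by rw [hD', sq]; exact (hd.mul_right _).mul_right _))
      (by linarith) with ⟨rfl, rfl, h2⟩ | ⟨rfl, rfl, h2⟩ | ⟨rfl, rfl, h2⟩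
    · have h3 : W.c₄ = 4353 := by rcases h2 with rfl | rfl <;> rw [h4] <;> norm_num
      refine Or.inr (Or.inr (Or.inl ⟨h3, hsign 287199 (by rw [h3]; norm_num) (by norm_num) ?_⟩))
      rcases h2 with rfl | rfl
      · right; rw [h6]; norm_num
      · left; rw [h6]; norm_num
    · have h3 : W.c₄ = 273 := by rcases h2 with rfl | rfl <;> rw [h4] <;> norm_num
      refine Or.inr (Or.inl ⟨h3, hsign 4455 (by rw [h3]; norm_num) (by norm_num) ?_⟩)
      rcases h2 with rfl | rfl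
      · right; rw [h6]; norm_num
      · left; rw [h6]; norm_num
    · have h3 : W.c₄ = 33 := by rcases h2 with rfl | rfl <;> rw [h4] <;> norm_num
      refine Or.inl ⟨h3, hsign 12015 (by rw [h3]; norm_num) (by norm_num) ?_⟩
      rcases h2 with rfl | rfl
      · left; rw [h6]; norm_num
      · right; rw [h6]; norm_num

/-! ### The table -/

/-- The curve `17a1` of Cremona's table, `X₀(17)`. -/
def E17a1 : WeierstrassCurve ℤ := ⟨1, -1, 1, -1, -14⟩

/-- The curve `17a2` of Cremona's table. -/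
def E17a2 : WeierstrassCurve ℤ := ⟨1, -1, 1, -6, -4⟩

/-- The curve `17a3` of Cremona's table. -/
def E17a3 : WeierstrassCurve ℤ := ⟨1, -1, 1, -91, -310⟩

/-- The curve `17a4` of Cremona's table. -/
def E17a4 : WeierstrassCurve ℤ := ⟨1, -1, 1, -1, 0⟩

theorem E17a1_c₄ : E17a1.c₄ = 33 := by
  norm_num [E17a1, WeierstrassCurve.c₄, WeierstrassCurve.b₂, WeierstrassCurve.b₄]

theorem E17a2_c₄ : E17a2.c₄ = 273 := by
  norm_num [E17a2, WeierstrassCurve.c₄, WeierstrassCurve.b₂, WeierstrassCurve.b₄]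

theorem E17a3_c₄ : E17a3.c₄ = 4353 := by
  norm_num [E17a3, WeierstrassCurve.c₄, WeierstrassCurve.b₂, WeierstrassCurve.b₄]

theorem E17a4_c₄ : E17a4.c₄ = 33 := by
  norm_num [E17a4, WeierstrassCurve.c₄, WeierstrassCurve.b₂, WeierstrassCurve.b₄]

theorem E17a1_c₆ : E17a1.c₆ = 12015 := by
  norm_num [E17a1, WeierstrassCurve.c₆, WeierstrassCurve.b₂, WeierstrassCurve.b₄,
    WeierstrassCurve.b₆]

theorem E17a2_c₆ : E17a2.c₆ = 4455 := by
  norm_num [E17a2, WeierstrassCurve.c₆, WeierstrassCurve.b₂, WeierstrassCurve.b₄,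
    WeierstrassCurve.b₆]

theorem E17a3_c₆ : E17a3.c₆ = 287199 := by
  norm_num [E17a3, WeierstrassCurve.c₆, WeierstrassCurve.b₂, WeierstrassCurve.b₄,
    WeierstrassCurve.b₆]

theorem E17a4_c₆ : E17a4.c₆ = -81 := by
  norm_num [E17a4, WeierstrassCurve.c₆, WeierstrassCurve.b₂, WeierstrassCurve.b₄,
    WeierstrassCurve.b₆]

theorem E17a1_Δ : E17a1.Δ = -17 ^ 4 := by
  norm_num [E17a1, WeierstrassCurve.Δ, WeierstrassCurve.b₂, WeierstrassCurve.b₄,
    WeierstrassCurve.b₆, WeierstrassCurve.b₈]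

theorem E17a2_Δ : E17a2.Δ = 17 ^ 2 := by
  norm_num [E17a2, WeierstrassCurve.Δ, WeierstrassCurve.b₂, WeierstrassCurve.b₄,
    WeierstrassCurve.b₆, WeierstrassCurve.b₈]

theorem E17a3_Δ : E17a3.Δ = 17 := by
  norm_num [E17a3, WeierstrassCurve.Δ, WeierstrassCurve.b₂, WeierstrassCurve.b₄,
    WeierstrassCurve.b₆, WeierstrassCurve.b₈]

theorem E17a4_Δ : E17a4.Δ = 17 := by
  norm_num [E17a4, WeierstrassCurve.Δ, WeierstrassCurve.b₂, WeierstrassCurve.b₄,
    WeierstrassCurve.b₆, WeierstrassCurve.b₈]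

/-- A curve whose discriminant is a power of a prime `p`, up to sign, with `p ∤ c₄`. -/
theorem isSemistableModel_of_pow {W : WeierstrassCurve ℤ} {p n : ℕ} (hp : p.Prime)
    (hΔ : W.Δ.natAbs = p ^ n) (h4 : ¬ (p : ℤ) ∣ W.c₄) : W.IsSemistableModel := by
  intro q hq hd hd'
  have h1 : q ∣ p ^ n := hΔ ▸ Int.natCast_dvd.mp hd
  have h3 : q = p := (Nat.prime_dvd_prime_iff_eq hq hp).mp (hq.dvd_of_dvd_pow h1)
  subst h3
  exact h4 hd'

theorem conductorLevel_of_pow {W : WeierstrassCurve ℤ} {p n : ℕ} (hp : p.Prime) (hn : n ≠ 0)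
    (hΔ : W.Δ.natAbs = p ^ n) : W.conductorLevel = p := by
  have hΔ0 : W.Δ ≠ 0 := by
    intro h
    rw [h, Int.natAbs_zero] at hΔ
    exact (pow_ne_zero n hp.ne_zero) hΔ.symm
  refine (eq_conductorLevel hΔ0 hp.squarefree fun q hq => ?_).symm
  rw [Int.natCast_dvd, hΔ]
  exact ⟨fun h => h.trans (dvd_pow_self p hn), fun h => hq.dvd_of_dvd_pow h⟩

theorem E17a1_semistable : E17a1.IsSemistableModel :=
  isSemistableModel_of_pow (p := 17) (n := 4) (by norm_num) (by rw [E17a1_Δ]; rfl)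
    (by rw [E17a1_c₄]; norm_num)

theorem E17a2_semistable : E17a2.IsSemistableModel :=
  isSemistableModel_of_pow (p := 17) (n := 2) (by norm_num) (by rw [E17a2_Δ]; rfl)
    (by rw [E17a2_c₄]; norm_num)

theorem E17a3_semistable : E17a3.IsSemistableModel :=
  isSemistableModel_of_pow (p := 17) (n := 1) (by norm_num) (by rw [E17a3_Δ]; rfl)
    (by rw [E17a3_c₄]; norm_num)

theorem E17a4_semistable : E17a4.IsSemistableModel :=
  isSemistableModel_of_pow (p := 17) (n := 1) (by norm_num) (by rw [E17a4_Δ]; rfl)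
    (by rw [E17a4_c₄]; norm_num)

theorem E17a1_conductorLevel : E17a1.conductorLevel = 17 :=
  conductorLevel_of_pow (n := 4) (by norm_num) (by norm_num) (by rw [E17a1_Δ]; rfl)

theorem E17a2_conductorLevel : E17a2.conductorLevel = 17 :=
  conductorLevel_of_pow (n := 2) (by norm_num) (by norm_num) (by rw [E17a2_Δ]; rfl)

theorem E17a3_conductorLevel : E17a3.conductorLevel = 17 :=
  conductorLevel_of_pow (n := 1) (by norm_num) (by norm_num) (by rw [E17a3_Δ]; rfl)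

theorem E17a4_conductorLevel : E17a4.conductorLevel = 17 :=
  conductorLevel_of_pow (n := 1) (by norm_num) (by norm_num) (by rw [E17a4_Δ]; rfl)

/-- The point of order two `(1, -1)` of `17a4`. -/
theorem E17a4_root : (4 : ℚ) * 1 ^ 3 + E17a4.b₂ * 1 ^ 2 + 2 * E17a4.b₄ * 1 + E17a4.b₆ = 0 := by
  norm_num [E17a4, WeierstrassCurve.b₂, WeierstrassCurve.b₄, WeierstrassCurve.b₆]

/-- Every curve of conductor `17` has a rational point of order two. -/
theorem exists_root_seventeen {W : WeierstrassCurve ℤ} (hΔ : W.Δ ≠ 0) (hW : W.IsSemistableModel)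
    (hN : W.conductorLevel = 17) :
    ∃ x : ℚ, 4 * x ^ 3 + W.b₂ * x ^ 2 + 2 * W.b₄ * x + W.b₆ = 0 := by
  refine not_irreducible_two hΔ fun ℓ hℓ h2 hg => ?_
  have hΔ4 : E17a4.Δ ≠ 0 := by rw [E17a4_Δ]; norm_num
  rw [← apOfModel_eq_of_conductorLevel_eq (W' := E17a4) hΔ hW hΔ4 E17a4_semistable
    (by rw [E17a4_conductorLevel, hN]) (by rw [hN]; decide) hℓ hg]
  refine even_apOfModel_of_root hΔ4 E17a4_root hℓ h2 fun h => hg ?_
  have h1 := (E17a4.prime_dvd_conductorLevel_iff hΔ4 hℓ).mpr h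
  rw [E17a4_conductorLevel, ← hN] at h1
  exact (W.prime_dvd_conductorLevel_iff hΔ hℓ).mp h1

/-- **The elliptic curves of conductor `17`.** Every Weierstrass equation over `ℤ` of a semistable
elliptic curve of conductor `17` is isomorphic over `ℤ` to `17a1`, `17a2`, `17a3` or `17a4`. -/
theorem exists_iso_seventeen {W : WeierstrassCurve ℤ} (hΔ : W.Δ ≠ 0) (hW : W.IsSemistableModel)
    (hN : W.conductorLevel = 17) :
    ∃ E : WeierstrassCurve ℤ, (E = E17a1 ∨ E = E17a2 ∨ E = E17a3 ∨ E = E17a4) ∧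
      ∃ r s t : ℤ, (⟨1, r, s, t⟩ : VariableChange ℤ) • W = E := by
  obtain ⟨x, hx⟩ := exists_root_seventeen hΔ hW hN
  have h17 : ∀ q : ℕ, q.Prime → (q : ℤ) ∣ W.Δ → q = 17 := by
    intro q hq hd
    have h := (W.prime_dvd_conductorLevel_iff hΔ hq).mpr hd
    rw [hN] at h
    exact (Nat.prime_dvd_prime_iff_eq hq (by norm_num)).mp h
  rcases c_seventeen hΔ hW hx h17 with ⟨h4, h6⟩ | ⟨h4, h6⟩ | ⟨h4, h6⟩ | ⟨h4, h6⟩
  · exact ⟨E17a1, Or.inl rfl, exists_variableChange (by rw [h4, E17a1_c₄]) (by rw [h6, E17a1_c₆])⟩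
  · exact ⟨E17a2, Or.inr (Or.inl rfl),
      exists_variableChange (by rw [h4, E17a2_c₄]) (by rw [h6, E17a2_c₆])⟩
  · exact ⟨E17a3, Or.inr (Or.inr (Or.inl rfl)),
      exists_variableChange (by rw [h4, E17a3_c₄]) (by rw [h6, E17a3_c₆])⟩
  · exact ⟨E17a4, Or.inr (Or.inr (Or.inr rfl)),
      exists_variableChange (by rw [h4, E17a4_c₄]) (by rw [h6, E17a4_c₆])⟩

/-- The four curves of conductor `17` are pairwise non-isomorphic over `ℚ`. -/
theorem seventeen_not_iso :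
    (¬ ∃ C : VariableChange ℚ,
      C • E17a1.map (Int.castRingHom ℚ) = E17a2.map (Int.castRingHom ℚ)) ∧
    (¬ ∃ C : VariableChange ℚ,
      C • E17a1.map (Int.castRingHom ℚ) = E17a3.map (Int.castRingHom ℚ)) ∧
    (¬ ∃ C : VariableChange ℚ,
      C • E17a1.map (Int.castRingHom ℚ) = E17a4.map (Int.castRingHom ℚ)) ∧
    (¬ ∃ C : VariableChange ℚ,
      C • E17a2.map (Int.castRingHom ℚ) = E17a3.map (Int.castRingHom ℚ)) ∧
    (¬ ∃ C : VariableChange ℚ,
      C • E17a2.map (Int.castRingHom ℚ) = E17a4.map (Int.castRingHom ℚ)) ∧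
    (¬ ∃ C : VariableChange ℚ,
      C • E17a3.map (Int.castRingHom ℚ) = E17a4.map (Int.castRingHom ℚ)) := by
  refine ⟨not_exists_variableChange ?_, not_exists_variableChange ?_,
    not_exists_variableChange ?_, not_exists_variableChange ?_, not_exists_variableChange ?_,
    not_exists_variableChange ?_⟩
  · rw [E17a1_c₄, E17a2_c₄, E17a1_Δ, E17a2_Δ]; norm_num
  · rw [E17a1_c₄, E17a3_c₄, E17a1_Δ, E17a3_Δ]; norm_num
  · rw [E17a1_c₄, E17a4_c₄, E17a1_Δ, E17a4_Δ]; norm_num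
  · rw [E17a2_c₄, E17a3_c₄, E17a2_Δ, E17a3_Δ]; norm_num
  · rw [E17a2_c₄, E17a4_c₄, E17a2_Δ, E17a4_Δ]; norm_num
  · rw [E17a3_c₄, E17a4_c₄, E17a3_Δ, E17a4_Δ]; norm_num

/-- **There are exactly four elliptic curves over `ℚ` of conductor `17`**: an elliptic curve over
`ℚ` has a (minimal) Weierstrass equation over `ℤ` with multiplicative reduction at `17` and good
reduction elsewhere if and only if it is isomorphic to `17a1`, `17a2`, `17a3` or `17a4`. -/
theorem conductor_seventeen_iff (E : WeierstrassCurve ℚ) :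
    (∃ W : WeierstrassCurve ℤ, W.IsIntegralModelOf E ∧ W.Δ ≠ 0 ∧ W.IsSemistableModel ∧
      W.conductorLevel = 17) ↔
    (E17a1.IsIntegralModelOf E ∨ E17a2.IsIntegralModelOf E ∨ E17a3.IsIntegralModelOf E ∨
      E17a4.IsIntegralModelOf E) := by
  constructor
  · rintro ⟨W, ⟨C, hC⟩, hΔ, hW, hN⟩
    obtain ⟨A, hA, r, s, t, hrst⟩ := exists_iso_seventeen hΔ hW hN
    have h : A.IsIntegralModelOf E := by
      refine ⟨(⟨1, r, s, t⟩ : VariableChange ℤ).map (Int.castRingHom ℚ) * C, ?_⟩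
      rw [mul_smul, hC, ← hrst, WeierstrassCurve.map_variableChange]
    rcases hA with rfl | rfl | rfl | rfl
    · exact Or.inl h
    · exact Or.inr (Or.inl h)
    · exact Or.inr (Or.inr (Or.inl h))
    · exact Or.inr (Or.inr (Or.inr h))
  · rintro (h | h | h | h)
    · exact ⟨_, h, by rw [E17a1_Δ]; norm_num, E17a1_semistable, E17a1_conductorLevel⟩
    · exact ⟨_, h, by rw [E17a2_Δ]; norm_num, E17a2_semistable, E17a2_conductorLevel⟩
    · exact ⟨_, h, by rw [E17a3_Δ]; norm_num, E17a3_semistable, E17a3_conductorLevel⟩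
    · exact ⟨_, h, by rw [E17a4_Δ]; norm_num, E17a4_semistable, E17a4_conductorLevel⟩

end Fermat.Agent.Cor.Table
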