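import Fermat.Agent.Corollaries.Table.TwoTable

/-!
# The elliptic curves of conductor `21`

There are exactly six elliptic curves over `ℚ` of conductor `21`, up to isomorphism: the curves
`21a1`, …, `21a6` of Cremona's table.

Proof: as for conductor `15`; the traces of Frobenius are those of `y² + xy = x³ + x`, and the
solutions in powers of `3` and `7` are `49 = 48 + 1`, `9 + 7 = 16` and `1 + 63 = 64`.
-/

set_option autoImplicit false

namespace Fermat.Agent.Cor.Table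

open WeierstrassCurve

/-- The curves `21a1`, …, `21a6` (numbered `0`, …, `5`). -/
def E21 : Fin 6 → WeierstrassCurve ℤ :=
  ![⟨1, 0, 0, -4, -1⟩, ⟨1, 0, 0, -49, -136⟩, ⟨1, 0, 0, -39, 90⟩, ⟨1, 0, 0, 1, 0⟩,
    ⟨1, 0, 0, -784, -8515⟩, ⟨1, 0, 0, -34, -217⟩]

theorem E21_c₄ (i : Fin 6) : (E21 i).c₄ = ![193, 2353, 1873, -47, 37633, 1633] i := by
  revert i; decide +kernel

theorem E21_c₆ (i : Fin 6) : (E21 i).c₆ = ![575, 113975, -80569, 71, 7300511, 185039] i := by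
  revert i; decide +kernel

theorem E21_Δ (i : Fin 6) : (E21 i).Δ = ![3 ^ 4 * 7 ^ 2, 3 ^ 2 * 7 ^ 4, 3 ^ 8 * 7,
    -(3 ^ 2 * 7), 3 * 7 ^ 2, -(3 * 7 ^ 8)] i := by
  revert i; decide +kernel

theorem E21_Δ_ne_zero (i : Fin 6) : (E21 i).Δ ≠ 0 := by
  revert i; decide +kernel

/-- The bad primes are `3` and `7`. -/
theorem E21_prime_dvd_iff (i : Fin 6) {q : ℕ} (hq : q.Prime) :
    (q : ℤ) ∣ (E21 i).Δ ↔ q ∣ 21 := by
  have hqI := Nat.prime_iff_prime_int.mp hq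
  have h21 : q ∣ 21 ↔ (q : ℤ) ∣ 3 ∨ (q : ℤ) ∣ 7 := by
    rw [show (21 : ℕ) = 3 * 7 by norm_num, hq.dvd_mul]
    exact or_congr Int.natCast_dvd_natCast.symm Int.natCast_dvd_natCast.symm
  have key : ∀ m n : ℕ, m ≠ 0 → n ≠ 0 → ((q : ℤ) ∣ 3 ^ m * 7 ^ n ↔ q ∣ 21) := by
    intro m n hm hn
    rw [hqI.dvd_mul, hqI.dvd_pow_iff_dvd hm, hqI.dvd_pow_iff_dvd hn, h21]
  rw [E21_Δ]
  fin_cases i
  · rw [← key 4 2 (by norm_num) (by norm_num)]; norm_num
  · rw [← key 2 4 (by norm_num) (by norm_num)]; norm_num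
  · rw [← key 8 1 (by norm_num) (by norm_num)]; norm_num
  · rw [← key 2 1 (by norm_num) (by norm_num), ← dvd_neg]; norm_num
  · rw [← key 1 2 (by norm_num) (by norm_num)]; norm_num
  · rw [← key 1 8 (by norm_num) (by norm_num), ← dvd_neg]; norm_num

theorem E21_semistable (i : Fin 6) : (E21 i).IsSemistableModel := by
  intro q hq hd h4
  rw [E21_prime_dvd_iff i hq, show (21 : ℕ) = 3 * 7 by norm_num, hq.dvd_mul,
    Nat.prime_dvd_prime_iff_eq hq (by norm_num), Nat.prime_dvd_prime_iff_eq hq (by norm_num)] at hd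
  rw [E21_c₄] at h4
  rcases hd with rfl | rfl <;> revert i <;> decide +kernel

theorem E21_conductorLevel (i : Fin 6) : (E21 i).conductorLevel = 21 :=
  (eq_conductorLevel (E21_Δ_ne_zero i) (by decide +kernel)
    fun _ hq => (E21_prime_dvd_iff i hq).symm).symm

/-- The invariants of a semistable curve of conductor `21`. -/
theorem c_twentyone {W : WeierstrassCurve ℤ} (hΔ : W.Δ ≠ 0) (hW : W.IsSemistableModel)
    (hN : W.conductorLevel = 21) :
    (W.c₄ = 193 ∧ W.c₆ = 575) ∨ (W.c₄ = 2353 ∧ W.c₆ = 113975) ∨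
    (W.c₄ = 1873 ∧ W.c₆ = -80569) ∨ (W.c₄ = -47 ∧ W.c₆ = 71) ∨
    (W.c₄ = 37633 ∧ W.c₆ = 7300511) ∨ (W.c₄ = 1633 ∧ W.c₆ = 185039) := by
  have hpr : ∀ q : ℕ, q.Prime → (q : ℤ) ∣ W.Δ → q = 3 ∨ q = 7 := by
    intro q hq hd
    have h := (W.prime_dvd_conductorLevel_iff hΔ hq).mpr hd
    rw [hN, show (21 : ℕ) = 3 * 7 by norm_num, hq.dvd_mul,
      Nat.prime_dvd_prime_iff_eq hq (by norm_num), Nat.prime_dvd_prime_iff_eq hq (by norm_num)] at h
    exact h
  have h2 : ¬ (2 : ℤ) ∣ W.Δ := fun hd => by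
    rcases hpr 2 Nat.prime_two (by exact_mod_cast hd) with h | h <;> norm_num at h
  obtain ⟨x, hx⟩ := not_irreducible_two hΔ fun ℓ hℓ hℓ2 hg => by
    rw [← apOfModel_eq_of_conductorLevel_eq (W' := E21 3) hΔ hW (E21_Δ_ne_zero 3)
      (E21_semistable 3) (by rw [E21_conductorLevel, hN]) (by rw [hN]; decide) hℓ hg]
    have hg' : (E21 3).IsGoodPrimeFor ℓ := fun hd => hg (by
      rw [← W.prime_dvd_conductorLevel_iff hΔ hℓ, hN]
      exact (E21_prime_dvd_iff 3 hℓ).mp hd)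
    refine even_apOfModel_of_root (E21_Δ_ne_zero 3) (x := 0) ?_ hℓ hℓ2 hg'
    have e6 : (E21 3).b₆ = 0 := by decide +kernel
    rw [e6]
    norm_num
  obtain ⟨a, b, c, ha, h, hab, hb, hc, hbc, h4, hI⟩ := exists_params hΔ hW h2 hx hpr
  rcases dioph_twentyone ha h hab hb hc hbc with ⟨rfl, rfl | rfl⟩ | ⟨rfl, rfl | rfl⟩ |
    ⟨rfl, rfl | rfl⟩ | ⟨rfl, rfl | rfl⟩ | ⟨rfl, rfl | rfl⟩ <;>
    rcases hI with ⟨e4, e6⟩ | ⟨e4, e6⟩ <;> omega

/-- **The elliptic curves of conductor `21`.** Every Weierstrass equation over `ℤ` of a semistable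
elliptic curve of conductor `21` is isomorphic over `ℤ` to one of `21a1`, …, `21a6`. -/
theorem exists_iso_twentyone {W : WeierstrassCurve ℤ} (hΔ : W.Δ ≠ 0) (hW : W.IsSemistableModel)
    (hN : W.conductorLevel = 21) :
    ∃ i : Fin 6, ∃ r s t : ℤ, (⟨1, r, s, t⟩ : VariableChange ℤ) • W = E21 i := by
  rcases c_twentyone hΔ hW hN with ⟨h4, h6⟩ | ⟨h4, h6⟩ | ⟨h4, h6⟩ | ⟨h4, h6⟩ | ⟨h4, h6⟩ | ⟨h4, h6⟩
  · exact ⟨0, exists_variableChange (by rw [h4, E21_c₄]; rfl) (by rw [h6, E21_c₆]; rfl)⟩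
  · exact ⟨1, exists_variableChange (by rw [h4, E21_c₄]; rfl) (by rw [h6, E21_c₆]; rfl)⟩
  · exact ⟨2, exists_variableChange (by rw [h4, E21_c₄]; rfl) (by rw [h6, E21_c₆]; rfl)⟩
  · exact ⟨3, exists_variableChange (by rw [h4, E21_c₄]; rfl) (by rw [h6, E21_c₆]; rfl)⟩
  · exact ⟨4, exists_variableChange (by rw [h4, E21_c₄]; rfl) (by rw [h6, E21_c₆]; rfl)⟩
  · exact ⟨5, exists_variableChange (by rw [h4, E21_c₄]; rfl) (by rw [h6, E21_c₆]; rfl)⟩

/-- The six curves are pairwise non-isomorphic over `ℚ`. -/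
theorem twentyone_not_iso {i j : Fin 6} (h : i ≠ j) : ¬ ∃ C : VariableChange ℚ,
    C • (E21 i).map (Int.castRingHom ℚ) = (E21 j).map (Int.castRingHom ℚ) := by
  refine not_iso_of_j ?_
  rw [E21_c₄, E21_c₄, E21_Δ, E21_Δ]
  revert i j
  decide +kernel

/-- **There are exactly six elliptic curves over `ℚ` of conductor `21`**: an elliptic curve over
`ℚ` has a (minimal) Weierstrass equation over `ℤ` with multiplicative reduction at `3` and `7` and
good reduction elsewhere if and only if it is isomorphic to exactly one of `21a1`, …, `21a6`. -/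
theorem conductor_twentyone_iff (E : WeierstrassCurve ℚ) :
    (∃ W : WeierstrassCurve ℤ, W.IsIntegralModelOf E ∧ W.Δ ≠ 0 ∧ W.IsSemistableModel ∧
      W.conductorLevel = 21) ↔ ∃! i : Fin 6, (E21 i).IsIntegralModelOf E := by
  constructor
  · rintro ⟨W, hE, hΔ, hW, hN⟩
    obtain ⟨i, r, s, t, hi⟩ := exists_iso_twentyone hΔ hW hN
    refine ⟨i, isIntegralModelOf_of_iso' hi hE, fun j hj => ?_⟩
    by_contra hne
    exact twentyone_not_iso hne (iso_of_isIntegralModelOf hj (isIntegralModelOf_of_iso' hi hE))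
  · rintro ⟨i, hi, -⟩
    exact ⟨E21 i, hi, E21_Δ_ne_zero i, E21_semistable i, E21_conductorLevel i⟩

end Fermat.Agent.Cor.Table
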