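import Fermat.Agent.Corollaries.Table.Fourteen
import Fermat.Agent.Corollaries.Table.Fifteen
import Fermat.Agent.Corollaries.Table.Seventeen
import Fermat.Agent.Corollaries.Table.Nineteen
import Fermat.Agent.Corollaries.Table.TwentyOne

/-!
# The semistable elliptic curves over `ℚ` of conductor at most `21`

There are exactly `30` semistable elliptic curves over `ℚ` of conductor at most `21`, up to
isomorphism: `3` of conductor `11`, `6` of conductor `14`, `8` of conductor `15`, `4` of conductor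
`17`, `3` of conductor `19` and `6` of conductor `21`; this is the first page of Cremona's table
(squarefree conductors).

* `curves : Fin 30 → WeierstrassCurve ℤ`, `level : Fin 30 → ℕ`,
* `exists_iso_of_conductorLevel_le` : a semistable Weierstrass equation over `ℤ` of conductor at
  most `21` is isomorphic over `ℤ` to one of the thirty,
* `curves_not_iso` : the thirty curves are pairwise non-isomorphic over `ℚ`,
* `existsUnique_iff` : both statements for elliptic curves over `ℚ`.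
-/

set_option autoImplicit false

namespace Fermat.Agent.Cor.Table

open WeierstrassCurve

/-- The thirty semistable elliptic curves of conductor at most `21`, in the order of Cremona's
table. -/
def curves : Fin 30 → WeierstrassCurve ℤ :=
  ![⟨0, -1, 1, -10, -20⟩, ⟨0, -1, 1, -7820, -263580⟩, ⟨0, -1, 1, 0, 0⟩,
    ⟨1, 0, 1, 4, -6⟩, ⟨1, 0, 1, -36, -70⟩, ⟨1, 0, 1, -171, -874⟩, ⟨1, 0, 1, -1, 0⟩,
    ⟨1, 0, 1, -2731, -55146⟩, ⟨1, 0, 1, -11, 12⟩,
    ⟨1, 1, 1, -10, -10⟩, ⟨1, 1, 1, -135, -660⟩, ⟨1, 1, 1, -5, 2⟩, ⟨1, 1, 1, 35, -28⟩,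
    ⟨1, 1, 1, -2160, -39540⟩, ⟨1, 1, 1, -110, -880⟩, ⟨1, 1, 1, -80, 242⟩, ⟨1, 1, 1, 0, 0⟩,
    ⟨1, -1, 1, -1, -14⟩, ⟨1, -1, 1, -6, -4⟩, ⟨1, -1, 1, -91, -310⟩, ⟨1, -1, 1, -1, 0⟩,
    ⟨0, 1, 1, -9, -15⟩, ⟨0, 1, 1, -769, -8470⟩, ⟨0, 1, 1, 1, 0⟩,
    ⟨1, 0, 0, -4, -1⟩, ⟨1, 0, 0, -49, -136⟩, ⟨1, 0, 0, -39, 90⟩, ⟨1, 0, 0, 1, 0⟩,
    ⟨1, 0, 0, -784, -8515⟩, ⟨1, 0, 0, -34, -217⟩]

/-- The conductors of the thirty curves. -/
def level : Fin 30 → ℕ :=
  ![11, 11, 11, 14, 14, 14, 14, 14, 14, 15, 15, 15, 15, 15, 15, 15, 15, 17, 17, 17, 17, 19, 19, 19,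
    21, 21, 21, 21, 21, 21]

/-- The `j`-invariants are pairwise different. -/
theorem curves_j_ne : ∀ i j : Fin 30, i ≠ j →
    (curves i).c₄ ^ 3 * (curves j).Δ ≠ (curves j).c₄ ^ 3 * (curves i).Δ := by
  decide +kernel

/-- **The thirty curves are pairwise non-isomorphic over `ℚ`.** -/
theorem curves_not_iso {i j : Fin 30} (h : i ≠ j) : ¬ ∃ C : VariableChange ℚ,
    C • (curves i).map (Int.castRingHom ℚ) = (curves j).map (Int.castRingHom ℚ) :=
  not_exists_variableChange (curves_j_ne i j h)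

/-- The thirty curves are semistable of the stated conductors. -/
theorem curves_facts (i : Fin 30) : (curves i).Δ ≠ 0 ∧ (curves i).IsSemistableModel ∧
    (curves i).conductorLevel = level i := by
  fin_cases i
  · exact ⟨by rw [show (curves ⟨0, _⟩) = E11a1 from rfl, E11a1_Δ]; norm_num, E11a1_semistable,
      E11a1_conductorLevel⟩
  · exact ⟨by rw [show (curves ⟨1, _⟩) = E11a2 from rfl, E11a2_Δ]; norm_num, E11a2_semistable,
      E11a2_conductorLevel⟩
  · exact ⟨E11a3_Δ_ne_zero, E11a3_semistable, E11a3_conductorLevel⟩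
  · exact E14a1_mem
  · exact E14a2_mem
  · exact E14a3_mem
  · exact E14a4_mem
  · exact E14a5_mem
  · exact E14a6_mem
  · exact ⟨E15_Δ_ne_zero 0, E15_semistable 0, E15_conductorLevel 0⟩
  · exact ⟨E15_Δ_ne_zero 1, E15_semistable 1, E15_conductorLevel 1⟩
  · exact ⟨E15_Δ_ne_zero 2, E15_semistable 2, E15_conductorLevel 2⟩
  · exact ⟨E15_Δ_ne_zero 3, E15_semistable 3, E15_conductorLevel 3⟩
  · exact ⟨E15_Δ_ne_zero 4, E15_semistable 4, E15_conductorLevel 4⟩
  · exact ⟨E15_Δ_ne_zero 5, E15_semistable 5, E15_conductorLevel 5⟩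
  · exact ⟨E15_Δ_ne_zero 6, E15_semistable 6, E15_conductorLevel 6⟩
  · exact ⟨E15_Δ_ne_zero 7, E15_semistable 7, E15_conductorLevel 7⟩
  · exact ⟨by rw [show (curves ⟨17, _⟩) = E17a1 from rfl, E17a1_Δ]; norm_num, E17a1_semistable,
      E17a1_conductorLevel⟩
  · exact ⟨by rw [show (curves ⟨18, _⟩) = E17a2 from rfl, E17a2_Δ]; norm_num, E17a2_semistable,
      E17a2_conductorLevel⟩
  · exact ⟨by rw [show (curves ⟨19, _⟩) = E17a3 from rfl, E17a3_Δ]; norm_num, E17a3_semistable,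
      E17a3_conductorLevel⟩
  · exact ⟨by rw [show (curves ⟨20, _⟩) = E17a4 from rfl, E17a4_Δ]; norm_num, E17a4_semistable,
      E17a4_conductorLevel⟩
  · exact E19a1_facts
  · exact E19a2_facts
  · exact E19a3_facts
  · exact ⟨E21_Δ_ne_zero 0, E21_semistable 0, E21_conductorLevel 0⟩
  · exact ⟨E21_Δ_ne_zero 1, E21_semistable 1, E21_conductorLevel 1⟩
  · exact ⟨E21_Δ_ne_zero 2, E21_semistable 2, E21_conductorLevel 2⟩
  · exact ⟨E21_Δ_ne_zero 3, E21_semistable 3, E21_conductorLevel 3⟩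
  · exact ⟨E21_Δ_ne_zero 4, E21_semistable 4, E21_conductorLevel 4⟩
  · exact ⟨E21_Δ_ne_zero 5, E21_semistable 5, E21_conductorLevel 5⟩

/-- **The table.** Every Weierstrass equation over `ℤ` of a semistable elliptic curve of conductor
at most `21` is isomorphic over `ℤ` to one of the thirty curves. -/
theorem exists_iso_of_conductorLevel_le {W : WeierstrassCurve ℤ} (hΔ : W.Δ ≠ 0)
    (hW : W.IsSemistableModel) (hN : W.conductorLevel ≤ 21) :
    ∃ i : Fin 30, ∃ r s t : ℤ, (⟨1, r, s, t⟩ : VariableChange ℤ) • W = curves i := by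
  have h11 := eleven_le_conductorLevel hΔ hW
  have hmem := conductorLevel_notMem hΔ hW
  have hsq := W.squarefree_conductorLevel
  have h4 : ¬ 2 * 2 ∣ W.conductorLevel := fun h => by
    have := hsq 2 h
    rw [Nat.isUnit_iff] at this
    omega
  have h9 : ¬ 3 * 3 ∣ W.conductorLevel := fun h => by
    have := hsq 3 h
    rw [Nat.isUnit_iff] at this
    omega
  have hcases : W.conductorLevel = 11 ∨ W.conductorLevel = 14 ∨ W.conductorLevel = 15 ∨
      W.conductorLevel = 17 ∨ W.conductorLevel = 19 ∨ W.conductorLevel = 21 := by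
    have h13 : W.conductorLevel ≠ 13 := fun h => hmem (by rw [h]; decide)
    omega
  rcases hcases with h | h | h | h | h | h
  · obtain ⟨E, rfl | rfl | rfl, hiso⟩ := exists_iso_eleven hΔ hW h
    · exact ⟨0, hiso⟩
    · exact ⟨1, hiso⟩
    · exact ⟨2, hiso⟩
  · obtain ⟨E, rfl | rfl | rfl | rfl | rfl | rfl, hiso⟩ := exists_iso_fourteen hΔ hW h
    · exact ⟨3, hiso⟩
    · exact ⟨4, hiso⟩
    · exact ⟨5, hiso⟩
    · exact ⟨6, hiso⟩
    · exact ⟨7, hiso⟩
    · exact ⟨8, hiso⟩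
  · obtain ⟨i, hiso⟩ := exists_iso_fifteen hΔ hW h
    fin_cases i
    · exact ⟨9, hiso⟩
    · exact ⟨10, hiso⟩
    · exact ⟨11, hiso⟩
    · exact ⟨12, hiso⟩
    · exact ⟨13, hiso⟩
    · exact ⟨14, hiso⟩
    · exact ⟨15, hiso⟩
    · exact ⟨16, hiso⟩
  · obtain ⟨E, rfl | rfl | rfl | rfl, hiso⟩ := exists_iso_seventeen hΔ hW h
    · exact ⟨17, hiso⟩
    · exact ⟨18, hiso⟩
    · exact ⟨19, hiso⟩
    · exact ⟨20, hiso⟩
  · obtain ⟨E, rfl | rfl | rfl, hiso⟩ := exists_iso_nineteen hΔ hW h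
    · exact ⟨21, hiso⟩
    · exact ⟨22, hiso⟩
    · exact ⟨23, hiso⟩
  · obtain ⟨i, hiso⟩ := exists_iso_twentyone hΔ hW h
    fin_cases i
    · exact ⟨24, hiso⟩
    · exact ⟨25, hiso⟩
    · exact ⟨26, hiso⟩
    · exact ⟨27, hiso⟩
    · exact ⟨28, hiso⟩
    · exact ⟨29, hiso⟩

theorem level_le : ∀ i : Fin 30, level i ≤ 21 := by
  decide +kernel

/-- **There are exactly thirty semistable elliptic curves over `ℚ` of conductor at most `21`**: an
elliptic curve over `ℚ` has a semistable Weierstrass equation over `ℤ` of conductor at most `21` if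
and only if it is isomorphic to exactly one of the thirty curves of the table. -/
theorem existsUnique_iff (E : WeierstrassCurve ℚ) :
    (∃ W : WeierstrassCurve ℤ, W.IsIntegralModelOf E ∧ W.Δ ≠ 0 ∧ W.IsSemistableModel ∧
      W.conductorLevel ≤ 21) ↔ ∃! i : Fin 30, (curves i).IsIntegralModelOf E := by
  constructor
  · rintro ⟨W, ⟨C, hC⟩, hΔ, hW, hN⟩
    obtain ⟨i, r, s, t, hi⟩ := exists_iso_of_conductorLevel_le hΔ hW hN
    have h : (curves i).IsIntegralModelOf E := by
      refine ⟨(⟨1, r, s, t⟩ : VariableChange ℤ).map (Int.castRingHom ℚ) * C, ?_⟩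
      rw [mul_smul, hC, ← hi, WeierstrassCurve.map_variableChange]
    refine ⟨i, h, fun j hj => ?_⟩
    by_contra hne
    exact curves_not_iso hne (iso_of_isIntegralModelOf hj h)
  · rintro ⟨i, hi, -⟩
    refine ⟨curves i, hi, (curves_facts i).1, (curves_facts i).2.1, ?_⟩
    rw [(curves_facts i).2.2]
    exact level_le i

/-- The number of curves of each conductor. -/
theorem card_level : (Finset.univ.filter fun i => level i = 11).card = 3 ∧
    (Finset.univ.filter fun i => level i = 14).card = 6 ∧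
    (Finset.univ.filter fun i => level i = 15).card = 8 ∧
    (Finset.univ.filter fun i => level i = 17).card = 4 ∧
    (Finset.univ.filter fun i => level i = 19).card = 3 ∧
    (Finset.univ.filter fun i => level i = 21).card = 6 := by
  decide +kernel

end Fermat.Agent.Cor.Table
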