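import Fermat.Agent.Corollaries.Table.SUnit

/-!
# The equation `a² = 64 b + c`

`a` odd, `a`, `b` coprime, and all primes dividing `b c` in `{3, 5}`, resp. in `{3, 7}`.
-/

set_option autoImplicit false

namespace Fermat.Agent.Cor.Table

/-- If `c = s²` the equation factors. -/
theorem exists_uv {a b s : ℤ} (ha : ¬ (2 : ℤ) ∣ a) (hs : ¬ (2 : ℤ) ∣ s) (hco : IsCoprime a s)
    (h : a ^ 2 = 64 * b + s ^ 2) :
    ∃ u v : ℤ, b = u * v ∧ a = u + 16 * v ∧ s ^ 2 = (u - 16 * v) ^ 2 ∧ IsCoprime u v := by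
  obtain ⟨P, hP⟩ : ∃ P, a - s = 2 * P := ⟨(a - s) / 2, by omega⟩
  obtain ⟨Q, hQ⟩ : ∃ Q, a + s = 2 * Q := ⟨(a + s) / 2, by omega⟩
  have ha' : a = P + Q := by linarith
  have hs' : s = Q - P := by linarith
  have hPQ : P * Q = 16 * b := by
    have : (a - s) * (a + s) = 64 * b := by linear_combination h
    rw [hP, hQ] at this
    linarith
  have hp2 : Prime (2 : ℤ) := Int.prime_two
  have key : ∀ x y : ℤ, x * y = 16 * b → ¬ (2 : ℤ) ∣ y → (16 : ℤ) ∣ x := by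
    intro x y hxy hy
    have h1 : IsCoprime ((2 : ℤ) ^ 4) y := (hp2.coprime_iff_not_dvd.mpr hy).pow_left
    have h2 : (2 : ℤ) ^ 4 ∣ x := h1.dvd_of_dvd_mul_right ⟨b, by rw [hxy]; norm_num⟩
    norm_num at h2
    exact h2
  obtain ⟨α, β, hαβ⟩ := hco
  by_cases hQ2 : (2 : ℤ) ∣ Q
  · have hP2 : ¬ (2 : ℤ) ∣ P := fun hd => ha (by rw [ha']; exact dvd_add hd hQ2)
    obtain ⟨v, hv⟩ := key Q P (by rw [← hPQ]; ring) hP2
    refine ⟨P, v, ?_, by rw [ha', hv], by rw [hs', hv]; ring, ⟨α - β, 16 * (α + β), ?_⟩⟩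
    · rw [hv] at hPQ
      linarith
    · rw [ha', hs', hv] at hαβ
      linear_combination hαβ
  · obtain ⟨v, hv⟩ := key P Q hPQ hQ2
    refine ⟨Q, v, ?_, by rw [ha', hv]; ring, by rw [hs', hv], ⟨α + β, 16 * (α - β), ?_⟩⟩
    · rw [hv] at hPQ
      linarith
    · rw [ha', hs', hv] at hαβ
      linear_combination hαβ

/-- An integer with all prime factors in `{p, q}`. -/
theorem natAbs_eq_of_primes {p q : ℕ} (hp : p.Prime) (hq : q.Prime) (hpq : p ≠ q) {n : ℤ}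
    (hn : n ≠ 0) (h : ∀ r : ℕ, r.Prime → (r : ℤ) ∣ n → r = p ∨ r = q) :
    ∃ i j : ℕ, n.natAbs = p ^ i * q ^ j :=
  exists_eq_mul_of_primes hp hq hpq (Int.natAbs_ne_zero.mpr hn)
    fun r hr hd => h r hr (Int.natCast_dvd.mpr hd)

/-- Everything about the equation when `c` is a square: `b = u v`, `a = u + 16 v`. -/
theorem exists_uv_units {p q : ℕ} (hp : p.Prime) (hq : q.Prime) (hpq : p ≠ q) {a b s : ℤ}
    (ha : ¬ (2 : ℤ) ∣ a) (hab : IsCoprime a b) (hb : b ≠ 0) (hs : s ≠ 0)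
    (h : a ^ 2 = 64 * b + s ^ 2)
    (hpr : ∀ r : ℕ, r.Prime → (r : ℤ) ∣ b * s ^ 2 → r = p ∨ r = q) :
    ∃ u v t : ℤ, b = u * v ∧ a = u + 16 * v ∧ t = u - 16 * v ∧
      (∃ i j, u.natAbs = p ^ i * q ^ j) ∧ (∃ i j, v.natAbs = p ^ i * q ^ j) ∧
      (∃ i j, t.natAbs = p ^ i * q ^ j) ∧ u.natAbs.Coprime v.natAbs ∧
      u.natAbs.Coprime t.natAbs ∧ v.natAbs.Coprime t.natAbs := by
  have hp2 : Prime (2 : ℤ) := Int.prime_two
  have hs2 : ¬ (2 : ℤ) ∣ s := by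
    rintro ⟨k, rfl⟩
    exact ha (hp2.dvd_of_dvd_pow (n := 2) ⟨32 * b + 2 * k ^ 2, by rw [h]; ring⟩)
  have h64 : IsCoprime a 64 := by
    have h1 : IsCoprime a ((2 : ℤ) ^ 6) := (hp2.coprime_iff_not_dvd.mpr ha).symm.pow_right
    norm_num at h1
    exact h1
  have hco : IsCoprime a s := by
    have h1 : IsCoprime a (64 * b) := h64.mul_right hab
    have h2 : IsCoprime a (s ^ 2) := by
      have h3 := h1.neg_right.add_mul_left_right a
      have h4 : -(64 * b) + a * a = s ^ 2 := by linear_combination h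
      rwa [h4] at h3
    exact h2.of_isCoprime_of_dvd_right (dvd_pow_self s two_ne_zero)
  obtain ⟨u, v, hb', ha', hs', huv⟩ := exists_uv ha hs2 hco h
  have hu0 : u ≠ 0 := by rintro rfl; exact hb (by rw [hb', zero_mul])
  have hv0 : v ≠ 0 := by rintro rfl; exact hb (by rw [hb', mul_zero])
  have ht0 : u - 16 * v ≠ 0 := by
    intro h0
    rw [h0] at hs'
    exact hs (by simpa using hs')
  have hu2 : ¬ (2 : ℤ) ∣ u := fun hd => ha (by
    rw [ha']; exact dvd_add hd ⟨8 * v, by ring⟩)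
  refine ⟨u, v, u - 16 * v, hb', ha', rfl, ?_, ?_, ?_, ?_, ?_, ?_⟩
  · exact natAbs_eq_of_primes hp hq hpq hu0 fun r hr hd =>
      hpr r hr (by rw [hb']; exact (hd.mul_right _).mul_right _)
  · exact natAbs_eq_of_primes hp hq hpq hv0 fun r hr hd =>
      hpr r hr (by rw [hb']; exact (hd.mul_left _).mul_right _)
  · exact natAbs_eq_of_primes hp hq hpq ht0 fun r hr hd =>
      hpr r hr (by rw [hs']; exact (dvd_pow hd two_ne_zero).mul_left _)
  · exact Int.isCoprime_iff_gcd_eq_one.mp huv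
  · refine Int.isCoprime_iff_gcd_eq_one.mp ?_
    have h16 : IsCoprime u 16 := by
      have h1 : IsCoprime u ((2 : ℤ) ^ 4) := (hp2.coprime_iff_not_dvd.mpr hu2).symm.pow_right
      norm_num at h1
      exact h1
    have h3 := (h16.mul_right huv).neg_right.add_mul_left_right 1
    have h4 : -(16 * v) + u * 1 = u - 16 * v := by ring
    rwa [h4] at h3
  · refine Int.isCoprime_iff_gcd_eq_one.mp ?_
    have h3 := huv.symm.add_mul_left_right (-16)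
    have h4 : u + v * (-16) = u - 16 * v := by ring
    rwa [h4] at h3

theorem sq_mod_eight {a : ℤ} (ha : ¬ (2 : ℤ) ∣ a) : a ^ 2 % 8 = 1 := by
  obtain ⟨k, rfl⟩ : ∃ k, a = 2 * k + 1 := ⟨a / 2, by omega⟩
  obtain ⟨m, hm⟩ : (2 : ℤ) ∣ k * (k + 1) := (Int.even_mul_succ_self k).two_dvd
  have h : (2 * k + 1) ^ 2 = 8 * m + 1 := by linear_combination 4 * hm
  omega

/-- A prime divides `c` but not `b`. -/
theorem not_dvd_of_dvd {a b c : ℤ} (hab : IsCoprime a b) (h : a ^ 2 = 64 * b + c) {r : ℕ}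
    (hr : r.Prime) (hc : (r : ℤ) ∣ c) : ¬ (r : ℤ) ∣ b := fun hb => by
  have hrI := Nat.prime_iff_prime_int.mp hr
  have h1 : (r : ℤ) ∣ a := hrI.dvd_of_dvd_pow (n := 2) (by
    rw [h]; exact dvd_add (hb.mul_left _) hc)
  exact hrI.not_isUnit (hab.isUnit_of_dvd' h1 hb)

/-- **The equation for conductor `15`.** -/
theorem dioph_fifteen {a b c : ℤ} (ha : ¬ (2 : ℤ) ∣ a) (h : a ^ 2 = 64 * b + c)
    (hab : IsCoprime a b) (hb : b ≠ 0) (hc : c ≠ 0)
    (hpr : ∀ r : ℕ, r.Prime → (r : ℤ) ∣ b * c → r = 3 ∨ r = 5) :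
    (b = 1 ∧ (a = 7 ∨ a = -7)) ∨ (b = 1 ∧ (a = 17 ∨ a = -17)) ∨ (b = 15 ∧ (a = 31 ∨ a = -31)) ∨
    (b = 25 ∧ (a = 41 ∨ a = -41)) ∨ (b = -9 ∧ (a = 7 ∨ a = -7)) ∨
    (b = 405 ∧ (a = 161 ∨ a = -161)) ∨ (b = -5 ∧ (a = 79 ∨ a = -79)) := by
  obtain ⟨i, j, hij⟩ := natAbs_eq_of_primes (by norm_num : Nat.Prime 3) (by norm_num : Nat.Prime 5)
    (by norm_num) hc fun r hr hd => hpr r hr (hd.mul_left _)
  have ha8 := sq_mod_eight ha
  have hi8 : (i % 2 = 0 ∧ 3 ^ i % 8 = 1) ∨ (i % 2 = 1 ∧ 3 ^ i % 8 = 3) := by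
    have := cases_three i
    omega
  have hj8 : (j % 2 = 0 ∧ 5 ^ j % 8 = 1) ∨ (j % 2 = 1 ∧ 5 ^ j % 8 = 5) := by
    have := cases_five j
    omega
  have hm := Nat.mul_mod (3 ^ i) (5 ^ j) 8
  rcases lt_or_gt_of_ne hc with hneg | hpos
  · -- `c < 0`
    have hc' : c = -((3 ^ i * 5 ^ j : ℕ) : ℤ) := by omega
    have hn8 : 3 ^ i * 5 ^ j % 8 = 7 := by omega
    have hiodd : i % 2 = 1 ∧ j % 2 = 1 := by
      rcases hi8 with ⟨h1, h2⟩ | ⟨h1, h2⟩ <;> rcases hj8 with ⟨h3, h4⟩ | ⟨h3, h4⟩ <;>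
        rw [h2, h4] at hm <;> omega
    have h3c : (3 : ℤ) ∣ c := by
      rw [hc', dvd_neg]
      exact_mod_cast (dvd_pow_self 3 (by omega : i ≠ 0)).mul_right (5 ^ j)
    have h5c : (5 : ℤ) ∣ c := by
      rw [hc', dvd_neg]
      exact_mod_cast (dvd_pow_self 5 (by omega : j ≠ 0)).mul_left (3 ^ i)
    have hb1 : b.natAbs = 1 := by
      by_contra hne
      obtain ⟨r, hr, hrb⟩ := Nat.exists_prime_and_dvd hne
      have hrb' : (r : ℤ) ∣ b := Int.natCast_dvd.mpr hrb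
      rcases hpr r hr (hrb'.mul_right _) with rfl | rfl
      · exact not_dvd_of_dvd hab h hr (by exact_mod_cast h3c) hrb'
      · exact not_dvd_of_dvd hab h hr (by exact_mod_cast h5c) hrb'
    have ha0 : 0 ≤ a ^ 2 := sq_nonneg a
    have hbb : b = 1 := by omega
    subst hbb
    have h15 : (3 ^ i * 5 ^ j) % 15 = 0 := by
      have h1 : (15 : ℤ) ∣ c := by omega
      omega
    have ha2 : a ^ 2 = 49 := by omega
    have : (a - 7) * (a + 7) = 0 := by linear_combination ha2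
    rcases mul_eq_zero.mp this with h1 | h1
    · exact Or.inl ⟨rfl, Or.inl (by linarith)⟩
    · exact Or.inl ⟨rfl, Or.inr (by linarith)⟩
  · -- `c > 0`
    have hc' : c = ((3 ^ i * 5 ^ j : ℕ) : ℤ) := by omega
    have hn8 : 3 ^ i * 5 ^ j % 8 = 1 := by omega
    have hieven : i % 2 = 0 ∧ j % 2 = 0 := by
      rcases hi8 with ⟨h1, h2⟩ | ⟨h1, h2⟩ <;> rcases hj8 with ⟨h3, h4⟩ | ⟨h3, h4⟩ <;>
        rw [h2, h4] at hm <;> omega
    obtain ⟨s, hs⟩ : ∃ s : ℤ, c = s ^ 2 := by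
      refine ⟨3 ^ (i / 2) * 5 ^ (j / 2), ?_⟩
      rw [hc', mul_pow, ← pow_mul, ← pow_mul, show i / 2 * 2 = i by omega,
        show j / 2 * 2 = j by omega]
      push_cast
      rfl
    subst hs
    obtain ⟨u, v, t, hbuv, hauv, ht, ⟨u₁, u₂, hu⟩, ⟨v₁, v₂, hv⟩, ⟨t₁, t₂, ht'⟩, huv, hut, hvt⟩ :=
      exists_uv_units (by norm_num : Nat.Prime 3) (by norm_num : Nat.Prime 5) (by norm_num) ha hab
        hb (by rintro rfl; exact hc (by norm_num)) h hpr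
    have hvpos : 0 < v.natAbs := by rw [hv]; positivity
    have fin : ∀ x y : ℤ, u = x → v = y → a = x + 16 * y ∧ b = x * y := by
      rintro x y rfl rfl
      exact ⟨hauv, hbuv⟩
    -- the three cases
    have hcases : u.natAbs = 16 * v.natAbs + t.natAbs ∨ t.natAbs = 16 * v.natAbs + u.natAbs ∨
        u.natAbs + t.natAbs = 16 * v.natAbs := by omega
    rcases hcases with h1 | h1 | h1
    · rcases fifteen_alpha hu hv ht' huv hut hvt h1 with ⟨e1, e2, e3⟩ | ⟨e1, e2, e3⟩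
      · have : (u = 25 ∧ v = 1) ∨ (u = -25 ∧ v = -1) := by omega
        rcases this with ⟨f1, f2⟩ | ⟨f1, f2⟩ <;> have := fin _ _ f1 f2 <;> omega
      · have : (u = 81 ∧ v = 5) ∨ (u = -81 ∧ v = -5) := by omega
        rcases this with ⟨f1, f2⟩ | ⟨f1, f2⟩ <;> have := fin _ _ f1 f2 <;> omega
    · rcases fifteen_alpha ht' hv hu hvt.symm hut.symm huv.symm h1 with ⟨e1, e2, e3⟩ | ⟨e1, e2, e3⟩
      · have : (u = 9 ∧ v = -1) ∨ (u = -9 ∧ v = 1) := by omega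
        rcases this with ⟨f1, f2⟩ | ⟨f1, f2⟩ <;> have := fin _ _ f1 f2 <;> omega
      · have : (u = 1 ∧ v = -5) ∨ (u = -1 ∧ v = 5) := by omega
        rcases this with ⟨f1, f2⟩ | ⟨f1, f2⟩ <;> have := fin _ _ f1 f2 <;> omega
    · rcases fifteen_beta hu hv ht' huv hut hvt h1 with ⟨e1, e2, e3⟩ | ⟨e1, e2, e3⟩
      · have : (u = 15 ∧ v = 1) ∨ (u = -15 ∧ v = -1) := by omega
        rcases this with ⟨f1, f2⟩ | ⟨f1, f2⟩ <;> have := fin _ _ f1 f2 <;> omega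
      · have : (u = 1 ∧ v = 1) ∨ (u = -1 ∧ v = -1) := by omega
        rcases this with ⟨f1, f2⟩ | ⟨f1, f2⟩ <;> have := fin _ _ f1 f2 <;> omega

/-- **The equation for conductor `21`.** -/
theorem dioph_twentyone {a b c : ℤ} (ha : ¬ (2 : ℤ) ∣ a) (h : a ^ 2 = 64 * b + c)
    (hab : IsCoprime a b) (hb : b ≠ 0) (hc : c ≠ 0)
    (hpr : ∀ r : ℕ, r.Prime → (r : ℤ) ∣ b * c → r = 3 ∨ r = 7) :
    (b = 1 ∧ (a = 1 ∨ a = -1)) ∨ (b = 9 ∧ (a = 25 ∨ a = -25)) ∨ (b = 7 ∧ (a = 23 ∨ a = -23)) ∨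
    (b = -3 ∧ (a = 47 ∨ a = -47)) ∨ (b = 147 ∧ (a = 97 ∨ a = -97)) := by
  obtain ⟨i, j, hij⟩ := natAbs_eq_of_primes (by norm_num : Nat.Prime 3) (by norm_num : Nat.Prime 7)
    (by norm_num) hc fun r hr hd => hpr r hr (hd.mul_left _)
  have ha8 := sq_mod_eight ha
  have hi8 : (i % 2 = 0 ∧ 3 ^ i % 8 = 1) ∨ (i % 2 = 1 ∧ 3 ^ i % 8 = 3) := by
    have := cases_three i
    omega
  have hj8 : (j % 2 = 0 ∧ 7 ^ j % 8 = 1) ∨ (j % 2 = 1 ∧ 7 ^ j % 8 = 7) := by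
    have := cases_seven j
    omega
  have hm := Nat.mul_mod (3 ^ i) (7 ^ j) 8
  rcases lt_or_gt_of_ne hc with hneg | hpos
  · -- `c < 0`
    have hc' : c = -((3 ^ i * 7 ^ j : ℕ) : ℤ) := by omega
    have hn8 : 3 ^ i * 7 ^ j % 8 = 7 := by omega
    have hiodd : i % 2 = 0 ∧ j % 2 = 1 := by
      rcases hi8 with ⟨h1, h2⟩ | ⟨h1, h2⟩ <;> rcases hj8 with ⟨h3, h4⟩ | ⟨h3, h4⟩ <;>
        rw [h2, h4] at hm <;> omega
    have h7c : (7 : ℤ) ∣ c := by
      rw [hc', dvd_neg]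
      exact_mod_cast (dvd_pow_self 7 (by omega : j ≠ 0)).mul_left (3 ^ i)
    have h3b : ¬ (3 : ℤ) ∣ b := by
      intro h3b
      have h3c : ¬ 3 ∣ 3 ^ i * 7 ^ j := by
        intro hd
        refine not_dvd_of_dvd hab h (by norm_num : Nat.Prime 3) ?_ (by exact_mod_cast h3b)
        rw [hc', dvd_neg]
        exact_mod_cast hd
      have hi0 : i = 0 := by
        by_contra hi0
        exact h3c ((dvd_pow_self 3 hi0).mul_right _)
      rw [hi0, pow_zero, one_mul] at hc'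
      have h7 := cases_seven j
      -- `a² + 7 ^ j ≡ 0` modulo `3`
      have ha3 : a ^ 2 % 3 = 0 ∨ a ^ 2 % 3 = 1 := by
        have h0 : a % 3 = 0 ∨ a % 3 = 1 ∨ a % 3 = 2 := by omega
        rw [sq, Int.mul_emod]
        rcases h0 with h0 | h0 | h0 <;> rw [h0] <;> norm_num
      omega
    have hb1 : b.natAbs = 1 := by
      by_contra hne
      obtain ⟨r, hr, hrb⟩ := Nat.exists_prime_and_dvd hne
      have hrb' : (r : ℤ) ∣ b := Int.natCast_dvd.mpr hrb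
      rcases hpr r hr (hrb'.mul_right _) with rfl | rfl
      · exact h3b (by exact_mod_cast hrb')
      · exact not_dvd_of_dvd hab h hr (by exact_mod_cast h7c) hrb'
    have ha0 : 0 ≤ a ^ 2 := sq_nonneg a
    have hbb : b = 1 := by omega
    subst hbb
    have ha2 : a ^ 2 = 57 ∨ a ^ 2 = 1 := by omega
    rcases ha2 with ha2 | ha2
    · exfalso
      have h1 : a < 8 := by nlinarith
      have h2 : -8 < a := by nlinarith
      interval_cases a <;> omega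
    · have : (a - 1) * (a + 1) = 0 := by linear_combination ha2
      rcases mul_eq_zero.mp this with h1 | h1
      · exact Or.inl ⟨rfl, Or.inl (by linarith)⟩
      · exact Or.inl ⟨rfl, Or.inr (by linarith)⟩
  · -- `c > 0`
    have hc' : c = ((3 ^ i * 7 ^ j : ℕ) : ℤ) := by omega
    have hn8 : 3 ^ i * 7 ^ j % 8 = 1 := by omega
    have hieven : i % 2 = 0 ∧ j % 2 = 0 := by
      rcases hi8 with ⟨h1, h2⟩ | ⟨h1, h2⟩ <;> rcases hj8 with ⟨h3, h4⟩ | ⟨h3, h4⟩ <;>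
        rw [h2, h4] at hm <;> omega
    obtain ⟨s, hs⟩ : ∃ s : ℤ, c = s ^ 2 := by
      refine ⟨3 ^ (i / 2) * 7 ^ (j / 2), ?_⟩
      rw [hc', mul_pow, ← pow_mul, ← pow_mul, show i / 2 * 2 = i by omega,
        show j / 2 * 2 = j by omega]
      push_cast
      rfl
    subst hs
    obtain ⟨u, v, t, hbuv, hauv, ht, ⟨u₁, u₂, hu⟩, ⟨v₁, v₂, hv⟩, ⟨t₁, t₂, ht'⟩, huv, hut, hvt⟩ :=
      exists_uv_units (by norm_num : Nat.Prime 3) (by norm_num : Nat.Prime 7) (by norm_num) ha hab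
        hb (by rintro rfl; exact hc (by norm_num)) h hpr
    have hvpos : 0 < v.natAbs := by rw [hv]; positivity
    have fin : ∀ x y : ℤ, u = x → v = y → a = x + 16 * y ∧ b = x * y := by
      rintro x y rfl rfl
      exact ⟨hauv, hbuv⟩
    -- the three cases
    have hcases : u.natAbs = 16 * v.natAbs + t.natAbs ∨ t.natAbs = 16 * v.natAbs + u.natAbs ∨
        u.natAbs + t.natAbs = 16 * v.natAbs := by omega
    rcases hcases with h1 | h1 | h1
    · obtain ⟨e1, e2, e3⟩ := twentyone_alpha hu hv ht' huv hut hvt h1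
      have : (u = 49 ∧ v = 3) ∨ (u = -49 ∧ v = -3) := by omega
      rcases this with ⟨f1, f2⟩ | ⟨f1, f2⟩ <;> have := fin _ _ f1 f2 <;> omega
    · obtain ⟨e1, e2, e3⟩ := twentyone_alpha ht' hv hu hvt.symm hut.symm huv.symm h1
      have : (u = 1 ∧ v = -3) ∨ (u = -1 ∧ v = 3) := by omega
      rcases this with ⟨f1, f2⟩ | ⟨f1, f2⟩ <;> have := fin _ _ f1 f2 <;> omega
    · rcases twentyone_beta hu hv ht' huv hut hvt h1 with ⟨e1, e2, e3⟩ | ⟨e1, e2, e3⟩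
      · have : (u = 9 ∧ v = 1) ∨ (u = -9 ∧ v = -1) := by omega
        rcases this with ⟨f1, f2⟩ | ⟨f1, f2⟩ <;> have := fin _ _ f1 f2 <;> omega
      · have : (u = 7 ∧ v = 1) ∨ (u = -7 ∧ v = -1) := by omega
        rcases this with ⟨f1, f2⟩ | ⟨f1, f2⟩ <;> have := fin _ _ f1 f2 <;> omega

end Fermat.Agent.Cor.Table
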