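import Fermat.Agent.Corollaries.Surj.TwoTors

/-!
# Curves with all `a_ℓ` even have a rational point of order two

If `a_ℓ` is even for all good primes `ℓ ≠ 2`, then by Frobenius' density theorem every
`σ ∈ Gal(ℚ̄/ℚ)` has the eigenvalue `1` on `W[2]`, so the image of Galois in `GL₂(𝔽₂) ≅ S₃` has no
elements of order three; a product of two different involutions has order three, so the image has
at most two elements and fixes a point of order two, whose abscissa is a rational root of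
`4 x³ + b₂ x² + 2 b₄ x + b₆`.
-/

set_option autoImplicit false

noncomputable section

namespace Fermat.Agent.Cor.Table

open WeierstrassCurve WeierstrassCurve.Affine WeierstrassCurve.Affine.Point
open Fermat.Agent.ECFrob Fermat.Agent.Classic Fermat.Agent.ECRed
open Matrix

local notation "Qbar" => AlgebraicClosure ℚ
local notation "Γℚ" => (AlgebraicClosure ℚ ≃ₐ[ℚ] AlgebraicClosure ℚ)

/-- Two elements of `GL₂(𝔽₂)` which have, like their product, the eigenvalue `1`. -/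
theorem eq_of_det_one_sub (g h : Matrix (Fin 2) (Fin 2) (ZMod 2)) (hg : g.det ≠ 0)
    (hh : h.det ≠ 0) (h1 : (1 - g).det = 0) (h2 : (1 - h).det = 0) (h3 : (1 - g * h).det = 0) :
    g = 1 ∨ h = 1 ∨ g = h := by
  have key : ∀ a b c d a' b' c' d' : ZMod 2, a * d - b * c ≠ 0 → a' * d' - b' * c' ≠ 0 →
      (1 - a) * (1 - d) - (0 - b) * (0 - c) = 0 → (1 - a') * (1 - d') - (0 - b') * (0 - c') = 0 →
      (1 - (a * a' + b * c')) * (1 - (c * b' + d * d')) -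
        (0 - (a * b' + b * d')) * (0 - (c * a' + d * c')) = 0 →
      (a = 1 ∧ b = 0 ∧ c = 0 ∧ d = 1) ∨ (a' = 1 ∧ b' = 0 ∧ c' = 0 ∧ d' = 1) ∨
        (a = a' ∧ b = b' ∧ c = c' ∧ d = d') := by
    decide
  rw [Matrix.det_fin_two] at hg hh h1 h2 h3
  simp only [Matrix.sub_apply, Matrix.mul_apply, Fin.sum_univ_two, one_apply_eq, ne_eq,
    Fin.isValue, zero_ne_one, not_false_eq_true, one_apply_ne, one_ne_zero] at h1 h2 h3
  rcases key _ _ _ _ _ _ _ _ hg hh h1 h2 h3 with ⟨e1, e2, e3, e4⟩ | ⟨e1, e2, e3, e4⟩ |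
    ⟨e1, e2, e3, e4⟩
  · refine Or.inl ?_
    ext i j
    fin_cases i <;> fin_cases j <;> simp [e1, e2, e3, e4]
  · refine Or.inr (Or.inl ?_)
    ext i j
    fin_cases i <;> fin_cases j <;> simp [e1, e2, e3, e4]
  · refine Or.inr (Or.inr ?_)
    ext i j
    fin_cases i <;> fin_cases j <;> simp [e1, e2, e3, e4]

variable {W : WeierstrassCurve ℤ} (hΔ : W.Δ ≠ 0)

/-- Every `σ` has the eigenvalue `1` on `W[2]`, if all `a_ℓ` are even. -/
theorem det_one_sub_repP (h : ∀ ℓ : ℕ, ℓ.Prime → ℓ ≠ 2 → W.IsGoodPrimeFor ℓ →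
    (2 : ℤ) ∣ W.apOfModel ℓ) (σ : Γℚ) :
    (1 - (repP 2 hΔ σ : Matrix (Fin 2) (Fin 2) (ZMod 2))).det = 0 := by
  obtain ⟨L, hL, hLr⟩ := repP_factors 2 hΔ
  have hsame : ∀ σ τ : Γℚ, (∀ x ∈ L, σ x = τ x) → repP 2 hΔ σ = repP 2 hΔ τ := by
    intro σ τ hστ
    have h1 : repP 2 hΔ (τ⁻¹ * σ) = 1 := hLr _ fun x hx => by
      rw [AlgEquiv.mul_apply, hστ x hx, AlgEquiv.aut_inv, AlgEquiv.symm_apply_apply]
    rw [map_mul, map_inv, inv_mul_eq_one] at h1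
    exact h1.symm
  refine FrobDensity.eq_of_frobenius
    (fun σ => (1 - (repP 2 hΔ σ : Matrix (Fin 2) (Fin 2) (ZMod 2))).det) (fun _ => 0) L
    (fun σ τ h' => by rw [hsame σ τ h']) (fun _ _ _ => rfl) ?_
    {ℓ : ℕ | (ℓ : ℤ) ∣ W.Δ ∨ ℓ = 2} ?_ ?_ σ
  · intro φ k hφ
    rw [map_pow, Units.val_pow_eq_pow_val]
    obtain ⟨X, hX⟩ : (1 - (repP 2 hΔ φ : Matrix (Fin 2) (Fin 2) (ZMod 2))) ∣
        (1 - (repP 2 hΔ φ : Matrix (Fin 2) (Fin 2) (ZMod 2)) ^ k) := one_sub_dvd_one_sub_pow _ k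
    rw [hX, Matrix.det_mul]
    have hφ' : (1 - (repP 2 hΔ φ : Matrix (Fin 2) (Fin 2) (ZMod 2))).det = 0 := hφ
    rw [hφ', zero_mul]
  · refine Set.Finite.union ?_ (Set.finite_singleton 2)
    refine (Set.finite_le_nat W.Δ.natAbs).subset fun ℓ hℓ => ?_
    exact Nat.le_of_dvd (Int.natAbs_pos.mpr hΔ) (Int.natCast_dvd.mp hℓ)
  · intro ℓ hℓ hS A hA φ hφ
    rw [Set.mem_ofPred_eq, not_or] at hS
    have htr := trace_repP_frobenius hΔ hℓ hS.1 hS.2 hA hφ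
    have hdet := det_repP_frobenius hΔ hℓ hS.1 hS.2 hA hφ
    have h1 := (ZMod.intCast_zmod_eq_zero_iff_dvd (W.apOfModel ℓ) 2).mpr
      (by exact_mod_cast h ℓ hℓ hS.2 hS.1)
    have h2 : ((ℓ : ℕ) : ZMod 2) = 1 := by
      have h3 : ℓ % 2 = 1 := Nat.odd_iff.mp (hℓ.odd_of_ne_two hS.2)
      rw [← ZMod.natCast_mod, h3, Nat.cast_one]
    have h3 : ∀ M : Matrix (Fin 2) (Fin 2) (ZMod 2), (1 - M).det = 1 - M.trace + M.det := by
      decide
    rw [h3, htr, hdet, h1, h2]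
    decide

include hΔ in
/-- **All `a_ℓ` even: there is a point of order two fixed by Galois.** -/
theorem exists_fixed_point_two (h : ∀ ℓ : ℕ, ℓ.Prime → ℓ ≠ 2 → W.IsGoodPrimeFor ℓ →
    (2 : ℤ) ∣ W.apOfModel ℓ) :
    ∃ P : (EQ W).Point, P ≠ 0 ∧ 2 • P = 0 ∧ ∀ σ : Γℚ, σ • P = P := by
  have hdet := det_one_sub_repP hΔ h
  have hne : ∀ σ : Γℚ, (repP 2 hΔ σ : Matrix (Fin 2) (Fin 2) (ZMod 2)).det ≠ 0 := fun σ =>
    (Matrix.GeneralLinearGroup.det (repP 2 hΔ σ)).ne_zero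
  -- a vector fixed by everything
  obtain ⟨v, hv, hfix⟩ : ∃ v : Fin 2 → ZMod 2, v ≠ 0 ∧
      ∀ σ : Γℚ, (repP 2 hΔ σ : Matrix (Fin 2) (Fin 2) (ZMod 2)) *ᵥ v = v := by
    by_cases hall : ∀ σ : Γℚ, (repP 2 hΔ σ : Matrix (Fin 2) (Fin 2) (ZMod 2)) = 1
    · refine ⟨fun _ => 1, by decide, fun σ => ?_⟩
      rw [hall, one_mulVec]
    · push Not at hall
      obtain ⟨σ₀, h0⟩ := hall
      obtain ⟨v, hv, hv1⟩ := Matrix.exists_mulVec_eq_zero_iff.mpr (hdet σ₀)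
      have hv2 : (repP 2 hΔ σ₀ : Matrix (Fin 2) (Fin 2) (ZMod 2)) *ᵥ v = v := by
        rw [Matrix.sub_mulVec, one_mulVec, sub_eq_zero] at hv1
        exact hv1.symm
      refine ⟨v, hv, fun σ => ?_⟩
      have h1 := hdet (σ₀ * σ)
      rw [map_mul, Units.val_mul] at h1
      rcases eq_of_det_one_sub _ _ (hne σ₀) (hne σ) (hdet σ₀) (hdet σ) h1 with h2 | h2 | h2
      · exact absurd h2 h0
      · rw [h2, one_mulVec]
      · rw [← h2, hv2]
  obtain ⟨e, he⟩ := exists_equiv 2 hΔ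
  have hP2 := (Fermat.Agent.Torsion.mem_torsionBy_nat_iff 2 _).mp (e.symm v).2
  refine ⟨(e.symm v : (EQ W).Point), ?_, hP2, fun σ => ?_⟩
  · intro h0
    apply hv
    have h1 : e.symm v = 0 := Subtype.ext h0
    rw [← e.apply_symm_apply v, h1, _root_.map_zero]
  · have h1 : σ • e.symm v = e.symm v := by
      apply e.injective
      rw [he, e.apply_symm_apply, hfix]
    exact congrArg Subtype.val h1

/-- **All `a_ℓ` even: `4 x³ + b₂ x² + 2 b₄ x + b₆` has a rational root.** -/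
theorem not_irreducible_two {W : WeierstrassCurve ℤ} (hΔ : W.Δ ≠ 0)
    (h : ∀ ℓ : ℕ, ℓ.Prime → ℓ ≠ 2 → W.IsGoodPrimeFor ℓ → (2 : ℤ) ∣ W.apOfModel ℓ) :
    ∃ x : ℚ, 4 * x ^ 3 + W.b₂ * x ^ 2 + 2 * W.b₄ * x + W.b₆ = 0 := by
  obtain ⟨P, hP0, hP2, hfix⟩ := exists_fixed_point_two hΔ h
  rcases hP : P with _ | ⟨t, u, hns⟩
  · exact absurd hP hP0
  · rw [hP] at hP2 hfix
    have ht := (psiTwo_eq_zero hP2).1
    have hσ : ∀ σ : Γℚ, σ t = t := by
      intro σ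
      have h5 := congrArg xc (hfix σ)
      rw [xc_smul] at h5
      exact h5
    have h1 : t ∈ (⊥ : IntermediateField ℚ Qbar) := by
      rw [InfiniteGalois.mem_bot_iff_fixed]
      exact hσ
    obtain ⟨x, rfl⟩ := IntermediateField.mem_bot.mp h1
    refine ⟨x, ?_⟩
    rw [psiTwo, EQ_b₂, EQ_b₄, EQ_b₆] at ht
    have h2 : algebraMap ℚ Qbar (4 * x ^ 3 + W.b₂ * x ^ 2 + 2 * W.b₄ * x + W.b₆) = 0 := by
      rw [← ht]
      simp only [map_add, map_mul, map_pow, map_intCast, map_ofNat]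
    exact (map_eq_zero _).mp h2

/-- **All `a_ℓ` even: `W[2]` is reducible.** -/
theorem not_modRepIsIrreducible_two {W : WeierstrassCurve ℤ} (hΔ : W.Δ ≠ 0)
    (h : ∀ ℓ : ℕ, ℓ.Prime → ℓ ≠ 2 → W.IsGoodPrimeFor ℓ → (2 : ℤ) ∣ W.apOfModel ℓ) :
    ¬ W.ModRepIsIrreducible 2 := by
  rw [noInvLine_range_iff 2 hΔ]
  intro hno
  obtain ⟨P, hP0, hP2, hfix⟩ := exists_fixed_point_two hΔ h
  obtain ⟨e, he⟩ := exists_equiv 2 hΔ
  have hPm := (Fermat.Agent.Torsion.mem_torsionBy_nat_iff 2 P).mpr hP2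
  have hv : e ⟨P, hPm⟩ ≠ 0 := by
    intro h0
    exact hP0 (congrArg Subtype.val ((map_eq_zero_iff e e.injective).mp h0))
  obtain ⟨g, ⟨σ, rfl⟩, hg⟩ := hno _ hv
  refine hg 1 ?_
  rw [← he, one_smul]
  exact congrArg e (Subtype.ext (hfix σ))

end Fermat.Agent.Cor.Table
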