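import Fermat.Agent.Switch.Irred

/-!
# Semistable curves with a rational isogeny of degree three

If the mod `3` representation of a semistable integral model `W` is reducible, then there are integers
`a`, `b` with

* `c₄ = a (a³ - 24 b)`, `c₆ = - a⁶ + 36 a³ b - 216 b²`, `Δ = b³ (a³ - 27 b)` (`W` has a rational point of
  order three and is the curve `y² + a x y + b y = x³`), or
* `c₄ = a (a³ + 216 b)`, `c₆ = - a⁶ + 540 a³ b + 5832 b²`, `Δ = b (a³ - 27 b)³` (the quotient of that curve by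
  the point of order three).
-/

set_option autoImplicit false

namespace Fermat.Agent.Cor.Table

open WeierstrassCurve

/-- `Y (Y³ - 6 γ Y - δ) = 3 γ²` with no common primes: `Y` is `± a²` or `± 3 a²`. -/
theorem split_three {Y γ δ : ℤ} (h : Y ^ 4 - 6 * γ * Y ^ 2 - δ * Y - 3 * γ ^ 2 = 0)
    (h3 : (3 : ℤ) ∣ Y → ¬ (3 : ℤ) ∣ γ)
    (hq : ∀ q : ℕ, q.Prime → q ≠ 3 → (q : ℤ) ∣ Y → (q : ℤ) ∣ γ → ¬ (q : ℤ) ∣ δ) :
    ∃ a g ε : ℤ, a ≠ 0 ∧ γ = a * g ∧ (ε = 1 ∨ ε = -1) ∧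
      ((Y = ε * a ^ 2 ∧ Y ^ 3 - 6 * γ * Y - δ = ε * (3 * g ^ 2)) ∨
        (Y = ε * (3 * a ^ 2) ∧ Y ^ 3 - 6 * γ * Y - δ = ε * g ^ 2)) := by
  obtain ⟨U, hU⟩ : ∃ U, U = Y ^ 3 - 6 * γ * Y - δ := ⟨_, rfl⟩
  have hYU : Y * U = 3 * γ ^ 2 := by rw [hU]; linear_combination h
  have hp3 : Prime (3 : ℤ) := by exact_mod_cast Nat.prime_iff_prime_int.mp Nat.prime_three
  have hY0 : Y ≠ 0 := by
    rintro rfl
    have h1 : γ = 0 := by
      have : 3 * γ ^ 2 = 0 := by rw [← hYU, zero_mul]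
      simpa using this
    exact h3 (dvd_zero _) (by rw [h1]; exact dvd_zero _)
  have hcop : IsCoprime Y U := by
    rw [Int.isCoprime_iff_gcd_eq_one]
    by_contra hne
    obtain ⟨q, hqp, hqd⟩ := Nat.exists_prime_and_dvd hne
    have hqY : (q : ℤ) ∣ Y := (Int.natCast_dvd_natCast.mpr hqd).trans (Int.gcd_dvd_left ..)
    have hqU : (q : ℤ) ∣ U := (Int.natCast_dvd_natCast.mpr hqd).trans (Int.gcd_dvd_right ..)
    have hqI := Nat.prime_iff_prime_int.mp hqp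
    by_cases hq3 : q = 3
    · subst hq3
      have h9 : (9 : ℤ) ∣ 3 * γ ^ 2 := by
        rw [← hYU]; exact mul_dvd_mul hqY hqU
      have h4 : (3 : ℤ) ∣ γ ^ 2 := by
        obtain ⟨k, hk⟩ := h9
        exact ⟨k, by linarith⟩
      exact h3 hqY (hp3.dvd_of_dvd_pow h4)
    · have h5 : (q : ℤ) ∣ 3 * γ ^ 2 := by rw [← hYU]; exact hqY.mul_right _
      have h6 : ¬ (q : ℤ) ∣ 3 := by
        intro h7
        exact hq3 ((Nat.prime_dvd_prime_iff_eq hqp Nat.prime_three).mp (by exact_mod_cast h7))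
      have h7 : (q : ℤ) ∣ γ := hqI.dvd_of_dvd_pow ((hqI.dvd_or_dvd h5).resolve_left h6)
      refine hq q hqp hq3 hqY h7 ?_
      have h8 : δ = Y * (Y ^ 2 - 6 * γ) - U := by rw [hU]; ring
      rw [h8]
      exact dvd_sub (hqY.mul_right _) hqU
  -- a coprime factorisation of the square of `γ`
  have key : ∀ u v : ℤ, u ≠ 0 → IsCoprime u v → u * v = γ ^ 2 →
      ∃ a g ε : ℤ, a ≠ 0 ∧ γ = a * g ∧ (ε = 1 ∨ ε = -1) ∧ u = ε * a ^ 2 ∧ v = ε * g ^ 2 := by
    intro u v hu hc huv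
    obtain ⟨a, ha⟩ := Int.sq_of_isCoprime hc huv
    have ha0 : a ≠ 0 := by
      rintro rfl
      rcases ha with h1 | h1 <;> exact hu (by rw [h1]; ring)
    have h2 : ∃ ε : ℤ, (ε = 1 ∨ ε = -1) ∧ u = ε * a ^ 2 := by
      rcases ha with h1 | h1
      · exact ⟨1, Or.inl rfl, by rw [h1]; ring⟩
      · exact ⟨-1, Or.inr rfl, by rw [h1]; ring⟩
    obtain ⟨ε, hε, hu2⟩ := h2
    have hεε : ε * ε = 1 := by rcases hε with rfl | rfl <;> norm_num
    have h3 : a ^ 2 ∣ γ ^ 2 := ⟨ε * v, by rw [← huv, hu2]; ring⟩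
    obtain ⟨g, hg⟩ := (Int.pow_dvd_pow_iff two_ne_zero).mp h3
    refine ⟨a, g, ε, ha0, hg, hε, hu2, ?_⟩
    have h4 : a ^ 2 * v = a ^ 2 * (ε * g ^ 2) := by
      have h5 : ε * a ^ 2 * v = (a * g) ^ 2 := by rw [← hu2, huv, hg]
      linear_combination ε * h5 - (a ^ 2 * v) * hεε
    exact mul_left_cancel₀ (pow_ne_zero 2 ha0) h4
  by_cases hd : (3 : ℤ) ∣ Y
  · obtain ⟨Y', rfl⟩ := hd
    have hY' : Y' ≠ 0 := fun h0 => hY0 (by rw [h0, mul_zero])
    obtain ⟨a, g, ε, h1, h2, h3', h4, h5⟩ := key Y' U hY'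
      (hcop.of_isCoprime_of_dvd_left (dvd_mul_left _ _)) (by linarith)
    exact ⟨a, g, ε, h1, h2, h3', Or.inr ⟨by rw [h4]; ring, by rw [← hU, h5]⟩⟩
  · have h1 : (3 : ℤ) ∣ U := by
      have h2 : (3 : ℤ) ∣ Y * U := ⟨γ ^ 2, hYU⟩
      exact (hp3.dvd_or_dvd h2).resolve_left hd
    obtain ⟨U', rfl⟩ := h1
    obtain ⟨a, g, ε, h1, h2, h3', h4, h5⟩ := key Y U' hY0
      (hcop.of_isCoprime_of_dvd_right (dvd_mul_left _ _)) (by linarith)
    exact ⟨a, g, ε, h1, h2, h3', Or.inl ⟨h4, by rw [← hU, h5]; ring⟩⟩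

/-- The three-division quartic has an integral root, in terms of `X = 12 x + b₂`. -/
theorem exists_root_three {W : WeierstrassCurve ℤ} (hΔ : W.Δ ≠ 0)
    (hred : ¬ W.ModRepIsIrreducible 3) :
    ∃ X : ℤ, X ^ 4 - 6 * W.c₄ * X ^ 2 - 8 * W.c₆ * X - 3 * W.c₄ ^ 2 = 0 := by
  by_contra hcon
  push Not at hcon
  exact hred (Switch.irreducible_of_no_root W hΔ hcon)

variable {W : WeierstrassCurve ℤ}

/-- At `3`. -/
theorem not_three_dvd (hW : W.IsSemistableModel) {X : ℤ}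
    (hX : X ^ 4 - 6 * W.c₄ * X ^ 2 - 8 * W.c₆ * X - 3 * W.c₄ ^ 2 = 0) (h3 : (3 : ℤ) ∣ X) :
    ¬ (3 : ℤ) ∣ W.c₄ := by
  intro hc
  have hp3 : Prime (3 : ℤ) := by exact_mod_cast Nat.prime_iff_prime_int.mp Nat.prime_three
  have hb : (3 : ℤ) ∣ W.b₂ := by
    refine hp3.dvd_of_dvd_pow (n := 2) ?_
    have h1 : W.b₂ ^ 2 = W.c₄ + 3 * (8 * W.b₄) := by rw [WeierstrassCurve.c₄]; ring
    rw [h1]
    exact dvd_add hc (dvd_mul_right _ _)
  obtain ⟨β, hβ⟩ := hb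
  obtain ⟨X', rfl⟩ := h3
  have h4 : W.c₄ = 3 * (3 * β ^ 2 - 8 * W.b₄) := by rw [WeierstrassCurve.c₄, hβ]; ring
  have h6 : W.c₆ = 27 * (-β ^ 3 + 4 * β * W.b₄ - 8 * W.b₆) := by
    rw [WeierstrassCurve.c₆, hβ]; ring
  obtain ⟨c, hc'⟩ : ∃ c, c = 3 * β ^ 2 - 8 * W.b₄ := ⟨_, rfl⟩
  obtain ⟨κ, hκ⟩ : ∃ κ, κ = -β ^ 3 + 4 * β * W.b₄ - 8 * W.b₆ := ⟨_, rfl⟩
  rw [← hc'] at h4
  rw [← hκ] at h6
  have h5 : (3 : ℤ) ∣ c := by
    refine hp3.dvd_of_dvd_pow (n := 2) ⟨X' ^ 4 - 2 * c * X' ^ 2 - 8 * κ * X', ?_⟩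
    have h7 : 27 * (c ^ 2) = 27 * (3 * (X' ^ 4 - 2 * c * X' ^ 2 - 8 * κ * X')) := by
      rw [h4, h6] at hX
      linear_combination -hX
    exact mul_left_cancel₀ (by norm_num) h7
  obtain ⟨c', rfl⟩ := h5
  have h7 : (3 : ℤ) ∣ W.Δ := by
    have h8 : 64 * W.Δ = 27 * (c' ^ 3 - κ ^ 2) := by
      have h9 := W.c_relation
      rw [h4, h6] at h9
      have h10 : 27 * (64 * W.Δ) = 27 * (27 * (c' ^ 3 - κ ^ 2)) := by linear_combination h9
      exact mul_left_cancel₀ (by norm_num) h10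
    omega
  exact hW 3 Nat.prime_three h7 hc

/-- No prime besides `2`, `3` divides `X`, `c₄` and `c₆`. -/
theorem not_dvd_c₆ (hW : W.IsSemistableModel) {q : ℕ} (hq : q.Prime) (h2 : q ≠ 2) (h3 : q ≠ 3)
    (h4 : (q : ℤ) ∣ W.c₄) : ¬ (q : ℤ) ∣ W.c₆ := by
  intro h6
  have hqI := Nat.prime_iff_prime_int.mp hq
  have h1 : (q : ℤ) ∣ 1728 * W.Δ := by
    rw [W.c_relation]
    exact dvd_sub (dvd_pow h4 (by norm_num)) (dvd_pow h6 (by norm_num))
  rcases hqI.dvd_or_dvd h1 with h5 | h5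
  · have h7 : q ∣ 2 ^ 6 * 3 ^ 3 := by
      have : (q : ℤ) ∣ ((2 ^ 6 * 3 ^ 3 : ℕ) : ℤ) := by norm_num; exact h5
      exact_mod_cast this
    rcases (Nat.Prime.dvd_mul hq).mp h7 with h8 | h8
    · exact h2 ((Nat.prime_dvd_prime_iff_eq hq Nat.prime_two).mp (hq.dvd_of_dvd_pow h8))
    · exact h3 ((Nat.prime_dvd_prime_iff_eq hq Nat.prime_three).mp (hq.dvd_of_dvd_pow h8))
  · exact hW q hq h5 h4

theorem odd_or {a : ℤ} : (∃ n, a = 2 * n) ∨ ∃ n, a = 2 * n + 1 := by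
  rcases Int.even_or_odd' a with ⟨n, h | h⟩
  · exact Or.inl ⟨n, h⟩
  · exact Or.inr ⟨n, h⟩

/-- the invariants of an integral model with `c₄` odd -/
theorem odd_c₄ (h : ¬ (2 : ℤ) ∣ W.c₄) :
    (∃ k, W.c₄ = 8 * k + 1) ∧ ∃ m, W.c₆ = 4 * m - 1 := by
  rcases odd_or (a := W.a₁) with ⟨s, hs⟩ | ⟨s, hs⟩
  · refine absurd ?_ h
    refine ⟨2 * (2 * (s ^ 2 + W.a₂)) ^ 2 - 12 * W.b₄, ?_⟩
    rw [WeierstrassCurve.c₄, WeierstrassCurve.b₂, hs]; ring
  · obtain ⟨β, hβ⟩ : ∃ β, W.b₂ = 4 * β + 1 :=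
      ⟨s ^ 2 + s + W.a₂, by rw [WeierstrassCurve.b₂, hs]; ring⟩
    refine ⟨⟨β + 2 * β ^ 2 - 3 * W.b₄, ?_⟩,
      ⟨-3 * β - 12 * β ^ 2 - 16 * β ^ 3 + 9 * W.b₄ + 36 * β * W.b₄ - 54 * W.b₆, ?_⟩⟩
    · rw [WeierstrassCurve.c₄, hβ]; ring
    · rw [WeierstrassCurve.c₆, hβ]; ring

/-- the invariants of a semistable integral model with `c₄` even -/
theorem even_c₄ (hW : W.IsSemistableModel) (h : (2 : ℤ) ∣ W.c₄) :
    ∃ γ d, W.c₄ = 16 * γ ∧ W.c₆ = 8 * (4 * d + 1) := by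
  have hΔ2 : ¬ (2 : ℤ) ∣ W.Δ := fun h2 => hW 2 Nat.prime_two (by exact_mod_cast h2) (by exact_mod_cast h)
  rcases odd_or (a := W.a₁) with ⟨s, hs⟩ | ⟨s, hs⟩
  · obtain ⟨β, hβ⟩ : ∃ β, W.b₂ = 4 * β := ⟨s ^ 2 + W.a₂, by rw [WeierstrassCurve.b₂, hs]; ring⟩
    obtain ⟨η, hη⟩ : ∃ η, W.b₄ = 2 * η := ⟨W.a₄ + s * W.a₃, by rw [WeierstrassCurve.b₄, hs]; ring⟩
    have h4 : W.c₄ = 16 * (β ^ 2 - 3 * η) := by rw [WeierstrassCurve.c₄, hβ, hη]; ring
    have h6 : W.c₆ = 8 * (-8 * β ^ 3 + 36 * β * η - 27 * W.b₆) := by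
      rw [WeierstrassCurve.c₆, hβ, hη]; ring
    rcases odd_or (a := W.a₃) with ⟨r, hr⟩ | ⟨r, hr⟩
    · exfalso
      have hb6 : W.b₆ = 2 * (2 * r ^ 2 + 2 * W.a₆) := by rw [WeierstrassCurve.b₆, hr]; ring
      obtain ⟨b, hb⟩ : ∃ b, b = 2 * r ^ 2 + 2 * W.a₆ := ⟨_, rfl⟩
      rw [← hb] at hb6
      rw [hb6] at h6
      have h9 := W.c_relation
      rw [h4, h6] at h9
      have h10 : 64 * (27 * W.Δ) = 64 * (2 * (32 * (β ^ 2 - 3 * η) ^ 3 -
          2 * (-4 * β ^ 3 + 18 * β * η - 27 * b) ^ 2)) := by linear_combination h9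
      have h11 := mul_left_cancel₀ (by norm_num : (64 : ℤ) ≠ 0) h10
      omega
    · refine ⟨β ^ 2 - 3 * η, -2 * β ^ 3 + 9 * β * η - 27 * (r ^ 2 + r + W.a₆) - 7, h4, ?_⟩
      rw [h6, WeierstrassCurve.b₆, hr]; ring
  · exfalso
    obtain ⟨β, hβ⟩ : ∃ β, W.b₂ = 4 * β + 1 :=
      ⟨s ^ 2 + s + W.a₂, by rw [WeierstrassCurve.b₂, hs]; ring⟩
    have h4 : W.c₄ = 2 * (8 * β ^ 2 + 4 * β - 12 * W.b₄) + 1 := by
      rw [WeierstrassCurve.c₄, hβ]; ring
    omega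

/-- squares modulo `4` -/
theorem sq_cases (g : ℤ) : ∃ k, g ^ 2 = 4 * k ∨ g ^ 2 = 4 * k + 1 := by
  rcases odd_or (a := g) with ⟨n, rfl⟩ | ⟨n, rfl⟩
  · exact ⟨n ^ 2, Or.inl (by ring)⟩
  · exact ⟨n ^ 2 + n, Or.inr (by ring)⟩

/-- The first form of the parametrisation: `c₄ = a g`. -/
theorem exists_pre (hW : W.IsSemistableModel) {X : ℤ}
    (hX : X ^ 4 - 6 * W.c₄ * X ^ 2 - 8 * W.c₆ * X - 3 * W.c₄ ^ 2 = 0) :
    ∃ a g : ℤ, a ≠ 0 ∧ W.c₄ = a * g ∧ (8 : ℤ) ∣ a ^ 3 - g ∧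
      ((¬ (3 : ℤ) ∣ a ∧ 8 * W.c₆ = a ^ 6 - 6 * g * a ^ 3 - 3 * g ^ 2) ∨
        (¬ (3 : ℤ) ∣ g ∧ 8 * W.c₆ = g ^ 2 + 18 * g * a ^ 3 - 27 * a ^ 6)) := by
  by_cases hc : (2 : ℤ) ∣ W.c₄
  · -- `c₄` even
    obtain ⟨γ, d, h4, h6⟩ := even_c₄ hW hc
    -- `X = 4 Y`
    obtain ⟨Y, rfl⟩ : ∃ Y, X = 4 * Y := by
      rw [h4, h6] at hX
      rcases odd_or (a := X) with ⟨n, rfl⟩ | ⟨n, rfl⟩
      · rcases odd_or (a := n) with ⟨m, rfl⟩ | ⟨m, rfl⟩
        · exact ⟨m, by ring⟩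
        · exfalso
          have h1 : 16 * (2 * (8 * m ^ 4 + 16 * m ^ 3 + 12 * m ^ 2 + 4 * m -
              12 * γ * (2 * m + 1) ^ 2 - 4 * (4 * d + 1) * (2 * m + 1) - 24 * γ ^ 2) + 1) = 16 * 0 := by
            linear_combination hX
          have h2 := mul_left_cancel₀ (by norm_num : (16 : ℤ) ≠ 0) h1
          omega
      · exfalso
        have h1 : 2 * (8 * n ^ 4 + 16 * n ^ 3 + 12 * n ^ 2 + 4 * n - 48 * γ * (2 * n + 1) ^ 2 -
            32 * (4 * d + 1) * (2 * n + 1) - 384 * γ ^ 2) + 1 = 0 := by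
          linear_combination hX
        omega
    have hY : Y ^ 4 - 6 * γ * Y ^ 2 - (4 * d + 1) * Y - 3 * γ ^ 2 = 0 := by
      have h1 : 256 * (Y ^ 4 - 6 * γ * Y ^ 2 - (4 * d + 1) * Y - 3 * γ ^ 2) = 256 * 0 := by
        rw [h4, h6] at hX
        linear_combination hX
      exact mul_left_cancel₀ (by norm_num) h1
    have h3 : (3 : ℤ) ∣ Y → ¬ (3 : ℤ) ∣ γ := fun h1 h2 =>
      not_three_dvd hW hX (h1.mul_left 4) (by rw [h4]; exact h2.mul_left 16)
    obtain ⟨a, g, ε, ha, hγ, hε, hcases⟩ := split_three hY h3 (by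
      intro q hq hq3 h1 h2 h5
      by_cases hq2 : q = 2
      · subst hq2
        have : (2 : ℤ) ∣ 4 * d + 1 := by exact_mod_cast h5
        omega
      · exact not_dvd_c₆ hW hq hq2 hq3 (by rw [h4]; exact h2.mul_left 16)
          (by rw [h6]; exact h5.mul_left 8))
    -- `γ` is even if `Y` is odd
    have hpar : (∃ n, Y = 2 * n) ∨ ∃ k, γ = 2 * k := by
      rcases odd_or (a := Y) with h1 | ⟨n, hn⟩
      · exact Or.inl h1
      · rcases odd_or (a := γ) with h2 | ⟨k, hk⟩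
        · exact Or.inr h2
        · exfalso
          rw [hn, hk] at hY
          have h1 : 2 * (8 * n ^ 4 + 16 * n ^ 3 + 12 * n ^ 2 + 4 * n -
              3 * (2 * k + 1) * (2 * n + 1) ^ 2 - 4 * d * n - 2 * d - n - 6 * k ^ 2 - 6 * k - 2) + 1 = 0 := by
            linear_combination hY
          omega
    obtain ⟨t, ht⟩ := sq_cases g
    obtain ⟨r, hr⟩ := sq_cases a
    refine ⟨2 * a, 8 * g, mul_ne_zero two_ne_zero ha, by rw [h4, hγ]; ring,
      ⟨a ^ 3 - g, by ring⟩, ?_⟩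
    rcases hcases with ⟨hY1, hU⟩ | ⟨hY1, hU⟩
    · -- `Y = ε a²`
      have hε1 : ε = 1 := by
        refine hε.resolve_right ?_
        rintro rfl
        rcases hpar with ⟨n, hn⟩ | ⟨k, hk⟩
        · -- `Y` even, so divisible by `4`
          have hY4 : Y = -4 * r := by
            rcases hr with hr | hr <;> omega
          have h1 : 4 * (-16 * r ^ 3 + 6 * γ * r - d) - 1 = -(3 * g ^ 2) := by
            rw [hY4] at hU
            linear_combination hU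
          rcases ht with ht | ht <;> rw [ht] at h1 <;> omega
        · rcases hr with hr | hr
          · have hY4 : Y = -4 * r := by omega
            have h1 : 4 * (-16 * r ^ 3 + 6 * γ * r - d) - 1 = -(3 * g ^ 2) := by
              rw [hY4] at hU
              linear_combination hU
            rcases ht with ht | ht <;> rw [ht] at h1 <;> omega
          · have hY4 : Y = -4 * r - 1 := by omega
            have h1 : 4 * (-16 * r ^ 3 - 12 * r ^ 2 - 3 * r + 12 * k * r + 3 * k - d) - 2 =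
                -(3 * g ^ 2) := by
              rw [hY4, hk] at hU
              linear_combination hU
            rcases ht with ht | ht <;> rw [ht] at h1 <;> omega
      subst hε1
      refine Or.inl ⟨fun h1 => ?_, ?_⟩
      · have hp3 : Prime (3 : ℤ) := by exact_mod_cast Nat.prime_iff_prime_int.mp Nat.prime_three
        have h2 : (3 : ℤ) ∣ a := (hp3.dvd_or_dvd h1).resolve_left (by norm_num)
        exact h3 (by rw [hY1, one_mul]; exact dvd_pow h2 two_ne_zero) (by rw [hγ]; exact h2.mul_right _)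
      · rw [h6]
        rw [hY1, hγ] at hU
        linear_combination -64 * hU
    · -- `Y = 3 ε a²`
      have hε1 : ε = -1 := by
        refine hε.resolve_left ?_
        rintro rfl
        rcases hpar with ⟨n, hn⟩ | ⟨k, hk⟩
        · have hY4 : Y = 12 * r := by
            rcases hr with hr | hr <;> omega
          have h1 : 4 * (432 * r ^ 3 - 18 * γ * r - d) - 1 = g ^ 2 := by
            rw [hY4] at hU
            linear_combination hU
          rcases ht with ht | ht <;> rw [ht] at h1 <;> omega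
        · rcases hr with hr | hr
          · have hY4 : Y = 12 * r := by omega
            have h1 : 4 * (432 * r ^ 3 - 18 * γ * r - d) - 1 = g ^ 2 := by
              rw [hY4] at hU
              linear_combination hU
            rcases ht with ht | ht <;> rw [ht] at h1 <;> omega
          · have hY4 : Y = 12 * r + 3 := by omega
            have h1 : 4 * (432 * r ^ 3 + 324 * r ^ 2 + 81 * r - 36 * k * r - 9 * k - d) + 26 =
                g ^ 2 := by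
              rw [hY4, hk] at hU
              linear_combination hU
            rcases ht with ht | ht <;> rw [ht] at h1 <;> omega
      subst hε1
      refine Or.inr ⟨fun h1 => ?_, ?_⟩
      · have hp3 : Prime (3 : ℤ) := by exact_mod_cast Nat.prime_iff_prime_int.mp Nat.prime_three
        have h2 : (3 : ℤ) ∣ g := (hp3.dvd_or_dvd h1).resolve_left (by norm_num)
        exact h3 ⟨-a ^ 2, by rw [hY1]; ring⟩ (by rw [hγ]; exact h2.mul_left _)
      · rw [h6]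
        rw [hY1, hγ] at hU
        linear_combination -64 * hU
  · -- `c₄` odd
    obtain ⟨⟨k, hk⟩, m, hm⟩ := odd_c₄ hc
    -- `X` is odd, and `1` modulo `4`
    obtain ⟨n, hn⟩ : ∃ n, X = 4 * n + 1 := by
      rcases odd_or (a := X) with ⟨n, rfl⟩ | ⟨n, rfl⟩
      · exfalso
        rw [hk, hm] at hX
        have h1 : 2 * (8 * n ^ 4 - 12 * (8 * k + 1) * n ^ 2 - 8 * (4 * m - 1) * n - 96 * k ^ 2 - 24 * k -
            2) + 1 = 0 := by
          linear_combination hX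
        omega
      · rcases odd_or (a := n) with ⟨n, rfl⟩ | ⟨n, rfl⟩
        · exact ⟨n, by ring⟩
        · exfalso
          -- `X = 4 n + 3`, `X² = 8 l + 1`
          obtain ⟨l, hl⟩ : ∃ l, (2 * (2 * n + 1) + 1) ^ 2 = 8 * l + 1 :=
            ⟨2 * n ^ 2 + 3 * n + 1, by ring⟩
          have h1 : (8 * l + 1) ^ 2 - 6 * (8 * k + 1) * (8 * l + 1) -
              8 * (4 * m - 1) * (2 * (2 * n + 1) + 1) - 3 * (8 * k + 1) ^ 2 = 0 := by
            rw [hk, hm] at hX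
            rw [← hl]
            linear_combination hX
          have h2 : 32 * (2 * l ^ 2 - 12 * k * l - l - 3 * k - 4 * m * n + n - 3 * m - 6 * k ^ 2) + 16 = 0 := by
            linear_combination h1
          omega
    obtain ⟨a, g, ε, ha, hγ, hε, hcases⟩ := split_three (Y := X) (γ := W.c₄) (δ := 8 * W.c₆) hX
      (not_three_dvd hW hX) (by
      intro q hq hq3 h1 h2 h5
      have hqI := Nat.prime_iff_prime_int.mp hq
      by_cases hq2 : q = 2
      · subst hq2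
        have h6 : (2 : ℤ) ∣ X := by exact_mod_cast h1
        omega
      · rcases hqI.dvd_or_dvd h5 with h6 | h6
        · have h7 : q ∣ 2 ^ 3 := by
            have : (q : ℤ) ∣ ((2 ^ 3 : ℕ) : ℤ) := by norm_num; exact h6
            exact_mod_cast this
          exact hq2 ((Nat.prime_dvd_prime_iff_eq hq Nat.prime_two).mp (hq.dvd_of_dvd_pow h7))
        · exact not_dvd_c₆ hW hq hq2 hq3 h2 h6)
    have hp3 : Prime (3 : ℤ) := by exact_mod_cast Nat.prime_iff_prime_int.mp Nat.prime_three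
    obtain ⟨r, hr⟩ := sq_cases a
    -- `a` is odd and `8 ∣ a³ - g`
    have h8 : (8 : ℤ) ∣ a ^ 3 - g := by
      rcases odd_or (a := a) with ⟨s, hs⟩ | ⟨s, hs⟩
      · exfalso
        have : W.c₄ = 2 * (s * g) := by rw [hγ, hs]; ring
        omega
      · obtain ⟨j, hj⟩ : ∃ j, a ^ 2 = 8 * j + 1 := by
          rcases odd_or (a := s) with ⟨i, hi⟩ | ⟨i, hi⟩
          · exact ⟨2 * i ^ 2 + i, by rw [hs, hi]; ring⟩
          · exact ⟨2 * i ^ 2 + 3 * i + 1, by rw [hs, hi]; ring⟩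
        refine ⟨a * j - a * k + g * j, ?_⟩
        -- `a³ - g = a (8 j + 1) - g`, `a g = 8 k + 1`
        have h1 : a * g = 8 * k + 1 := by rw [← hγ, hk]
        linear_combination (a + g) * hj - a * h1
    refine ⟨a, g, ha, hγ, h8, ?_⟩
    rcases hcases with ⟨hY1, hU⟩ | ⟨hY1, hU⟩
    · have hε1 : ε = 1 := by
        refine hε.resolve_right ?_
        rintro rfl
        rcases hr with hr | hr <;> omega
      subst hε1
      refine Or.inl ⟨fun h1 => ?_, ?_⟩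
      · exact not_three_dvd hW hX (by rw [hY1, one_mul]; exact dvd_pow h1 two_ne_zero)
          (by rw [hγ]; exact h1.mul_right _)
      · rw [hY1, hγ] at hU
        linear_combination -hU
    · have hε1 : ε = -1 := by
        refine hε.resolve_left ?_
        rintro rfl
        rcases hr with hr | hr <;> omega
      subst hε1
      refine Or.inr ⟨fun h1 => ?_, ?_⟩
      · exact not_three_dvd hW hX ⟨-a ^ 2, by rw [hY1]; ring⟩ (by rw [hγ]; exact h1.mul_left _)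
      · rw [hY1, hγ] at hU
        linear_combination -hU

/-- **Semistable curves with a rational isogeny of degree three**: the invariants are those of
`y² + a x y + b y = x³` or of its quotient by the point `(0, 0)` of order three. -/
theorem exists_of_reducible_three (hΔ : W.Δ ≠ 0) (hW : W.IsSemistableModel)
    (hred : ¬ W.ModRepIsIrreducible 3) :
    ∃ a b : ℤ, IsCoprime a b ∧
      ((W.c₄ = a * (a ^ 3 - 24 * b) ∧ W.c₆ = -a ^ 6 + 36 * a ^ 3 * b - 216 * b ^ 2 ∧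
          W.Δ = b ^ 3 * (a ^ 3 - 27 * b)) ∨
        (W.c₄ = a * (a ^ 3 + 216 * b) ∧ W.c₆ = -a ^ 6 + 540 * a ^ 3 * b + 5832 * b ^ 2 ∧
          W.Δ = b * (a ^ 3 - 27 * b) ^ 3)) := by
  obtain ⟨X, hX⟩ := exists_root_three hΔ hred
  obtain ⟨a, g, -, h4, ⟨e, he⟩, hcases⟩ := exists_pre hW hX
  have hp3 : Prime (3 : ℤ) := by exact_mod_cast Nat.prime_iff_prime_int.mp Nat.prime_three
  -- coprimality
  have hcop : ∀ b : ℤ, (∀ q : ℕ, q.Prime → (q : ℤ) ∣ a → (q : ℤ) ∣ b → (q : ℤ) ∣ W.Δ) →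
      IsCoprime a b := by
    intro b hb
    rw [Int.isCoprime_iff_gcd_eq_one]
    by_contra hne
    obtain ⟨q, hqp, hqd⟩ := Nat.exists_prime_and_dvd hne
    have hqa : (q : ℤ) ∣ a := (Int.natCast_dvd_natCast.mpr hqd).trans (Int.gcd_dvd_left ..)
    have hqb : (q : ℤ) ∣ b := (Int.natCast_dvd_natCast.mpr hqd).trans (Int.gcd_dvd_right ..)
    exact hW q hqp (hb q hqp hqa hqb) (by rw [h4]; exact hqa.mul_right _)
  have hrel := W.c_relation
  rcases hcases with ⟨h3, h6⟩ | ⟨h3, h6⟩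
  · -- a rational point of order three
    have hid : (a ^ 3 - g) ^ 3 * (9 * g - a ^ 3) = 3 * (36864 * W.Δ) := by
      rw [h4] at hrel
      linear_combination -64 * hrel + (8 * W.c₆ + (a ^ 6 - 6 * g * a ^ 3 - 3 * g ^ 2)) * h6
    have hd : (3 : ℤ) ∣ a ^ 3 - g := by
      have h5 : (3 : ℤ) ∣ (a ^ 3 - g) ^ 3 * (9 * g - a ^ 3) := ⟨_, hid⟩
      rcases hp3.dvd_or_dvd h5 with h7 | h7
      · exact hp3.dvd_of_dvd_pow h7
      · refine absurd (hp3.dvd_of_dvd_pow (n := 3) ?_) h3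
        have h8 : a ^ 3 = 3 * (3 * g) - (9 * g - a ^ 3) := by ring
        rw [h8]
        exact dvd_sub (dvd_mul_right _ _) h7
    obtain ⟨b, hb⟩ : ∃ b, a ^ 3 - g = 24 * b := by
      obtain ⟨f, hf⟩ := hd
      exact ⟨3 * e - f, by omega⟩
    obtain rfl : g = a ^ 3 - 24 * b := by linarith
    have hD : W.Δ = b ^ 3 * (a ^ 3 - 27 * b) := by
      have h7 : 110592 * W.Δ = 110592 * (b ^ 3 * (a ^ 3 - 27 * b)) := by linear_combination -hid
      exact mul_left_cancel₀ (by norm_num) h7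
    refine ⟨a, b, hcop b fun q hq h7 h8 => ?_, Or.inl ⟨h4, ?_, hD⟩⟩
    · rw [hD]
      exact (dvd_pow h8 (by norm_num)).mul_right _
    · have h7 : 8 * W.c₆ = 8 * (-a ^ 6 + 36 * a ^ 3 * b - 216 * b ^ 2) := by
        linear_combination h6
      exact mul_left_cancel₀ (by norm_num) h7
  · -- the quotient
    have hid : (g - a ^ 3) * (9 * a ^ 3 - g) ^ 3 = 27 * (4096 * W.Δ) := by
      rw [h4] at hrel
      linear_combination -64 * hrel + (8 * W.c₆ + (g ^ 2 + 18 * g * a ^ 3 - 27 * a ^ 6)) * h6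
    have hd : (27 : ℤ) ∣ g - a ^ 3 := by
      have h5 : IsCoprime (27 : ℤ) ((9 * a ^ 3 - g) ^ 3) := by
        have h7 : IsCoprime (3 : ℤ) (9 * a ^ 3 - g) := by
          refine (Prime.coprime_iff_not_dvd hp3).mpr fun h8 => h3 ?_
          have h9 : g = 3 * (3 * a ^ 3) - (9 * a ^ 3 - g) := by ring
          rw [h9]
          exact dvd_sub (dvd_mul_right _ _) h8
        have h8 : IsCoprime ((3 : ℤ) ^ 3) ((9 * a ^ 3 - g) ^ 3) := h7.pow
        norm_num at h8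
        exact h8
      exact h5.dvd_of_dvd_mul_right ⟨_, hid⟩
    obtain ⟨b, hb⟩ : ∃ b, g - a ^ 3 = 216 * b := by
      obtain ⟨f, hf⟩ := hd
      exact ⟨-3 * e - 10 * f, by omega⟩
    obtain rfl : g = a ^ 3 + 216 * b := by linarith
    have hD : W.Δ = b * (a ^ 3 - 27 * b) ^ 3 := by
      have h7 : 110592 * W.Δ = 110592 * (b * (a ^ 3 - 27 * b) ^ 3) := by linear_combination -hid
      exact mul_left_cancel₀ (by norm_num) h7
    refine ⟨a, b, hcop b fun q hq h7 h8 => ?_, Or.inr ⟨h4, ?_, hD⟩⟩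
    · rw [hD]
      exact h8.mul_right _
    · have h7 : 8 * W.c₆ = 8 * (-a ^ 6 + 540 * a ^ 3 * b + 5832 * b ^ 2) := by
        linear_combination h6
      exact mul_left_cancel₀ (by norm_num) h7

end Fermat.Agent.Cor.Table
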