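import Fermat.Agent.Corollaries.Table.Eleven
import Fermat.Agent.Corollaries.Table.Three
import Fermat.Agent.Corollaries.Table.Red2

/-!
# The elliptic curves of conductor `14`

There are exactly six elliptic curves over `ℚ` of conductor `14`, up to isomorphism: the curves
`14a1, …, 14a6` of Cremona's table.  More precisely (`exists_iso_fourteen`) a minimal Weierstrass
equation over `ℤ` of a semistable curve of conductor `14` is isomorphic over `ℤ` to one of the six.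

Proof: the traces of Frobenius of `W` are those of `E14a4 : y² + x y + y = x³ - x` (modularity and
`dim S₂(Γ₀(14)) = 1`), which has a rational point of order `6`; so `W` has a rational point of order
`2` and a rational subgroup of order `3`.  By the parametrisation of the latter (`Table/Three.lean`)
`c₄`, `c₆`, `Δ` are given by coprime integers `a`, `b`, and the point of order `2` gives `x`, `v`
with `a = x - v`, `4 b = v² x`, `4 (a³ - 27 b) = (2 x + v)² (x - 4 v)`.  All of `x`, `v`, `2 x + v`,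
`x - 4 v` are products of powers of `2` and `7`, and `1 + 7 = 8`.
-/

set_option autoImplicit false

namespace Fermat.Agent.Cor.Table

open WeierstrassCurve

/-! ### Units outside `2` and `7` -/

theorem pow_seven (k : ℕ) : ∃ m : ℤ, 0 ≤ m ∧ ((7 : ℤ) ^ k = 48 * m + 1 ∨ (7 : ℤ) ^ k = 48 * m + 7) := by
  induction k with
  | zero => exact ⟨0, le_rfl, Or.inl (by norm_num)⟩
  | succ k ih =>
    obtain ⟨m, hm, h | h⟩ := ih
    · exact ⟨7 * m, by positivity, Or.inr (by rw [pow_succ, h]; ring)⟩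
    · exact ⟨7 * m + 1, by positivity, Or.inl (by rw [pow_succ, h]; ring)⟩

theorem pow_two (i : ℕ) : ∃ n : ℤ, 0 ≤ n ∧ ((2 : ℤ) ^ i = 1 ∨ (2 : ℤ) ^ i = 2 ∨ (2 : ℤ) ^ i = 4 ∨
    (2 : ℤ) ^ i = 8 ∨ (2 : ℤ) ^ i = 48 * n + 16 ∨ (2 : ℤ) ^ i = 48 * n + 32) := by
  induction i with
  | zero => exact ⟨0, le_rfl, by norm_num⟩
  | succ k ih =>
    obtain ⟨m, hm, h | h | h | h | h | h⟩ := ih
    · exact ⟨0, le_rfl, by rw [pow_succ, h]; norm_num⟩
    · exact ⟨0, le_rfl, by rw [pow_succ, h]; norm_num⟩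
    · exact ⟨0, le_rfl, by rw [pow_succ, h]; norm_num⟩
    · exact ⟨0, le_rfl, by rw [pow_succ, h]; norm_num⟩
    · exact ⟨2 * m, by positivity, by rw [pow_succ, h]; right; right; right; right; right; ring⟩
    · exact ⟨2 * m + 1, by positivity, by rw [pow_succ, h]; right; right; right; right; left; ring⟩

/-- A nonzero integer all of whose prime factors are equal to `p` is `± p ^ n`. -/
theorem eq_pow_or_neg {p : ℕ} {A : ℤ} (hA : A ≠ 0)
    (h : ∀ q : ℕ, q.Prime → (q : ℤ) ∣ A → q = p) : ∃ n : ℕ, A = (p : ℤ) ^ n ∨ A = -(p : ℤ) ^ n := by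
  rcases lt_or_gt_of_ne hA with hneg | hpos
  · obtain ⟨n, hn⟩ := eq_pow_of_primes (Q := -A) (by linarith)
      fun q hq hd => h q hq ((dvd_neg).mp hd)
    exact ⟨n, Or.inr (by linarith)⟩
  · obtain ⟨n, hn⟩ := eq_pow_of_primes hpos h
    exact ⟨n, Or.inl hn⟩

/-- The solutions of `A + B + C = 0` in pairwise coprime integers composed of `2` and `7` with
`4 ∣ C`. -/
theorem unit_sum {A B C : ℤ} (hsum : A + B + C = 0) (hA : A ≠ 0) (hB : B ≠ 0) (hC : C ≠ 0)
    (hAB : IsCoprime A B) (hAC : IsCoprime A C) (hBC : IsCoprime B C) (h4 : (4 : ℤ) ∣ C)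
    (hS : ∀ q : ℕ, q.Prime → (q : ℤ) ∣ A * B * C → q = 2 ∨ q = 7) :
    (C = 8 ∧ (A = -1 ∨ A = -7)) ∨ (C = -8 ∧ (A = 1 ∨ A = 7)) := by
  have h2C : (2 : ℤ) ∣ C := dvd_trans (by norm_num) h4
  have nocop : ∀ {X Y : ℤ} {q : ℕ}, IsCoprime X Y → q.Prime → (q : ℤ) ∣ X → ¬ (q : ℤ) ∣ Y := by
    intro X Y q hXY hq hX hY
    exact (Nat.prime_iff_prime_int.mp hq).not_isUnit (hXY.isUnit_of_dvd' hX hY)
  have hA7 : ∀ q : ℕ, q.Prime → (q : ℤ) ∣ A → q = 7 := by
    intro q hq hd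
    rcases hS q hq (dvd_mul_of_dvd_left (dvd_mul_of_dvd_left hd B) C) with rfl | h
    · exact absurd h2C (nocop hAC hq hd)
    · exact h
  have hB7 : ∀ q : ℕ, q.Prime → (q : ℤ) ∣ B → q = 7 := by
    intro q hq hd
    rcases hS q hq (dvd_mul_of_dvd_left (dvd_mul_of_dvd_right hd A) C) with rfl | h
    · exact absurd h2C (nocop hBC hq hd)
    · exact h
  obtain ⟨k, hk⟩ := eq_pow_or_neg hA hA7
  obtain ⟨l, hl⟩ := eq_pow_or_neg hB hB7
  push_cast at hk hl
  have h7C : ¬ (7 : ℤ) ∣ C := by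
    intro h7
    have hk0 : k = 0 := by
      by_contra hk0
      have : ((7 : ℕ) : ℤ) ∣ A := by
        rcases hk with hk | hk <;> rw [hk]
        · exact dvd_pow_self _ hk0
        · exact (dvd_neg).mpr (dvd_pow_self _ hk0)
      exact nocop hAC (by norm_num) this (by exact_mod_cast h7)
    have hl0 : l = 0 := by
      by_contra hl0
      have : ((7 : ℕ) : ℤ) ∣ B := by
        rcases hl with hl | hl <;> rw [hl]
        · exact dvd_pow_self _ hl0
        · exact (dvd_neg).mpr (dvd_pow_self _ hl0)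
      exact nocop hBC (by norm_num) this (by exact_mod_cast h7)
    subst hk0
    subst hl0
    rw [pow_zero] at hk hl
    omega
  have hC2 : ∀ q : ℕ, q.Prime → (q : ℤ) ∣ C → q = 2 := by
    intro q hq hd
    rcases hS q hq (dvd_mul_of_dvd_right hd _) with h | rfl
    · exact h
    · exact absurd (by exact_mod_cast hd) h7C
  obtain ⟨i, hi⟩ := eq_pow_or_neg hC hC2
  push_cast at hi
  have hkl : k = 0 ∨ l = 0 := by
    by_contra hcon
    push Not at hcon
    have h1 : ((7 : ℕ) : ℤ) ∣ A := by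
      rcases hk with hk | hk <;> rw [hk]
      · exact dvd_pow_self _ hcon.1
      · exact (dvd_neg).mpr (dvd_pow_self _ hcon.1)
    have h2 : ((7 : ℕ) : ℤ) ∣ B := by
      rcases hl with hl | hl <;> rw [hl]
      · exact dvd_pow_self _ hcon.2
      · exact (dvd_neg).mpr (dvd_pow_self _ hcon.2)
    exact nocop hAB (by norm_num) h1 h2
  obtain ⟨n, hn, hn'⟩ := pow_two i
  rcases hkl with rfl | rfl
  · obtain ⟨m, hm, hm'⟩ := pow_seven l
    rw [pow_zero] at hk
    omega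
  · obtain ⟨m, hm, hm'⟩ := pow_seven k
    rw [pow_zero] at hl
    omega

/-- The solutions in coprime `x`, `v` with `x`, `v`, `2 x + v`, `x - 4 v` composed of `2` and
`7`. -/
theorem dioph_fourteen {x v : ℤ} (hco : IsCoprime x v) (hx : x ≠ 0) (hv : v ≠ 0)
    (h1 : 2 * x + v ≠ 0) (h2 : x - 4 * v ≠ 0)
    (hS : ∀ q : ℕ, q.Prime → (q : ℤ) ∣ x * v * (2 * x + v) * (x - 4 * v) → q = 2 ∨ q = 7) :
    (x = 7 ∧ v = 2) ∨ (x = 1 ∧ v = 2) ∨ (x = 4 ∧ v = -1) ∨ (x = 4 ∧ v = -7) ∨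
      (x = -7 ∧ v = -2) ∨ (x = -1 ∧ v = -2) ∨ (x = -4 ∧ v = 1) ∨ (x = -4 ∧ v = 7) := by
  have hxv := hco
  rcases Int.even_or_odd x with hx2 | hx2
  · -- `x` even, `v` odd
    have hv2 : IsCoprime v 2 := by
      have h : (2 : ℤ) ∣ x := hx2.two_dvd
      exact (hco.of_isCoprime_of_dvd_left h).symm
    have c1 : IsCoprime (2 * x + v) (-v) := by
      have : IsCoprime (2 * x) v := IsCoprime.mul_left hv2.symm hco
      have h3 : IsCoprime (2 * x + v) v := by
        have := this.add_mul_right_left 1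
        simpa using this
      exact h3.neg_right
    have c2 : IsCoprime (2 * x + v) (-(2 * x)) := by
      have : IsCoprime v (2 * x) := IsCoprime.mul_right hv2 hco.symm
      have h3 : IsCoprime (2 * x + v) (2 * x) := by
        have := this.add_mul_right_left 1
        rwa [one_mul, add_comm] at this
      exact h3.neg_right
    have c3 : IsCoprime (-v) (-(2 * x)) := (IsCoprime.mul_right hv2 hco.symm).neg_neg
    have h3 := unit_sum (A := 2 * x + v) (B := -v) (C := -(2 * x)) (by ring) h1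
      (neg_ne_zero.mpr hv) (by omega) c1 c2 c3 (by obtain ⟨r, hr⟩ := hx2; exact ⟨-r, by rw [hr]; ring⟩)
      (by
        intro q hq hd
        have hqI := Nat.prime_iff_prime_int.mp hq
        rcases hqI.dvd_or_dvd hd with hd | hd
        · rcases hqI.dvd_or_dvd hd with hd | hd
          · exact hS q hq (dvd_mul_of_dvd_left (dvd_mul_of_dvd_right hd _) _)
          · exact hS q hq (dvd_mul_of_dvd_left (dvd_mul_of_dvd_left
              (dvd_mul_of_dvd_right ((dvd_neg).mp hd) _) _) _)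
        · rcases hqI.dvd_or_dvd ((dvd_neg).mp hd) with hd | hd
          · left
            have : q ∣ 2 := by exact_mod_cast hd
            exact (Nat.prime_dvd_prime_iff_eq hq Nat.prime_two).mp this
          · exact hS q hq (dvd_mul_of_dvd_left (dvd_mul_of_dvd_left
              (dvd_mul_of_dvd_left hd _) _) _))
    clear hS
    rcases h3 with ⟨h3, h4 | h4⟩ | ⟨h3, h4 | h4⟩
    · obtain ⟨rfl, rfl⟩ : x = -4 ∧ v = 7 := ⟨by omega, by omega⟩
      norm_num
    · obtain ⟨rfl, rfl⟩ : x = -4 ∧ v = 1 := ⟨by omega, by omega⟩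
      norm_num
    · obtain ⟨rfl, rfl⟩ : x = 4 ∧ v = -7 := ⟨by omega, by omega⟩
      norm_num
    · obtain ⟨rfl, rfl⟩ : x = 4 ∧ v = -1 := ⟨by omega, by omega⟩
      norm_num
  · -- `x` odd
    have hx2' : IsCoprime x 2 := by
      obtain ⟨r, hr⟩ := hx2
      exact ⟨1, -r, by rw [hr]; ring⟩
    have hx4 : IsCoprime x (4 * v) := by
      have h4 : (4 : ℤ) = 2 * 2 := by norm_num
      rw [h4]
      exact IsCoprime.mul_right (IsCoprime.mul_right hx2' hx2') hco
    have c1 : IsCoprime x (-(x - 4 * v)) := by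
      have := hx4.add_mul_left_right (-1)
      have e : 4 * v + x * -1 = -(x - 4 * v) := by ring
      rwa [e] at this
    have c2 : IsCoprime x (-(4 * v)) := hx4.neg_right
    have c3 : IsCoprime (-(x - 4 * v)) (-(4 * v)) := by
      have h5 : IsCoprime (x - 4 * v) (4 * v) := by
        have := hx4.add_mul_right_left (-1)
        have e : x + -1 * (4 * v) = x - 4 * v := by ring
        rw [mul_comm] at this
        rwa [mul_comm (4 * v) (-1), e] at this
      exact h5.neg_neg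
    have h3 := unit_sum (A := x) (B := -(x - 4 * v)) (C := -(4 * v)) (by ring) hx
      (neg_ne_zero.mpr h2) (by omega) c1 c2 c3 ⟨-v, by ring⟩
      (by
        intro q hq hd
        have hqI := Nat.prime_iff_prime_int.mp hq
        rcases hqI.dvd_or_dvd hd with hd | hd
        · rcases hqI.dvd_or_dvd hd with hd | hd
          · exact hS q hq (dvd_mul_of_dvd_left (dvd_mul_of_dvd_left
              (dvd_mul_of_dvd_left hd _) _) _)
          · exact hS q hq (dvd_mul_of_dvd_right ((dvd_neg).mp hd) _)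
        · rcases hqI.dvd_or_dvd ((dvd_neg).mp hd) with hd | hd
          · left
            have h22 : q ∣ 2 ^ 2 := by
              have : (q : ℤ) ∣ ((2 ^ 2 : ℕ) : ℤ) := by norm_num; exact hd
              exact_mod_cast this
            exact (Nat.prime_dvd_prime_iff_eq hq Nat.prime_two).mp (hq.dvd_of_dvd_pow h22)
          · exact hS q hq (dvd_mul_of_dvd_left (dvd_mul_of_dvd_left
              (dvd_mul_of_dvd_right hd _) _) _))
    clear hS
    rcases h3 with ⟨h3, h4 | h4⟩ | ⟨h3, h4 | h4⟩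
    · obtain ⟨rfl, rfl⟩ : x = -1 ∧ v = -2 := ⟨by omega, by omega⟩
      norm_num
    · obtain ⟨rfl, rfl⟩ : x = -7 ∧ v = -2 := ⟨by omega, by omega⟩
      norm_num
    · obtain ⟨rfl, rfl⟩ : x = 1 ∧ v = 2 := ⟨by omega, by omega⟩
      norm_num
    · obtain ⟨rfl, rfl⟩ : x = 7 ∧ v = 2 := ⟨by omega, by omega⟩
      norm_num

/-! ### The point of order two -/

/-- A rational point of order two on the curve with a rational point of order three given by
`a`, `b`. -/
theorem exists_xv_one {a b : ℤ} (hb : b ≠ 0) {Y : ℚ}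
    (hY : Y ^ 3 - 3 * ((a * (a ^ 3 - 24 * b) : ℤ) : ℚ) * Y -
      2 * ((-a ^ 6 + 36 * a ^ 3 * b - 216 * b ^ 2 : ℤ) : ℚ) = 0) :
    ∃ x v : ℤ, a = x - v ∧ 4 * b = v ^ 2 * x := by
  push_cast at hY
  set x' : ℚ := (Y - a ^ 2) / 12 with hx'
  have hYx : Y = 12 * x' + a ^ 2 := by rw [hx']; ring
  have h1 : 4 * x' ^ 3 + (a * x' + b) ^ 2 = 0 := by
    rw [hYx] at hY
    linear_combination hY / 432
  have hbQ : (b : ℚ) ≠ 0 := by exact_mod_cast hb
  have hx0 : x' ≠ 0 := by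
    intro h0
    rw [h0] at h1
    apply hbQ
    have : (b : ℚ) ^ 2 = 0 := by linarith
    exact pow_eq_zero_iff (two_ne_zero) |>.mp this
  set w : ℚ := -(a * x' + b) / x' with hw
  have h2 : w * x' = -(a * x' + b) := by rw [hw]; field_simp
  have h3 : w ^ 2 = -4 * x' := by
    have : (w ^ 2 + 4 * x') * x' ^ 2 = 0 := by
      linear_combination (w * x' - (a * x' + b)) * h2 + h1
    have h4 := (mul_eq_zero.mp this).resolve_right (pow_ne_zero 2 hx0)
    linarith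
  have h5 : w ^ 2 * (a + w) = 4 * b := by
    linear_combination (a + w) * h3 - 4 * h2
  obtain ⟨v, hv⟩ := int_of_quartic (x := w) (a := a) (b := 0) (c := -4 * b) (d := 0) (by
    push_cast
    linear_combination w * h5)
  rw [hv] at h5
  refine ⟨a + v, v, by ring, ?_⟩
  have : v ^ 2 * (a + v) = 4 * b := by exact_mod_cast h5
  linarith

/-- The same for the quotient of that curve by the point of order three. -/
theorem exists_xv_two {a b : ℤ} (hb : a ^ 3 - 27 * b ≠ 0) {Y : ℚ}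
    (hY : Y ^ 3 - 3 * ((a * (a ^ 3 + 216 * b) : ℤ) : ℚ) * Y -
      2 * ((-a ^ 6 + 540 * a ^ 3 * b + 5832 * b ^ 2 : ℤ) : ℚ) = 0) :
    ∃ x v : ℤ, a = x - v ∧ 4 * b = v ^ 2 * x := by
  push_cast at hY
  set x' : ℚ := (Y + 3 * a ^ 2) / 12 with hx'
  have hYx : Y = 12 * x' - 3 * a ^ 2 := by rw [hx']; ring
  set d : ℚ := ((a : ℚ) ^ 3 - 27 * b) / 9 with hd
  have hdb : (b : ℚ) = (a ^ 3 - 9 * d) / 27 := by rw [hd]; ring
  have h1 : 4 * x' ^ 3 = 3 * (a * x' - d) ^ 2 := by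
    rw [hYx, hdb] at hY
    linear_combination hY / 432
  have hd0 : d ≠ 0 := by
    rw [hd]
    have : ((a : ℚ) ^ 3 - 27 * b) ≠ 0 := by exact_mod_cast hb
    positivity
  have hx0 : x' ≠ 0 := by
    intro h0
    rw [h0] at h1
    apply hd0
    have : d ^ 2 = 0 := by linarith
    exact pow_eq_zero_iff (two_ne_zero) |>.mp this
  set w : ℚ := 3 * (a * x' - d) / x' with hw
  have h2 : w * x' = 3 * (a * x' - d) := by rw [hw]; field_simp
  have h3 : w ^ 2 = 12 * x' := by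
    have : (w ^ 2 - 12 * x') * x' ^ 2 = 0 := by
      linear_combination (w * x' + 3 * (a * x' - d)) * h2 - 3 * h1
    have h4 := (mul_eq_zero.mp this).resolve_right (pow_ne_zero 2 hx0)
    linarith
  have h5 : w ^ 2 * (3 * a - w) = 36 * d := by
    linear_combination (3 * a - w) * h3 - 12 * h2
  have h6 : w ^ 3 - 3 * a * w ^ 2 + 4 * (a ^ 3 - 27 * b) = 0 := by
    rw [hdb]
    linear_combination -h5
  obtain ⟨τ, hτ⟩ := int_of_quartic (x := w) (a := -3 * a) (b := 0)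
    (c := 4 * (a ^ 3 - 27 * b)) (d := 0) (by
    push_cast
    linear_combination w * h6)
  rw [hτ] at h6
  have h7 : τ ^ 3 - 3 * a * τ ^ 2 + 4 * (a ^ 3 - 27 * b) = 0 := by exact_mod_cast h6
  have h8 : (2 * a - τ) ^ 2 * (a + τ) = 108 * b := by linear_combination h7
  have hp3 : Prime (3 : ℤ) := by exact_mod_cast Nat.prime_iff_prime_int.mp Nat.prime_three
  have h9 : (3 : ℤ) ∣ 2 * a - τ := by
    have h10 : (3 : ℤ) ∣ (2 * a - τ) ^ 2 * (a + τ) := ⟨36 * b, by rw [h8]; ring⟩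
    rcases hp3.dvd_or_dvd h10 with h | h
    · exact hp3.dvd_of_dvd_pow h
    · omega
  obtain ⟨β, hβ⟩ := h9
  have hα : a + τ = 3 * (a - β) := by linarith
  refine ⟨a - β, -β, by ring, ?_⟩
  rw [hβ, hα] at h8
  linarith

/-- `4 b = v² x` with `a = x - v` and `a, b` coprime, all primes dividing `b (a³ - 27 b)` being
`2` or `7`. -/
theorem ab_fourteen {a b : ℤ} (hco : IsCoprime a b) (hb : b ≠ 0) (hb' : a ^ 3 - 27 * b ≠ 0)
    (hS : ∀ q : ℕ, q.Prime → (q : ℤ) ∣ b * (a ^ 3 - 27 * b) → q = 2 ∨ q = 7)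
    (h : ∃ x v : ℤ, a = x - v ∧ 4 * b = v ^ 2 * x) :
    (a = 5 ∧ b = 7) ∨ (a = -1 ∧ b = 1) ∨ (a = 5 ∧ b = 1) ∨ (a = 11 ∧ b = 49) ∨
      (a = -5 ∧ b = -7) ∨ (a = 1 ∧ b = -1) ∨ (a = -5 ∧ b = -1) ∨ (a = -11 ∧ b = -49) := by
  obtain ⟨x, v, rfl, h4⟩ := h
  have h4' : 4 * ((x - v) ^ 3 - 27 * b) = (2 * x + v) ^ 2 * (x - 4 * v) := by
    linear_combination -27 * h4
  have hx : x ≠ 0 := by rintro rfl; apply hb; linarith
  have hv : v ≠ 0 := by rintro rfl; apply hb; linarith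
  have h1 : 2 * x + v ≠ 0 := by
    intro h0; rw [h0] at h4'; apply hb'; linarith
  have h2 : x - 4 * v ≠ 0 := by
    intro h0; rw [h0] at h4'; apply hb'; linarith
  have hxv : IsCoprime x v := by
    rw [Int.isCoprime_iff_gcd_eq_one, Int.gcd_def]
    refine Nat.Coprime.gcd_eq_one (Nat.coprime_of_dvd fun q hq hqx hqv => ?_)
    have hqx' : (q : ℤ) ∣ x := Int.natCast_dvd.mpr hqx
    have hqv' : (q : ℤ) ∣ v := Int.natCast_dvd.mpr hqv
    have hqI := Nat.prime_iff_prime_int.mp hq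
    have hqb : (q : ℤ) ∣ b := by
      obtain ⟨s, hs⟩ := hqx'
      obtain ⟨t, ht⟩ := hqv'
      have h5 : 4 * b = (q : ℤ) ^ 3 * (t ^ 2 * s) := by rw [h4, hs, ht]; ring
      by_cases hq2 : q = 2
      · subst hq2
        push_cast at h5 ⊢
        exact ⟨t ^ 2 * s, by linarith⟩
      · have h6 : (q : ℤ) ∣ 4 * b := ⟨(q : ℤ) ^ 2 * (t ^ 2 * s), by rw [h5]; ring⟩
        rcases hqI.dvd_or_dvd h6 with h7 | h7
        · exfalso
          have h22 : q ∣ 2 ^ 2 := by
            have : (q : ℤ) ∣ ((2 ^ 2 : ℕ) : ℤ) := by norm_num; exact h7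
            exact_mod_cast this
          exact hq2 ((Nat.prime_dvd_prime_iff_eq hq Nat.prime_two).mp (hq.dvd_of_dvd_pow h22))
        · exact h7
    exact hqI.not_isUnit (hco.isUnit_of_dvd' (dvd_sub hqx' hqv') hqb)
  have hS' : ∀ q : ℕ, q.Prime → (q : ℤ) ∣ x * v * (2 * x + v) * (x - 4 * v) → q = 2 ∨ q = 7 := by
    intro q hq hd
    have hqI := Nat.prime_iff_prime_int.mp hq
    have h5 : (q : ℤ) ∣ 4 * b ∨ (q : ℤ) ∣ 4 * ((x - v) ^ 3 - 27 * b) := by
      rw [h4, h4']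
      rcases hqI.dvd_or_dvd hd with hd | hd
      · rcases hqI.dvd_or_dvd hd with hd | hd
        · rcases hqI.dvd_or_dvd hd with hd | hd
          · exact Or.inl (dvd_mul_of_dvd_right hd _)
          · exact Or.inl (dvd_mul_of_dvd_left (dvd_pow hd two_ne_zero) _)
        · exact Or.inr (dvd_mul_of_dvd_left (dvd_pow hd two_ne_zero) _)
      · exact Or.inr (dvd_mul_of_dvd_right hd _)
    have h6 : (q : ℤ) ∣ 4 → q = 2 := by
      intro h7
      have h22 : q ∣ 2 ^ 2 := by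
        have : (q : ℤ) ∣ ((2 ^ 2 : ℕ) : ℤ) := by norm_num; exact h7
        exact_mod_cast this
      exact (Nat.prime_dvd_prime_iff_eq hq Nat.prime_two).mp (hq.dvd_of_dvd_pow h22)
    rcases h5 with h5 | h5 <;> rcases hqI.dvd_or_dvd h5 with h7 | h7
    · exact Or.inl (h6 h7)
    · exact hS q hq (dvd_mul_of_dvd_left h7 _)
    · exact Or.inl (h6 h7)
    · exact hS q hq (dvd_mul_of_dvd_right h7 _)
  rcases dioph_fourteen hxv hx hv h1 h2 hS' with ⟨rfl, rfl⟩ | ⟨rfl, rfl⟩ | ⟨rfl, rfl⟩ |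
    ⟨rfl, rfl⟩ | ⟨rfl, rfl⟩ | ⟨rfl, rfl⟩ | ⟨rfl, rfl⟩ | ⟨rfl, rfl⟩ <;> omega

/-- The invariants of a semistable curve with bad reduction only at `2` and `7`, a rational point of
order `2` and a rational subgroup of order `3`. -/
theorem c_fourteen {W : WeierstrassCurve ℤ} (hΔ : W.Δ ≠ 0) (hW : W.IsSemistableModel)
    (hred : ¬ W.ModRepIsIrreducible 3)
    (htwo : ∃ x : ℚ, 4 * x ^ 3 + W.b₂ * x ^ 2 + 2 * W.b₄ * x + W.b₆ = 0)
    (hS : ∀ q : ℕ, q.Prime → (q : ℤ) ∣ W.Δ → q = 2 ∨ q = 7) :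
    (W.c₄ = -215 ∧ W.c₆ = 5291) ∨ (W.c₄ = 1705 ∧ W.c₆ = 57707) ∨
      (W.c₄ = 8185 ∧ W.c₆ = 742643) ∨ (W.c₄ = 25 ∧ W.c₆ = -253) ∨
      (W.c₄ = 131065 ∧ W.c₆ = 47449331) ∨ (W.c₄ = 505 ∧ W.c₆ = -11341) := by
  obtain ⟨x, hx⟩ := htwo
  have hY : (12 * x + W.b₂) ^ 3 - 3 * (W.c₄ : ℚ) * (12 * x + W.b₂) - 2 * (W.c₆ : ℚ) = 0 := by
    rw [WeierstrassCurve.c₄, WeierstrassCurve.c₆]
    push_cast
    linear_combination 432 * hx
  obtain ⟨a, b, hco, ⟨h4, h6, hD⟩ | ⟨h4, h6, hD⟩⟩ := exists_of_reducible_three hΔ hW hred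
  · have hb : b ≠ 0 := by rintro rfl; apply hΔ; rw [hD]; ring
    have hb' : a ^ 3 - 27 * b ≠ 0 := by intro h0; apply hΔ; rw [hD, h0, mul_zero]
    have hab := ab_fourteen hco hb hb' (fun q hq hd => hS q hq (by
      rw [hD]
      rcases (Nat.prime_iff_prime_int.mp hq).dvd_or_dvd hd with h | h
      · exact dvd_mul_of_dvd_left (dvd_pow h three_ne_zero) _
      · exact dvd_mul_of_dvd_right h _)) (exists_xv_one hb (by rw [h4, h6] at hY; exact hY))
    rcases hab with ⟨rfl, rfl⟩ | ⟨rfl, rfl⟩ | ⟨rfl, rfl⟩ | ⟨rfl, rfl⟩ | ⟨rfl, rfl⟩ | ⟨rfl, rfl⟩ |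
      ⟨rfl, rfl⟩ | ⟨rfl, rfl⟩ <;> rw [h4, h6] <;> norm_num
  · have hb : b ≠ 0 := by rintro rfl; apply hΔ; rw [hD]; ring
    have hb' : a ^ 3 - 27 * b ≠ 0 := by
      intro h0; apply hΔ; rw [hD, h0]; ring
    have hab := ab_fourteen hco hb hb' (fun q hq hd => hS q hq (by
      rw [hD]
      rcases (Nat.prime_iff_prime_int.mp hq).dvd_or_dvd hd with h | h
      · exact dvd_mul_of_dvd_left h _
      · exact dvd_mul_of_dvd_right (dvd_pow h three_ne_zero) _))
        (exists_xv_two hb' (by rw [h4, h6] at hY; exact hY))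
    rcases hab with ⟨rfl, rfl⟩ | ⟨rfl, rfl⟩ | ⟨rfl, rfl⟩ | ⟨rfl, rfl⟩ | ⟨rfl, rfl⟩ | ⟨rfl, rfl⟩ |
      ⟨rfl, rfl⟩ | ⟨rfl, rfl⟩ <;> rw [h4, h6] <;> norm_num

/-! ### The six curves -/

/-- The curve `14a1` of Cremona's table. -/
def E14a1 : WeierstrassCurve ℤ := ⟨1, 0, 1, 4, -6⟩

/-- The curve `14a2` of Cremona's table. -/
def E14a2 : WeierstrassCurve ℤ := ⟨1, 0, 1, -36, -70⟩

/-- The curve `14a3` of Cremona's table. -/
def E14a3 : WeierstrassCurve ℤ := ⟨1, 0, 1, -171, -874⟩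

/-- The curve `14a4` of Cremona's table. -/
def E14a4 : WeierstrassCurve ℤ := ⟨1, 0, 1, -1, 0⟩

/-- The curve `14a5` of Cremona's table. -/
def E14a5 : WeierstrassCurve ℤ := ⟨1, 0, 1, -2731, -55146⟩

/-- The curve `14a6` of Cremona's table. -/
def E14a6 : WeierstrassCurve ℤ := ⟨1, 0, 1, -11, 12⟩

theorem E14a1_c₄ : E14a1.c₄ = -215 := by
  norm_num [E14a1, WeierstrassCurve.c₄, WeierstrassCurve.b₂, WeierstrassCurve.b₄]

theorem E14a2_c₄ : E14a2.c₄ = 1705 := by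
  norm_num [E14a2, WeierstrassCurve.c₄, WeierstrassCurve.b₂, WeierstrassCurve.b₄]

theorem E14a3_c₄ : E14a3.c₄ = 8185 := by
  norm_num [E14a3, WeierstrassCurve.c₄, WeierstrassCurve.b₂, WeierstrassCurve.b₄]

theorem E14a4_c₄ : E14a4.c₄ = 25 := by
  norm_num [E14a4, WeierstrassCurve.c₄, WeierstrassCurve.b₂, WeierstrassCurve.b₄]

theorem E14a5_c₄ : E14a5.c₄ = 131065 := by
  norm_num [E14a5, WeierstrassCurve.c₄, WeierstrassCurve.b₂, WeierstrassCurve.b₄]

theorem E14a6_c₄ : E14a6.c₄ = 505 := by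
  norm_num [E14a6, WeierstrassCurve.c₄, WeierstrassCurve.b₂, WeierstrassCurve.b₄]

theorem E14a1_c₆ : E14a1.c₆ = 5291 := by
  norm_num [E14a1, WeierstrassCurve.c₆, WeierstrassCurve.b₂, WeierstrassCurve.b₄,
    WeierstrassCurve.b₆]

theorem E14a2_c₆ : E14a2.c₆ = 57707 := by
  norm_num [E14a2, WeierstrassCurve.c₆, WeierstrassCurve.b₂, WeierstrassCurve.b₄,
    WeierstrassCurve.b₆]

theorem E14a3_c₆ : E14a3.c₆ = 742643 := by
  norm_num [E14a3, WeierstrassCurve.c₆, WeierstrassCurve.b₂, WeierstrassCurve.b₄,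
    WeierstrassCurve.b₆]

theorem E14a4_c₆ : E14a4.c₆ = -253 := by
  norm_num [E14a4, WeierstrassCurve.c₆, WeierstrassCurve.b₂, WeierstrassCurve.b₄,
    WeierstrassCurve.b₆]

theorem E14a5_c₆ : E14a5.c₆ = 47449331 := by
  norm_num [E14a5, WeierstrassCurve.c₆, WeierstrassCurve.b₂, WeierstrassCurve.b₄,
    WeierstrassCurve.b₆]

theorem E14a6_c₆ : E14a6.c₆ = -11341 := by
  norm_num [E14a6, WeierstrassCurve.c₆, WeierstrassCurve.b₂, WeierstrassCurve.b₄,
    WeierstrassCurve.b₆]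

theorem E14a1_Δ : E14a1.Δ = -(2 ^ 6 * 7 ^ 3) := by
  norm_num [E14a1, WeierstrassCurve.Δ, WeierstrassCurve.b₂, WeierstrassCurve.b₄,
    WeierstrassCurve.b₆, WeierstrassCurve.b₈]

theorem E14a2_Δ : E14a2.Δ = 2 ^ 3 * 7 ^ 6 := by
  norm_num [E14a2, WeierstrassCurve.Δ, WeierstrassCurve.b₂, WeierstrassCurve.b₄,
    WeierstrassCurve.b₆, WeierstrassCurve.b₈]

theorem E14a3_Δ : E14a3.Δ = -(2 ^ 18 * 7 ^ 1) := by
  norm_num [E14a3, WeierstrassCurve.Δ, WeierstrassCurve.b₂, WeierstrassCurve.b₄,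
    WeierstrassCurve.b₆, WeierstrassCurve.b₈]

theorem E14a4_Δ : E14a4.Δ = -(2 ^ 2 * 7 ^ 1) := by
  norm_num [E14a4, WeierstrassCurve.Δ, WeierstrassCurve.b₂, WeierstrassCurve.b₄,
    WeierstrassCurve.b₆, WeierstrassCurve.b₈]

theorem E14a5_Δ : E14a5.Δ = 2 ^ 9 * 7 ^ 2 := by
  norm_num [E14a5, WeierstrassCurve.Δ, WeierstrassCurve.b₂, WeierstrassCurve.b₄,
    WeierstrassCurve.b₆, WeierstrassCurve.b₈]

theorem E14a6_Δ : E14a6.Δ = 2 ^ 1 * 7 ^ 2 := by
  norm_num [E14a6, WeierstrassCurve.Δ, WeierstrassCurve.b₂, WeierstrassCurve.b₄,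
    WeierstrassCurve.b₆, WeierstrassCurve.b₈]

/-- Semistable of conductor `14`. -/
theorem fourteen_of {W : WeierstrassCurve ℤ} {m n : ℕ} (hm : m ≠ 0) (hn : n ≠ 0)
    (hΔ : W.Δ = 2 ^ m * 7 ^ n ∨ W.Δ = -(2 ^ m * 7 ^ n)) (h2 : ¬ (2 : ℤ) ∣ W.c₄)
    (h7 : ¬ (7 : ℤ) ∣ W.c₄) : W.Δ ≠ 0 ∧ W.IsSemistableModel ∧ W.conductorLevel = 14 := by
  have hpr : ∀ q : ℕ, q.Prime → ((q : ℤ) ∣ W.Δ ↔ q = 2 ∨ q = 7) := by
    intro q hq
    have hqI := Nat.prime_iff_prime_int.mp hq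
    have e : (q : ℤ) ∣ W.Δ ↔ (q : ℤ) ∣ 2 ^ m * 7 ^ n := by
      rcases hΔ with h | h <;> rw [h]
      rw [dvd_neg]
    rw [e, hqI.dvd_mul, hqI.dvd_pow_iff_dvd hm, hqI.dvd_pow_iff_dvd hn]
    constructor
    · rintro (h | h)
      · exact Or.inl ((Nat.prime_dvd_prime_iff_eq hq Nat.prime_two).mp (by exact_mod_cast h))
      · exact Or.inr ((Nat.prime_dvd_prime_iff_eq hq (by norm_num)).mp (by exact_mod_cast h))
    · rintro (rfl | rfl)
      · exact Or.inl (by norm_num)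
      · exact Or.inr (by norm_num)
  have h0 : W.Δ ≠ 0 := by
    rcases hΔ with h | h <;> rw [h]
    · positivity
    · exact neg_ne_zero.mpr (by positivity)
  refine ⟨h0, ?_, ?_⟩
  · intro q hq hd hd'
    rcases (hpr q hq).mp hd with rfl | rfl
    · exact h2 (by exact_mod_cast hd')
    · exact h7 (by exact_mod_cast hd')
  · refine (eq_conductorLevel h0 (N := 14) ?_ ?_).symm
    · rw [show 14 = 2 * 7 by norm_num, Nat.squarefree_mul (by norm_num)]
      exact ⟨Nat.prime_two.squarefree, (by norm_num : Nat.Prime 7).squarefree⟩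
    · intro q hq
      rw [hpr q hq]
      constructor
      · intro h
        rw [show 14 = 2 * 7 by norm_num, hq.dvd_mul] at h
        rcases h with h | h
        · exact Or.inl ((Nat.prime_dvd_prime_iff_eq hq Nat.prime_two).mp h)
        · exact Or.inr ((Nat.prime_dvd_prime_iff_eq hq (by norm_num)).mp h)
      · rintro (rfl | rfl) <;> norm_num

theorem E14a1_mem : E14a1.Δ ≠ 0 ∧ E14a1.IsSemistableModel ∧ E14a1.conductorLevel = 14 :=
  fourteen_of (m := 6) (n := 3) (by norm_num) (by norm_num) (Or.inr E14a1_Δ)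
    (by rw [E14a1_c₄]; norm_num) (by rw [E14a1_c₄]; norm_num)

theorem E14a2_mem : E14a2.Δ ≠ 0 ∧ E14a2.IsSemistableModel ∧ E14a2.conductorLevel = 14 :=
  fourteen_of (m := 3) (n := 6) (by norm_num) (by norm_num) (Or.inl E14a2_Δ)
    (by rw [E14a2_c₄]; norm_num) (by rw [E14a2_c₄]; norm_num)

theorem E14a3_mem : E14a3.Δ ≠ 0 ∧ E14a3.IsSemistableModel ∧ E14a3.conductorLevel = 14 :=
  fourteen_of (m := 18) (n := 1) (by norm_num) (by norm_num) (Or.inr E14a3_Δ)
    (by rw [E14a3_c₄]; norm_num) (by rw [E14a3_c₄]; norm_num)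

theorem E14a4_mem : E14a4.Δ ≠ 0 ∧ E14a4.IsSemistableModel ∧ E14a4.conductorLevel = 14 :=
  fourteen_of (m := 2) (n := 1) (by norm_num) (by norm_num) (Or.inr E14a4_Δ)
    (by rw [E14a4_c₄]; norm_num) (by rw [E14a4_c₄]; norm_num)

theorem E14a5_mem : E14a5.Δ ≠ 0 ∧ E14a5.IsSemistableModel ∧ E14a5.conductorLevel = 14 :=
  fourteen_of (m := 9) (n := 2) (by norm_num) (by norm_num) (Or.inl E14a5_Δ)
    (by rw [E14a5_c₄]; norm_num) (by rw [E14a5_c₄]; norm_num)

theorem E14a6_mem : E14a6.Δ ≠ 0 ∧ E14a6.IsSemistableModel ∧ E14a6.conductorLevel = 14 :=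
  fourteen_of (m := 1) (n := 2) (by norm_num) (by norm_num) (Or.inl E14a6_Δ)
    (by rw [E14a6_c₄]; norm_num) (by rw [E14a6_c₄]; norm_num)

/-! ### The points of order two and three on `14a4` -/

section Points

open WeierstrassCurve.Affine

variable (F : Type*) [Field F]

/-- The curve `y² + x y + y = x³ - x` over a field. -/
def V14 : WeierstrassCurve F := ⟨1, 0, 1, -1, 0⟩

theorem V14_nonsingular_zero : (V14 F).toAffine.Nonsingular 0 0 := by
  rw [Affine.nonsingular_iff, Affine.equation_iff]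
  simp [V14]

theorem V14_nonsingular_neg_one (h2 : (2 : F) ≠ 0) : (V14 F).toAffine.Nonsingular (-1) 0 := by
  rw [Affine.nonsingular_iff, Affine.equation_iff]
  refine ⟨by simp only [V14]; ring, Or.inl ?_⟩
  simp only [V14]
  intro h
  apply h2
  linear_combination -h

variable [DecidableEq F]

theorem three_dvd_card_V14 [Finite F] : 3 ∣ Nat.card (V14 F).toAffine.Point := by
  have hfin : Finite (V14 F).toAffine.Point := inferInstance
  have : Fact (Nat.Prime 3) := ⟨Nat.prime_three⟩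
  set P : (V14 F).toAffine.Point := Point.some 0 0 (V14_nonsingular_zero F) with hP
  have hne : (0 : F) ≠ (V14 F).toAffine.negY 0 0 := by
    simp [V14, Affine.negY]
  have hs : (V14 F).toAffine.slope 0 0 0 0 = -1 := by
    rw [slope_of_Y_ne rfl hne]
    simp [V14, Affine.negY]
  have h2 : P + P = -P := by
    rw [hP, Point.add_self_of_Y_ne hne, Point.neg_some, Point.some.injEq, hs]
    constructor
    · simp [V14, Affine.addX]
    · simp [V14, Affine.addY, Affine.negAddY, Affine.addX, Affine.negY]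
  have h3 : 3 • P = 0 := by
    rw [succ_nsmul, two_nsmul, h2, neg_add_cancel]
  have h4 : P ≠ 0 := Point.some_ne_zero _
  rw [← addOrderOf_eq_prime h3 h4]
  exact addOrderOf_dvd_natCard _

theorem two_dvd_card_V14 [Finite F] (h2 : (2 : F) ≠ 0) :
    2 ∣ Nat.card (V14 F).toAffine.Point := by
  have hfin : Finite (V14 F).toAffine.Point := inferInstance
  have : Fact (Nat.Prime 2) := ⟨Nat.prime_two⟩
  set P : (V14 F).toAffine.Point := Point.some (-1) 0 (V14_nonsingular_neg_one F h2) with hP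
  have h3 : 2 • P = 0 := by
    rw [two_nsmul, hP]
    exact Point.add_of_Y_eq rfl (by simp [V14, Affine.negY])
  have h4 : P ≠ 0 := Point.some_ne_zero _
  rw [← addOrderOf_eq_prime h3 h4]
  exact addOrderOf_dvd_natCard _

end Points

theorem card_E14a4 {p : ℕ} [Fact p.Prime] :
    (p : ℤ) + 1 - E14a4.apOfModel p = (Nat.card (V14 (ZMod p)).toAffine.Point : ℤ) := by
  have h1 : E14a4.reductionMod p = V14 (ZMod p) := by
    simp only [WeierstrassCurve.reductionMod, WeierstrassCurve.map, V14, E14a4]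
    simp
  rw [apOfModel, h1, traceOfFrobenius, WeierstrassCurve.card, Nat.card_zmod]
  ring

theorem three_dvd_E14a4 {p : ℕ} (hp : p.Prime) : (3 : ℤ) ∣ (p : ℤ) + 1 - E14a4.apOfModel p := by
  have : Fact p.Prime := ⟨hp⟩
  rw [card_E14a4]
  exact_mod_cast three_dvd_card_V14 (ZMod p)

theorem two_dvd_E14a4 {p : ℕ} (hp : p.Prime) (h2 : p ≠ 2) : (2 : ℤ) ∣ E14a4.apOfModel p := by
  have : Fact p.Prime := ⟨hp⟩
  have h3 : (2 : ZMod p) ≠ 0 := by
    intro h
    have h4 : ((2 : ℕ) : ZMod p) = 0 := by exact_mod_cast h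
    rw [ZMod.natCast_eq_zero_iff] at h4
    exact h2 ((Nat.prime_dvd_prime_iff_eq hp Nat.prime_two).mp h4)
  have h4 : (2 : ℤ) ∣ (p : ℤ) + 1 - E14a4.apOfModel p := by
    rw [card_E14a4]
    exact_mod_cast two_dvd_card_V14 (ZMod p) h3
  obtain ⟨r, hr⟩ := hp.odd_of_ne_two h2
  omega

/-- **The elliptic curves of conductor `14`.** Every Weierstrass equation over `ℤ` of a semistable
elliptic curve of conductor `14` is isomorphic over `ℤ` to one of `14a1, …, 14a6`. -/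
theorem exists_iso_fourteen {W : WeierstrassCurve ℤ} (hΔ : W.Δ ≠ 0) (hW : W.IsSemistableModel)
    (hN : W.conductorLevel = 14) :
    ∃ E : WeierstrassCurve ℤ, (E = E14a1 ∨ E = E14a2 ∨ E = E14a3 ∨ E = E14a4 ∨ E = E14a5 ∨
      E = E14a6) ∧ ∃ r s t : ℤ, (⟨1, r, s, t⟩ : VariableChange ℤ) • W = E := by
  have hap : ∀ ℓ : ℕ, ℓ.Prime → W.IsGoodPrimeFor ℓ → E14a4.apOfModel ℓ = W.apOfModel ℓ :=
    fun ℓ hℓ hg => apOfModel_eq_of_conductorLevel_eq (W' := E14a4) hΔ hW E14a4_mem.1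
      E14a4_mem.2.1 (by rw [E14a4_mem.2.2, hN]) (by rw [hN]; decide) hℓ hg
  have hred : ¬ W.ModRepIsIrreducible 3 := by
    refine Eleven.not_irreducible_of_dvd hΔ Nat.prime_three (by norm_num) fun ℓ hℓ hg _ => ?_
    rw [← hap ℓ hℓ hg]
    exact three_dvd_E14a4 hℓ
  have htwo := not_irreducible_two hΔ fun ℓ hℓ hℓ2 hg => by
    rw [← hap ℓ hℓ hg]
    exact two_dvd_E14a4 hℓ hℓ2
  have hS : ∀ q : ℕ, q.Prime → (q : ℤ) ∣ W.Δ → q = 2 ∨ q = 7 := by
    intro q hq hd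
    have h := (W.prime_dvd_conductorLevel_iff hΔ hq).mpr hd
    rw [hN, show 14 = 2 * 7 by norm_num, hq.dvd_mul] at h
    rcases h with h | h
    · exact Or.inl ((Nat.prime_dvd_prime_iff_eq hq Nat.prime_two).mp h)
    · exact Or.inr ((Nat.prime_dvd_prime_iff_eq hq (by norm_num)).mp h)
  rcases c_fourteen hΔ hW hred htwo hS with ⟨h4, h6⟩ | ⟨h4, h6⟩ | ⟨h4, h6⟩ | ⟨h4, h6⟩ |
    ⟨h4, h6⟩ | ⟨h4, h6⟩
  · exact ⟨E14a1, by simp, exists_variableChange (by rw [h4, E14a1_c₄]) (by rw [h6, E14a1_c₆])⟩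
  · exact ⟨E14a2, by simp, exists_variableChange (by rw [h4, E14a2_c₄]) (by rw [h6, E14a2_c₆])⟩
  · exact ⟨E14a3, by simp, exists_variableChange (by rw [h4, E14a3_c₄]) (by rw [h6, E14a3_c₆])⟩
  · exact ⟨E14a4, by simp, exists_variableChange (by rw [h4, E14a4_c₄]) (by rw [h6, E14a4_c₆])⟩
  · exact ⟨E14a5, by simp, exists_variableChange (by rw [h4, E14a5_c₄]) (by rw [h6, E14a5_c₆])⟩
  · exact ⟨E14a6, by simp, exists_variableChange (by rw [h4, E14a6_c₄]) (by rw [h6, E14a6_c₆])⟩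

/-- Two of the six curves of conductor `14` which are isomorphic over `ℚ` are equal. -/
theorem fourteen_not_iso {A B : WeierstrassCurve ℤ}
    (hA : A = E14a1 ∨ A = E14a2 ∨ A = E14a3 ∨ A = E14a4 ∨ A = E14a5 ∨ A = E14a6)
    (hB : B = E14a1 ∨ B = E14a2 ∨ B = E14a3 ∨ B = E14a4 ∨ B = E14a5 ∨ B = E14a6)
    (h : ∃ C : VariableChange ℚ, C • A.map (Int.castRingHom ℚ) = B.map (Int.castRingHom ℚ)) :
    A = B := by
  by_contra hne
  refine not_exists_variableChange ?_ h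
  rcases hA with rfl | rfl | rfl | rfl | rfl | rfl <;>
    rcases hB with rfl | rfl | rfl | rfl | rfl | rfl <;>
    first
      | exact absurd rfl hne
      | (simp only [E14a1_c₄, E14a2_c₄, E14a3_c₄, E14a4_c₄, E14a5_c₄, E14a6_c₄, E14a1_Δ, E14a2_Δ,
          E14a3_Δ, E14a4_Δ, E14a5_Δ, E14a6_Δ]; norm_num)

/-- **There are exactly six elliptic curves over `ℚ` of conductor `14`** (with `fourteen_not_iso`):
an elliptic curve over `ℚ` has a Weierstrass equation over `ℤ` with multiplicative reduction at `2`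
and `7` and good reduction elsewhere if and only if it is isomorphic to one of `14a1, …, 14a6`. -/
theorem conductor_fourteen_iff (E : WeierstrassCurve ℚ) :
    (∃ W : WeierstrassCurve ℤ, W.IsIntegralModelOf E ∧ W.Δ ≠ 0 ∧ W.IsSemistableModel ∧
      W.conductorLevel = 14) ↔
    ∃ A : WeierstrassCurve ℤ, (A = E14a1 ∨ A = E14a2 ∨ A = E14a3 ∨ A = E14a4 ∨ A = E14a5 ∨
      A = E14a6) ∧ A.IsIntegralModelOf E := by
  constructor
  · rintro ⟨W, ⟨C, hC⟩, hΔ, hW, hN⟩
    obtain ⟨A, hA, r, s, t, hrst⟩ := exists_iso_fourteen hΔ hW hN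
    refine ⟨A, hA, (⟨1, r, s, t⟩ : VariableChange ℤ).map (Int.castRingHom ℚ) * C, ?_⟩
    rw [mul_smul, hC, ← hrst, WeierstrassCurve.map_variableChange]
  · rintro ⟨A, hA, h⟩
    refine ⟨A, h, ?_⟩
    rcases hA with rfl | rfl | rfl | rfl | rfl | rfl
    · exact E14a1_mem
    · exact E14a2_mem
    · exact E14a3_mem
    · exact E14a4_mem
    · exact E14a5_mem
    · exact E14a6_mem

end Fermat.Agent.Cor.Table
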