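import Mathlib

/-!
# The equations `X = 16 V + Y` and `X + Y = 16 V` in `{3, 5}`- and `{3, 7}`-units

and the equation `a² = 64 b + c` with coprime `b`, `c`.
-/

set_option autoImplicit false

namespace Fermat.Agent.Cor.Table

/-! ### Two primes -/

/-- A natural number with all prime factors in `{p, q}`. -/
theorem exists_eq_mul_of_primes {p q : ℕ} (hp : p.Prime) (hq : q.Prime) (hpq : p ≠ q) {n : ℕ}
    (hn : n ≠ 0) (h : ∀ r : ℕ, r.Prime → r ∣ n → r = p ∨ r = q) :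
    ∃ i j : ℕ, n = p ^ i * q ^ j := by
  obtain ⟨i, m, hm, rfl⟩ := Nat.exists_eq_pow_mul_and_not_dvd hn p hp.ne_one
  have hm0 : m ≠ 0 := by
    rintro rfl
    exact hm (dvd_zero p)
  obtain ⟨j, k, hk, rfl⟩ := Nat.exists_eq_pow_mul_and_not_dvd hm0 q hq.ne_one
  refine ⟨i, j, ?_⟩
  have hk1 : k = 1 := by
    by_contra hne
    obtain ⟨r, hr, hrk⟩ := Nat.exists_prime_and_dvd hne
    have h1 : r ∣ p ^ i * (q ^ j * k) := (hrk.mul_left _).mul_left _
    rcases h r hr h1 with rfl | rfl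
    · exact hm (hrk.mul_left _)
    · exact hk hrk
  rw [hk1, mul_one]

/-- Pairwise coprime powers: at most one exponent is not zero. -/
theorem exponents {p a b c x y z : ℕ} (hp : p.Prime)
    (h1 : Nat.Coprime (p ^ x * a) (p ^ y * b)) (h2 : Nat.Coprime (p ^ x * a) (p ^ z * c))
    (h3 : Nat.Coprime (p ^ y * b) (p ^ z * c)) :
    (x = 0 ∧ y = 0) ∨ (x = 0 ∧ z = 0) ∨ (y = 0 ∧ z = 0) := by
  have key : ∀ {u v s t : ℕ}, Nat.Coprime (p ^ u * s) (p ^ v * t) → u = 0 ∨ v = 0 := by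
    intro u v s t h
    by_contra hcon
    push Not at hcon
    have h4 : p ∣ 1 := by
      rw [← h]
      exact Nat.dvd_gcd (dvd_mul_of_dvd_left (dvd_pow_self p hcon.1) s)
        (dvd_mul_of_dvd_left (dvd_pow_self p hcon.2) t)
    exact hp.one_lt.ne' (Nat.dvd_one.mp h4)
  have e1 := key h1
  have e2 := key h2
  have e3 := key h3
  omega

theorem exponents' {p a b c x y z : ℕ} (hp : p.Prime)
    (h1 : Nat.Coprime (a * p ^ x) (b * p ^ y)) (h2 : Nat.Coprime (a * p ^ x) (c * p ^ z))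
    (h3 : Nat.Coprime (b * p ^ y) (c * p ^ z)) :
    (x = 0 ∧ y = 0) ∨ (x = 0 ∧ z = 0) ∨ (y = 0 ∧ z = 0) := by
  rw [mul_comm a, mul_comm b] at h1
  rw [mul_comm a, mul_comm c] at h2
  rw [mul_comm b, mul_comm c] at h3
  exact exponents hp h1 h2 h3

/-! ### Powers modulo `16` and `13` -/

theorem pow_three_mod (n : ℕ) : 3 ^ n % 80 = [1, 3, 9, 27].getD (n % 4) 0 := by
  have h : 3 ^ n % 80 = 3 ^ (n % 4) % 80 := by
    conv_lhs => rw [← Nat.div_add_mod n 4, pow_add, pow_mul, Nat.mul_mod, Nat.pow_mod]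
    norm_num
  have h4 := Nat.mod_lt n (show 4 > 0 by norm_num)
  rw [h]
  generalize n % 4 = m at *
  interval_cases m <;> rfl

theorem pow_five_mod (n : ℕ) : 5 ^ n % 208 = [1, 5, 25, 125].getD (n % 4) 0 := by
  have h : 5 ^ n % 208 = 5 ^ (n % 4) % 208 := by
    conv_lhs => rw [← Nat.div_add_mod n 4, pow_add, pow_mul, Nat.mul_mod, Nat.pow_mod]
    norm_num
  have h4 := Nat.mod_lt n (show 4 > 0 by norm_num)
  rw [h]
  generalize n % 4 = m at *
  interval_cases m <;> rfl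

theorem pow_seven_mod (n : ℕ) : 7 ^ n % 48 = [1, 7].getD (n % 2) 0 := by
  have h : 7 ^ n % 48 = 7 ^ (n % 2) % 48 := by
    conv_lhs => rw [← Nat.div_add_mod n 2, pow_add, pow_mul, Nat.mul_mod, Nat.pow_mod]
    norm_num
  have h4 := Nat.mod_lt n (show 2 > 0 by norm_num)
  rw [h]
  generalize n % 2 = m at *
  interval_cases m <;> rfl

theorem cases_three (n : ℕ) : (n % 4 = 0 ∧ 3 ^ n % 80 = 1) ∨ (n % 4 = 1 ∧ 3 ^ n % 80 = 3) ∨
    (n % 4 = 2 ∧ 3 ^ n % 80 = 9) ∨ (n % 4 = 3 ∧ 3 ^ n % 80 = 27) := by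
  have h := pow_three_mod n
  have h4 := Nat.mod_lt n (show 4 > 0 by norm_num)
  generalize n % 4 = m at *
  interval_cases m <;> simp_all

theorem cases_five (n : ℕ) : (n % 4 = 0 ∧ 5 ^ n % 208 = 1) ∨ (n % 4 = 1 ∧ 5 ^ n % 208 = 5) ∨
    (n % 4 = 2 ∧ 5 ^ n % 208 = 25) ∨ (n % 4 = 3 ∧ 5 ^ n % 208 = 125) := by
  have h := pow_five_mod n
  have h4 := Nat.mod_lt n (show 4 > 0 by norm_num)
  generalize n % 4 = m at *
  interval_cases m <;> simp_all

theorem cases_seven (n : ℕ) : (n % 2 = 0 ∧ 7 ^ n % 48 = 1) ∨ (n % 2 = 1 ∧ 7 ^ n % 48 = 7) := by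
  have h := pow_seven_mod n
  have h4 := Nat.mod_lt n (show 2 > 0 by norm_num)
  generalize n % 2 = m at *
  interval_cases m <;> simp_all

/-! ### The exponential equations, `{3, 5}` -/

/-- Two squares with difference `16`. -/
theorem sq_add_sixteen {x y : ℕ} (h : x ^ 2 = y ^ 2 + 16) : x = 5 ∧ y = 3 ∨ x = 4 ∧ y = 0 := by
  have h1 : y < x := by
    by_contra hcon
    push Not at hcon
    have := Nat.pow_le_pow_left hcon 2
    omega
  obtain ⟨d, rfl⟩ := Nat.exists_eq_add_of_lt h1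
  have h2 : (d + 1) * (2 * y + d + 1) = 16 := by nlinarith
  have h3 : d + 1 ≤ 16 := Nat.le_of_dvd (by norm_num) ⟨_, h2.symm⟩
  have h4 : d ≤ 15 := by omega
  interval_cases d <;> omega

theorem five_eq_three_add {i j : ℕ} (h : 5 ^ j = 3 ^ i + 16) : i = 2 ∧ j = 2 := by
  have h3 := cases_three i
  have h5 := cases_five j
  have hi : i % 2 = 0 := by omega
  have hj : j % 2 = 0 := by omega
  obtain ⟨i', rfl⟩ : ∃ k, i = k * 2 := ⟨i / 2, by omega⟩
  obtain ⟨j', rfl⟩ : ∃ k, j = k * 2 := ⟨j / 2, by omega⟩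
  rw [pow_mul, pow_mul] at h
  rcases sq_add_sixteen h with ⟨h1, h2⟩ | ⟨-, h2⟩
  · have e1 : j' = 1 := by
      have : (5 : ℕ) ^ j' = 5 ^ 1 := by rw [h1, pow_one]
      exact Nat.pow_right_injective (by norm_num) this
    have e2 : i' = 1 := by
      have : (3 : ℕ) ^ i' = 3 ^ 1 := by rw [h2, pow_one]
      exact Nat.pow_right_injective (by norm_num) this
    omega
  · exact absurd h2 (by positivity)

theorem three_ne_five_add {i j : ℕ} : 3 ^ i ≠ 5 ^ j + 16 := by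
  intro h
  have h3 := cases_three i
  have h5 := cases_five j
  have hi : i % 2 = 0 := by omega
  have hj : j % 2 = 0 := by omega
  obtain ⟨i', rfl⟩ : ∃ k, i = k * 2 := ⟨i / 2, by omega⟩
  obtain ⟨j', rfl⟩ : ∃ k, j = k * 2 := ⟨j / 2, by omega⟩
  rw [pow_mul, pow_mul] at h
  rcases sq_add_sixteen h with ⟨h1, h2⟩ | ⟨-, h2⟩
  · rcases Nat.eq_zero_or_pos i' with rfl | hi'
    · norm_num at h1
    · have : 3 ∣ 5 := by rw [← h1]; exact dvd_pow_self 3 hi'.ne'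
      norm_num at this
  · exact absurd h2 (by positivity)

theorem five_ne_three {i j : ℕ} : 5 ^ j ≠ 16 * 3 ^ i + 1 := by
  intro h
  have h5 := cases_five j
  have h1 : 5 ^ j % 16 = 1 := by omega
  have h2 : 5 ^ j % 208 = 1 := by omega
  have h3 : 13 ∣ 16 * 3 ^ i := by omega
  have hp : Nat.Prime 13 := by norm_num
  rcases hp.dvd_mul.mp h3 with h4 | h4
  · norm_num at h4
  · have := (Nat.prime_dvd_prime_iff_eq hp (by norm_num)).mp (hp.dvd_of_dvd_pow h4)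
    norm_num at this

theorem three_eq_five {i j : ℕ} (h : 3 ^ i = 16 * 5 ^ j + 1) : i = 4 ∧ j = 1 := by
  have h3 := cases_three i
  have hi : i % 4 = 0 := by omega
  obtain ⟨k, rfl⟩ : ∃ k, i = k * 4 := ⟨i / 4, by omega⟩
  have hk0 : 0 < k := by
    rcases Nat.eq_zero_or_pos k with rfl | hk
    · have : 0 < 5 ^ j := by positivity
      omega
    · exact hk
  -- `(9 ^ k - 1) (9 ^ k + 1) = 16 * 5 ^ j`
  set m := 3 ^ (k * 2) with hm
  have hm2 : m ^ 2 = 16 * 5 ^ j + 1 := by rw [hm, ← pow_mul, ← h]; congr 1; ring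
  have hm8 : m % 8 = 1 := by
    rw [hm, mul_comm, pow_mul, Nat.pow_mod]
    norm_num
  have hm9 : 9 ≤ m := by
    rw [hm, mul_comm, pow_mul]
    calc 9 = 9 ^ 1 := by norm_num
      _ ≤ 9 ^ k := Nat.pow_le_pow_right (by norm_num) hk0
      _ = (3 ^ 2) ^ k := by norm_num
  obtain ⟨u, hu⟩ : ∃ u, m = 8 * u + 1 := ⟨m / 8, by omega⟩
  have hu1 : 1 ≤ u := by omega
  have h5 : u * (4 * u + 1) = 5 ^ j := by
    rw [hu] at hm2
    nlinarith
  have hu5 : u ∣ 5 ^ j := ⟨_, h5.symm⟩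
  have hv5 : 4 * u + 1 ∣ 5 ^ j := ⟨u, by rw [← h5]; ring⟩
  obtain ⟨x, -, hx⟩ := (Nat.dvd_prime_pow (by norm_num : Nat.Prime 5)).mp hu5
  obtain ⟨y, -, hy⟩ := (Nat.dvd_prime_pow (by norm_num : Nat.Prime 5)).mp hv5
  have hx0 : x = 0 := by
    by_contra hx0
    have h6 : 5 ∣ u := by rw [hx]; exact dvd_pow_self 5 hx0
    have hy0 : y ≠ 0 := by
      rintro rfl
      rw [pow_zero] at hy
      omega
    have h7 : 5 ∣ 4 * u + 1 := by rw [hy]; exact dvd_pow_self 5 hy0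
    omega
  rw [hx0, pow_zero] at hx
  subst hx
  have hj : j = 1 := by
    have : (5 : ℕ) ^ j = 5 ^ 1 := by rw [← h5]; norm_num
    exact Nat.pow_right_injective (by norm_num) this
  refine ⟨?_, hj⟩
  have : (3 : ℕ) ^ (k * 2) = 3 ^ 2 := by rw [← hm, hu]; norm_num
  have := Nat.pow_right_injective (le_refl 2 |>.trans (by norm_num : 2 ≤ 3)) this
  omega

theorem three_mul_five_eq {i j : ℕ} (h : 3 ^ i * 5 ^ j = 15) : i = 1 ∧ j = 1 := by
  have h1 : 3 ^ i ∣ 15 := ⟨_, h.symm⟩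
  have h2 : 3 ^ i ≤ 15 := Nat.le_of_dvd (by norm_num) h1
  have hi : i < 3 := by
    by_contra hcon
    push Not at hcon
    have := Nat.pow_le_pow_right (show 0 < 3 by norm_num) hcon
    norm_num at this
    omega
  have h3 : 5 ^ j ∣ 15 := ⟨3 ^ i, by rw [← h]; ring⟩
  have h4 : 5 ^ j ≤ 15 := Nat.le_of_dvd (by norm_num) h3
  have hj : j < 2 := by
    by_contra hcon
    push Not at hcon
    have := Nat.pow_le_pow_right (show 0 < 5 by norm_num) hcon
    norm_num at this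
    omega
  interval_cases i <;> interval_cases j <;> simp_all

theorem three_mul_five_ne {i j : ℕ} : 3 ^ i * 5 ^ j ≠ 17 := by
  intro h
  have hp : Nat.Prime 17 := by norm_num
  have h1 : 17 ∣ 3 ^ i * 5 ^ j := by rw [h]
  rcases hp.dvd_mul.mp h1 with h2 | h2
  · have := (Nat.prime_dvd_prime_iff_eq hp (by norm_num)).mp (hp.dvd_of_dvd_pow h2)
    norm_num at this
  · have := (Nat.prime_dvd_prime_iff_eq hp (by norm_num)).mp (hp.dvd_of_dvd_pow h2)
    norm_num at this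

theorem three_add_five_ne {i j : ℕ} : 3 ^ i + 5 ^ j ≠ 16 := by
  intro h
  have h2 : 3 ^ i ≤ 16 := h ▸ Nat.le_add_right _ _
  have hi : i < 3 := by
    by_contra hcon
    push Not at hcon
    have := Nat.pow_le_pow_right (show 0 < 3 by norm_num) hcon
    norm_num at this
    omega
  have h5 := cases_five j
  interval_cases i <;> omega

/-! ### The exponential equations, `{3, 7}` -/

theorem three_ne_seven_add {i j : ℕ} (hi : 0 < i) : 3 ^ i ≠ 7 ^ j + 16 := by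
  intro h
  have h7 := cases_seven j
  have h3 : 3 ∣ 3 ^ i := dvd_pow_self 3 hi.ne'
  omega

theorem seven_ne_three_add {i j : ℕ} : 7 ^ j ≠ 3 ^ i + 16 := by
  intro h
  have h3 := cases_three i
  have h7 := cases_seven j
  have hi : i % 2 = 0 := by omega
  have hj : j % 2 = 0 := by omega
  obtain ⟨i', rfl⟩ : ∃ k, i = k * 2 := ⟨i / 2, by omega⟩
  obtain ⟨j', rfl⟩ : ∃ k, j = k * 2 := ⟨j / 2, by omega⟩
  rw [pow_mul, pow_mul] at h
  rcases sq_add_sixteen h with ⟨h1, h2⟩ | ⟨-, h2⟩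
  · rcases Nat.eq_zero_or_pos j' with rfl | hj'
    · norm_num at h1
    · have : 7 ∣ 5 := by rw [← h1]; exact dvd_pow_self 7 hj'.ne'
      norm_num at this
  · exact absurd h2 (by positivity)

theorem seven_eq_three {i j : ℕ} (h : 7 ^ j = 16 * 3 ^ i + 1) : i = 1 ∧ j = 2 := by
  have h7 := cases_seven j
  have hj : j % 2 = 0 := by omega
  obtain ⟨k, rfl⟩ : ∃ k, j = k * 2 := ⟨j / 2, by omega⟩
  have hk0 : 0 < k := by
    rcases Nat.eq_zero_or_pos k with rfl | hk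
    · have : 0 < 3 ^ i := by positivity
      omega
    · exact hk
  set m := 7 ^ k with hm
  have hm2 : m ^ 2 = 16 * 3 ^ i + 1 := by rw [hm, ← pow_mul, h]
  have hm6 : m % 6 = 1 := by
    rw [hm, Nat.pow_mod]
    norm_num
  have hm7 : 7 ≤ m := by
    rw [hm]
    calc 7 = 7 ^ 1 := by norm_num
      _ ≤ 7 ^ k := Nat.pow_le_pow_right (by norm_num) hk0
  -- `m + 1` is not divisible by `3` and divides `16 * 3 ^ i`
  have h1 : (m - 1) * (m + 1) = 16 * 3 ^ i := by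
    obtain ⟨n, hn⟩ : ∃ n, m = n + 1 := ⟨m - 1, by omega⟩
    rw [hn] at hm2 ⊢
    rw [Nat.add_sub_cancel]
    nlinarith
  have h2 : Nat.Coprime (m + 1) (3 ^ i) := by
    refine Nat.Coprime.pow_right _ (Nat.Coprime.symm ?_)
    rw [Nat.Prime.coprime_iff_not_dvd (by norm_num)]
    omega
  have h3 : m + 1 ∣ 16 := h2.dvd_of_dvd_mul_right ⟨m - 1, by rw [← h1]; ring⟩
  have h4 : m + 1 ≤ 16 := Nat.le_of_dvd (by norm_num) h3
  have h5 : m = 7 := by
    have : m ≤ 15 := by omega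
    interval_cases m <;> omega
  have hk1 : k = 1 := by
    have : (7 : ℕ) ^ k = 7 ^ 1 := by rw [← hm, h5, pow_one]
    exact Nat.pow_right_injective (by norm_num) this
  have hi : i = 1 := by
    rw [h5] at hm2
    have : (3 : ℕ) ^ i = 3 ^ 1 := by omega
    exact Nat.pow_right_injective (by norm_num) this
  omega

theorem three_ne_seven {i j : ℕ} : 3 ^ i ≠ 16 * 7 ^ j + 1 := by
  intro h
  have h7 := cases_seven j
  have h3 := cases_three i
  rcases Nat.eq_zero_or_pos i with rfl | hi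
  · have : 0 < 7 ^ j := by positivity
    omega
  · have : 3 ∣ 3 ^ i := dvd_pow_self 3 hi.ne'
    omega

theorem three_add_seven {i j : ℕ} (h : 3 ^ i + 7 ^ j = 16) : i = 2 ∧ j = 1 := by
  have h2 : 3 ^ i ≤ 16 := h ▸ Nat.le_add_right _ _
  have hi : i < 3 := by
    by_contra hcon
    push Not at hcon
    have := Nat.pow_le_pow_right (show 0 < 3 by norm_num) hcon
    norm_num at this
    omega
  have h7 := cases_seven j
  interval_cases i
  · omega
  · omega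
  · refine ⟨rfl, ?_⟩
    have : (7 : ℕ) ^ j = 7 ^ 1 := by omega
    exact Nat.pow_right_injective (by norm_num) this

theorem three_mul_seven_ne {i j n : ℕ} (hn : n = 15 ∨ n = 17) : 3 ^ i * 7 ^ j ≠ n := by
  intro h
  rcases hn with rfl | rfl
  · have hp : Nat.Prime 5 := by norm_num
    have h1 : 5 ∣ 3 ^ i * 7 ^ j := by rw [h]; norm_num
    rcases hp.dvd_mul.mp h1 with h2 | h2
    · have := (Nat.prime_dvd_prime_iff_eq hp (by norm_num)).mp (hp.dvd_of_dvd_pow h2)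
      norm_num at this
    · have := (Nat.prime_dvd_prime_iff_eq hp (by norm_num)).mp (hp.dvd_of_dvd_pow h2)
      norm_num at this
  · have hp : Nat.Prime 17 := by norm_num
    have h1 : 17 ∣ 3 ^ i * 7 ^ j := by rw [h]
    rcases hp.dvd_mul.mp h1 with h2 | h2
    · have := (Nat.prime_dvd_prime_iff_eq hp (by norm_num)).mp (hp.dvd_of_dvd_pow h2)
      norm_num at this
    · have := (Nat.prime_dvd_prime_iff_eq hp (by norm_num)).mp (hp.dvd_of_dvd_pow h2)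
      norm_num at this

/-! ### Coprime solutions of `X = 16 V + Y` and `X + Y = 16 V` -/

/-- `X = 16 V + Y` in `{3, 5}`-units. -/
theorem fifteen_alpha {X V Y x₁ x₂ v₁ v₂ y₁ y₂ : ℕ} (hX : X = 3 ^ x₁ * 5 ^ x₂)
    (hV : V = 3 ^ v₁ * 5 ^ v₂) (hY : Y = 3 ^ y₁ * 5 ^ y₂) (hXV : X.Coprime V)
    (hXY : X.Coprime Y) (hVY : V.Coprime Y) (h : X = 16 * V + Y) :
    (X = 25 ∧ V = 1 ∧ Y = 9) ∨ (X = 81 ∧ V = 5 ∧ Y = 1) := by
  subst hX hV hY
  have e3 := exponents (by norm_num : Nat.Prime 3) hXV hXY hVY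
  have e5 := exponents' (by norm_num : Nat.Prime 5) hXV hXY hVY
  have p3 : ∀ n : ℕ, 0 < 3 ^ n := fun n => by positivity
  have p5 : ∀ n : ℕ, 0 < 5 ^ n := fun n => by positivity
  rcases e3 with ⟨rfl, rfl⟩ | ⟨rfl, rfl⟩ | ⟨rfl, rfl⟩ <;>
    rcases e5 with ⟨rfl, rfl⟩ | ⟨rfl, rfl⟩ | ⟨rfl, rfl⟩ <;>
    simp only [pow_zero, one_mul, mul_one] at h ⊢
  · -- `1 = 16 + ..`
    omega
  · have := p5 v₂; have := p3 y₁; omega
  · obtain ⟨rfl, rfl⟩ := five_eq_three_add (by omega : 5 ^ x₂ = 3 ^ y₁ + 16)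
    norm_num
  · have := p3 v₁; have := p5 y₂; omega
  · have := p3 v₁
    have : 0 < 3 ^ v₁ * 5 ^ v₂ := by positivity
    omega
  · exact absurd (by omega) (five_ne_three (i := v₁) (j := x₂))
  · exact absurd (by omega) (three_ne_five_add (i := x₁) (j := y₂))
  · obtain ⟨rfl, rfl⟩ := three_eq_five (by omega : 3 ^ x₁ = 16 * 5 ^ v₂ + 1)
    norm_num
  · exact absurd (by omega) (three_mul_five_ne (i := x₁) (j := x₂))

/-- `X + Y = 16 V` in `{3, 5}`-units. -/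
theorem fifteen_beta {X V Y x₁ x₂ v₁ v₂ y₁ y₂ : ℕ} (hX : X = 3 ^ x₁ * 5 ^ x₂)
    (hV : V = 3 ^ v₁ * 5 ^ v₂) (hY : Y = 3 ^ y₁ * 5 ^ y₂) (hXV : X.Coprime V)
    (hXY : X.Coprime Y) (hVY : V.Coprime Y) (h : X + Y = 16 * V) :
    (X = 15 ∧ V = 1 ∧ Y = 1) ∨ (X = 1 ∧ V = 1 ∧ Y = 15) := by
  subst hX hV hY
  have e3 := exponents (by norm_num : Nat.Prime 3) hXV hXY hVY
  have e5 := exponents' (by norm_num : Nat.Prime 5) hXV hXY hVY
  rcases e3 with ⟨rfl, rfl⟩ | ⟨rfl, rfl⟩ | ⟨rfl, rfl⟩ <;>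
    rcases e5 with ⟨rfl, rfl⟩ | ⟨rfl, rfl⟩ | ⟨rfl, rfl⟩ <;>
    simp only [pow_zero, one_mul, mul_one] at h ⊢
  · obtain ⟨rfl, rfl⟩ := three_mul_five_eq (by omega : 3 ^ y₁ * 5 ^ y₂ = 15)
    norm_num
  · have := cases_three y₁; omega
  · exact absurd (by omega) (three_add_five_ne (i := y₁) (j := x₂))
  · have := cases_five y₂; omega
  · have : 0 < 3 ^ v₁ * 5 ^ v₂ := by positivity
    omega
  · have := cases_five x₂; omega
  · exact absurd (by omega) (three_add_five_ne (i := x₁) (j := y₂))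
  · have := cases_three x₁; omega
  · obtain ⟨rfl, rfl⟩ := three_mul_five_eq (by omega : 3 ^ x₁ * 5 ^ x₂ = 15)
    norm_num

/-- `X = 16 V + Y` in `{3, 7}`-units. -/
theorem twentyone_alpha {X V Y x₁ x₂ v₁ v₂ y₁ y₂ : ℕ} (hX : X = 3 ^ x₁ * 7 ^ x₂)
    (hV : V = 3 ^ v₁ * 7 ^ v₂) (hY : Y = 3 ^ y₁ * 7 ^ y₂) (hXV : X.Coprime V)
    (hXY : X.Coprime Y) (hVY : V.Coprime Y) (h : X = 16 * V + Y) :
    X = 49 ∧ V = 3 ∧ Y = 1 := by
  subst hX hV hY
  have e3 := exponents (by norm_num : Nat.Prime 3) hXV hXY hVY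
  have e5 := exponents' (by norm_num : Nat.Prime 7) hXV hXY hVY
  have p3 : ∀ n : ℕ, 0 < 3 ^ n := fun n => by positivity
  have p7 : ∀ n : ℕ, 0 < 7 ^ n := fun n => by positivity
  rcases e3 with ⟨rfl, rfl⟩ | ⟨rfl, rfl⟩ | ⟨rfl, rfl⟩ <;>
    rcases e5 with ⟨rfl, rfl⟩ | ⟨rfl, rfl⟩ | ⟨rfl, rfl⟩ <;>
    simp only [pow_zero, one_mul, mul_one] at h ⊢
  · omega
  · have := p7 v₂; have := p3 y₁; omega
  · exact absurd (by omega) (seven_ne_three_add (i := y₁) (j := x₂))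
  · have := p3 v₁; have := p7 y₂; omega
  · have : 0 < 3 ^ v₁ * 7 ^ v₂ := by positivity
    omega
  · obtain ⟨rfl, rfl⟩ := seven_eq_three (by omega : 7 ^ x₂ = 16 * 3 ^ v₁ + 1)
    norm_num
  · rcases Nat.eq_zero_or_pos x₁ with rfl | hx
    · have := p7 y₂; omega
    · exact absurd (by omega) (three_ne_seven_add (j := y₂) hx)
  · exact absurd (by omega) (three_ne_seven (i := x₁) (j := v₂))
  · exact absurd (by omega) (three_mul_seven_ne (i := x₁) (j := x₂) (Or.inr rfl))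

/-- `X + Y = 16 V` in `{3, 7}`-units. -/
theorem twentyone_beta {X V Y x₁ x₂ v₁ v₂ y₁ y₂ : ℕ} (hX : X = 3 ^ x₁ * 7 ^ x₂)
    (hV : V = 3 ^ v₁ * 7 ^ v₂) (hY : Y = 3 ^ y₁ * 7 ^ y₂) (hXV : X.Coprime V)
    (hXY : X.Coprime Y) (hVY : V.Coprime Y) (h : X + Y = 16 * V) :
    (X = 9 ∧ V = 1 ∧ Y = 7) ∨ (X = 7 ∧ V = 1 ∧ Y = 9) := by
  subst hX hV hY
  have e3 := exponents (by norm_num : Nat.Prime 3) hXV hXY hVY
  have e5 := exponents' (by norm_num : Nat.Prime 7) hXV hXY hVY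
  rcases e3 with ⟨rfl, rfl⟩ | ⟨rfl, rfl⟩ | ⟨rfl, rfl⟩ <;>
    rcases e5 with ⟨rfl, rfl⟩ | ⟨rfl, rfl⟩ | ⟨rfl, rfl⟩ <;>
    simp only [pow_zero, one_mul, mul_one] at h ⊢
  · exact absurd (by omega) (three_mul_seven_ne (i := y₁) (j := y₂) (Or.inl rfl))
  · have := cases_three y₁; omega
  · obtain ⟨rfl, rfl⟩ := three_add_seven (by omega : 3 ^ y₁ + 7 ^ x₂ = 16)
    norm_num
  · have := cases_seven y₂; omega
  · have : 0 < 3 ^ v₁ * 7 ^ v₂ := by positivity
    omega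
  · have := cases_seven x₂; omega
  · obtain ⟨rfl, rfl⟩ := three_add_seven (by omega : 3 ^ x₁ + 7 ^ y₂ = 16)
    norm_num
  · have := cases_three x₁; omega
  · exact absurd (by omega) (three_mul_seven_ne (i := x₁) (j := x₂) (Or.inl rfl))

end Fermat.Agent.Cor.Table
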