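import Fermat.Agent.Corollaries.Table.Three

/-!
# Prime conductor and a rational isogeny of degree three

A semistable elliptic curve over `ℚ` with at most one bad prime `q` and with a rational isogeny of degree
three is one of the three curves of conductor `19` or one of the three curves `37b` of conductor `37`.
-/

set_option autoImplicit false

namespace Fermat.Agent.Cor.Table

open WeierstrassCurve

theorem unit_of_no_prime {n : ℤ} (h : ∀ ℓ : ℕ, ℓ.Prime → ¬ (ℓ : ℤ) ∣ n) : n = 1 ∨ n = -1 := by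
  have h1 : n.natAbs = 1 := by
    by_contra hne
    obtain ⟨ℓ, hℓ, hd⟩ := Nat.exists_prime_and_dvd hne
    exact h ℓ hℓ (Int.natCast_dvd.mpr hd)
  omega

theorem eq_of_dvd_prime {q ℓ : ℕ} (hq : q.Prime) (hℓ : ℓ.Prime) (h : (ℓ : ℤ) ∣ (q : ℤ)) : ℓ = q :=
  (Nat.prime_dvd_prime_iff_eq hℓ hq).mp (by exact_mod_cast h)

/-- `a³ - 27 = ± q^j`. -/
theorem case_one {q : ℕ} (hq : q.Prime) {a : ℤ}
    (h : ∀ ℓ : ℕ, ℓ.Prime → (ℓ : ℤ) ∣ a ^ 3 - 27 → ℓ = q) (h3 : ¬ (q = 3 ∧ (3 : ℤ) ∣ a)) :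
    (q = 19 ∧ a = 2) ∨ (q = 37 ∧ a = 4) := by
  have hqI := Nat.prime_iff_prime_int.mp hq
  have hfac : a ^ 3 - 27 = (a - 3) * (a ^ 2 + 3 * a + 9) := by ring
  by_cases hd : (q : ℤ) ∣ a - 3
  · exfalso
    have h1 : ¬ (q : ℤ) ∣ a ^ 2 + 3 * a + 9 := by
      intro h2
      have h4 : (q : ℤ) ∣ 27 := by
        have h5 : (27 : ℤ) = (a ^ 2 + 3 * a + 9) - (a - 3) * (a + 6) := by ring
        rw [h5]
        exact dvd_sub h2 (hd.mul_right _)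
      have h5 : q ∣ 3 ^ 3 := by
        have : (q : ℤ) ∣ ((3 ^ 3 : ℕ) : ℤ) := by norm_num; exact h4
        exact_mod_cast this
      have h6 : q = 3 := (Nat.prime_dvd_prime_iff_eq hq Nat.prime_three).mp (hq.dvd_of_dvd_pow h5)
      refine h3 ⟨h6, ?_⟩
      subst h6
      have h7 : (3 : ℤ) ∣ a - 3 := by exact_mod_cast hd
      omega
    have h2 : a ^ 2 + 3 * a + 9 = 1 ∨ a ^ 2 + 3 * a + 9 = -1 := by
      refine unit_of_no_prime fun ℓ hℓ hdv => h1 ?_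
      have h4 := h ℓ hℓ (by rw [hfac]; exact hdv.mul_left _)
      rw [← h4]; exact hdv
    rcases h2 with h2 | h2 <;> nlinarith [sq_nonneg (2 * a + 3)]
  · have h2 : a - 3 = 1 ∨ a - 3 = -1 := by
      refine unit_of_no_prime fun ℓ hℓ hdv => hd ?_
      have h4 := h ℓ hℓ (by rw [hfac]; exact hdv.mul_right _)
      rw [← h4]; exact hdv
    rcases h2 with h2 | h2
    · have ha : a = 4 := by omega
      subst ha
      exact Or.inr ⟨(h 37 (by norm_num) (by norm_num)).symm, rfl⟩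
    · have ha : a = 2 := by omega
      subst ha
      exact Or.inl ⟨(h 19 (by norm_num) (by norm_num)).symm, rfl⟩

/-- `a³ - 27 b = 1`, `b = ± q^i`. -/
theorem case_two {q : ℕ} (hq : q.Prime) {a b : ℤ} (h : ∀ ℓ : ℕ, ℓ.Prime → (ℓ : ℤ) ∣ b → ℓ = q)
    (hab : a ^ 3 - 27 * b = 1) (hb : b ≠ 0) :
    (q = 19 ∧ a = -8 ∧ b = -19) ∨ (q = 37 ∧ a = 10 ∧ b = 37) := by
  have hqI := Nat.prime_iff_prime_int.mp hq
  obtain ⟨s, hs⟩ : ∃ s, a = 3 * s + 1 := by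
    obtain ⟨s, hs | hs | hs⟩ : ∃ s, a = 3 * s ∨ a = 3 * s + 1 ∨ a = 3 * s + 2 := ⟨a / 3, by omega⟩
    · exfalso
      rw [hs] at hab
      have h1 : 27 * (s ^ 3 - b) = 1 := by linear_combination hab
      omega
    · exact ⟨s, hs⟩
    · exfalso
      rw [hs] at hab
      have h1 : 9 * (3 * s ^ 3 + 6 * s ^ 2 + 4 * s - 3 * b) + 7 = 0 := by linear_combination hab
      omega
  have h1 : s + 3 * (s ^ 3 + s ^ 2 - b) = 0 := by
    have h2 : 9 * (s + 3 * (s ^ 3 + s ^ 2 - b)) = 9 * 0 := by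
      rw [hs] at hab
      linear_combination hab
    exact mul_left_cancel₀ (by norm_num) h2
  obtain ⟨r, rfl⟩ : ∃ r, s = 3 * r := ⟨-((s ^ 3 + s ^ 2 - b)), by linarith⟩
  have hb2 : b = r * (27 * r ^ 2 + 9 * r + 1) := by
    have h2 : 3 * b = 3 * (r * (27 * r ^ 2 + 9 * r + 1)) := by linear_combination -h1
    exact mul_left_cancel₀ (by norm_num) h2
  have hr0 : r ≠ 0 := by
    rintro rfl
    exact hb (by rw [hb2]; ring)
  by_cases hd : (q : ℤ) ∣ r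
  · exfalso
    have h2 : 27 * r ^ 2 + 9 * r + 1 = 1 ∨ 27 * r ^ 2 + 9 * r + 1 = -1 := by
      refine unit_of_no_prime fun ℓ hℓ hdv => ?_
      have h4 := h ℓ hℓ (by rw [hb2]; exact hdv.mul_left _)
      subst h4
      have h5 : (ℓ : ℤ) ∣ 1 := by
        have h6 : (1 : ℤ) = (27 * r ^ 2 + 9 * r + 1) - r * (27 * r + 9) := by ring
        rw [h6]
        exact dvd_sub hdv (hd.mul_right _)
      exact hqI.not_dvd_one h5
    rcases h2 with h2 | h2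
    · have h4 : r * (3 * r + 1) = 0 := by
        have h5 : 9 * (r * (3 * r + 1)) = 9 * 0 := by linear_combination h2
        exact mul_left_cancel₀ (by norm_num) h5
      rcases mul_eq_zero.mp h4 with h5 | h5
      · exact hr0 h5
      · omega
    · omega
  · have h2 : r = 1 ∨ r = -1 := by
      refine unit_of_no_prime fun ℓ hℓ hdv => hd ?_
      have h4 := h ℓ hℓ (by rw [hb2]; exact hdv.mul_right _)
      rw [← h4]; exact hdv
    rcases h2 with rfl | rfl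
    · have hb3 : b = 37 := by rw [hb2]; norm_num
      subst hb3
      exact Or.inr ⟨(h 37 (by norm_num) (by norm_num)).symm, by rw [hs]; norm_num, rfl⟩
    · have hb3 : b = -19 := by rw [hb2]; norm_num
      subst hb3
      exact Or.inl ⟨(h 19 (by norm_num) (by norm_num)).symm, by rw [hs]; norm_num, rfl⟩

/-- `b (a³ - 27 b)` is a power of one prime, `a`, `b` coprime. -/
theorem case_all {q : ℕ} (hq : q.Prime) {a b : ℤ} (hcop : IsCoprime a b) (hb : b ≠ 0)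
    (h : ∀ ℓ : ℕ, ℓ.Prime → (ℓ : ℤ) ∣ b * (a ^ 3 - 27 * b) → ℓ = q)
    (h3 : ¬ (q = 3 ∧ (3 : ℤ) ∣ a)) :
    ∃ ε : ℤ, (ε = 1 ∨ ε = -1) ∧
      ((q = 19 ∧ ((a = ε * 2 ∧ b = ε * 1) ∨ (a = ε * 8 ∧ b = ε * 19))) ∨
        (q = 37 ∧ ((a = ε * 4 ∧ b = ε * 1) ∨ (a = ε * 10 ∧ b = ε * 37)))) := by
  have hqI := Nat.prime_iff_prime_int.mp hq
  by_cases hd : (q : ℤ) ∣ b
  · -- `a³ - 27 b` is a unit
    have h1 : a ^ 3 - 27 * b = 1 ∨ a ^ 3 - 27 * b = -1 := by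
      refine unit_of_no_prime fun ℓ hℓ hdv => ?_
      have h2 := h ℓ hℓ (hdv.mul_left _)
      subst h2
      have h4 : (ℓ : ℤ) ∣ a := by
        refine hqI.dvd_of_dvd_pow (n := 3) ?_
        have h5 : a ^ 3 = (a ^ 3 - 27 * b) + b * 27 := by ring
        rw [h5]
        exact dvd_add hdv (hd.mul_right _)
      exact hqI.not_isUnit (hcop.isUnit_of_dvd' h4 hd)
    rcases h1 with h1 | h1
    · rcases case_two hq (fun ℓ hℓ hdv => h ℓ hℓ (hdv.mul_right _)) h1 hb with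
        ⟨h2, h4, h5⟩ | ⟨h2, h4, h5⟩
      · exact ⟨-1, Or.inr rfl, Or.inl ⟨h2, Or.inr ⟨by rw [h4]; norm_num, by rw [h5]; norm_num⟩⟩⟩
      · exact ⟨1, Or.inl rfl, Or.inr ⟨h2, Or.inr ⟨by rw [h4]; norm_num, by rw [h5]; norm_num⟩⟩⟩
    · rcases case_two hq (a := -a) (b := -b) (fun ℓ hℓ hdv => h ℓ hℓ ((dvd_neg.mp hdv).mul_right _))
        (by linear_combination -h1) (neg_ne_zero.mpr hb) with ⟨h2, h4, h5⟩ | ⟨h2, h4, h5⟩
      · exact ⟨1, Or.inl rfl, Or.inl ⟨h2, Or.inr ⟨by linarith, by linarith⟩⟩⟩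
      · exact ⟨-1, Or.inr rfl, Or.inr ⟨h2, Or.inr ⟨by linarith, by linarith⟩⟩⟩
  · -- `b` is a unit
    have h1 : b = 1 ∨ b = -1 := by
      refine unit_of_no_prime fun ℓ hℓ hdv => hd ?_
      rw [← h ℓ hℓ (hdv.mul_right _)]; exact hdv
    rcases h1 with rfl | rfl
    · rcases case_one hq (a := a) (fun ℓ hℓ hdv => h ℓ hℓ (by
        have h5 : (1 : ℤ) * (a ^ 3 - 27 * 1) = a ^ 3 - 27 := by ring
        rw [h5]; exact hdv)) h3 with ⟨h2, h4⟩ | ⟨h2, h4⟩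
      · exact ⟨1, Or.inl rfl, Or.inl ⟨h2, Or.inl ⟨by rw [h4]; norm_num, by norm_num⟩⟩⟩
      · exact ⟨1, Or.inl rfl, Or.inr ⟨h2, Or.inl ⟨by rw [h4]; norm_num, by norm_num⟩⟩⟩
    · rcases case_one hq (a := -a) (fun ℓ hℓ hdv => h ℓ hℓ (by
        have h5 : (-1 : ℤ) * (a ^ 3 - 27 * -1) = (-a) ^ 3 - 27 := by ring
        rw [h5]; exact hdv)) (by rwa [dvd_neg]) with ⟨h2, h4⟩ | ⟨h2, h4⟩
      · exact ⟨-1, Or.inr rfl, Or.inl ⟨h2, Or.inl ⟨by linarith, by norm_num⟩⟩⟩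
      · exact ⟨-1, Or.inr rfl, Or.inr ⟨h2, Or.inl ⟨by linarith, by norm_num⟩⟩⟩

/-- **Prime conductor and a rational isogeny of degree three**: a semistable integral model with at most
one bad prime `q`, reducible modulo `3`, has the invariants of one of the curves `19a3`, `19a1`, `19a2`,
`37b3`, `37b1`, `37b2`. -/
theorem invariants_of_reducible_three {W : WeierstrassCurve ℤ} (hΔ : W.Δ ≠ 0)
    (hW : W.IsSemistableModel) {q : ℕ} (hq : q.Prime)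
    (hbad : ∀ ℓ : ℕ, ℓ.Prime → (ℓ : ℤ) ∣ W.Δ → ℓ = q) (hred : ¬ W.ModRepIsIrreducible 3) :
    (q = 19 ∧ ((W.c₄ = -32 ∧ W.c₆ = 8 ∧ W.Δ = -19) ∨
        (W.c₄ = 448 ∧ W.c₆ = 10088 ∧ W.Δ = -19 ^ 3) ∨
        (W.c₄ = 36928 ∧ W.c₆ = 7096328 ∧ W.Δ = -19))) ∨
      (q = 37 ∧ ((W.c₄ = 160 ∧ W.c₆ = -2008 ∧ W.Δ = 37) ∨
        (W.c₄ = 1120 ∧ W.c₆ = 36296 ∧ W.Δ = 37 ^ 3) ∨
        (W.c₄ = 89920 ∧ W.c₆ = 26964008 ∧ W.Δ = 37))) := by
  obtain ⟨a, b, hcop, hcases⟩ := exists_of_reducible_three hΔ hW hred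
  have hb : b ≠ 0 := by
    rintro rfl
    rcases hcases with ⟨-, -, h⟩ | ⟨-, -, h⟩ <;> exact hΔ (by rw [h]; ring)
  have hmem : ∀ ℓ : ℕ, ℓ.Prime → (ℓ : ℤ) ∣ b * (a ^ 3 - 27 * b) → (ℓ : ℤ) ∣ W.Δ := by
    intro ℓ hℓ hd
    rcases hcases with ⟨-, -, h⟩ | ⟨-, -, h⟩
    · rw [h]
      exact hd.trans ⟨b ^ 2, by ring⟩
    · rw [h]
      exact hd.trans ⟨(a ^ 3 - 27 * b) ^ 2, by ring⟩
  have h3 : ¬ (q = 3 ∧ (3 : ℤ) ∣ a) := by
    rintro ⟨hq3, h3⟩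
    have hc : (3 : ℤ) ∣ W.c₄ := by
      rcases hcases with ⟨h, -, -⟩ | ⟨h, -, -⟩ <;> rw [h] <;> exact h3.mul_right _
    have hd : ¬ (3 : ℤ) ∣ W.Δ := fun h => hW 3 Nat.prime_three h hc
    refine hd (hmem 3 Nat.prime_three (Dvd.dvd.mul_left ?_ _))
    exact dvd_sub (dvd_pow h3 (by norm_num)) ⟨9 * b, by push_cast; ring⟩
  obtain ⟨ε, hε, hsol⟩ := case_all hq hcop hb (fun ℓ hℓ hd => hbad ℓ hℓ (hmem ℓ hℓ hd)) h3
  rcases hsol with ⟨h19, h | h⟩ | ⟨h37, h | h⟩ <;> obtain ⟨rfl, rfl⟩ := h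
  · refine Or.inl ⟨h19, ?_⟩
    rcases hcases with ⟨h4, h6, hD⟩ | ⟨h4, h6, hD⟩
    · exact Or.inl (by rcases hε with rfl | rfl <;> (rw [h4, h6, hD]; norm_num))
    · exact Or.inr (Or.inl (by rcases hε with rfl | rfl <;> (rw [h4, h6, hD]; norm_num)))
  · refine Or.inl ⟨h19, ?_⟩
    rcases hcases with ⟨h4, h6, hD⟩ | ⟨h4, h6, hD⟩
    · exact Or.inr (Or.inl (by rcases hε with rfl | rfl <;> (rw [h4, h6, hD]; norm_num)))
    · exact Or.inr (Or.inr (by rcases hε with rfl | rfl <;> (rw [h4, h6, hD]; norm_num)))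
  · refine Or.inr ⟨h37, ?_⟩
    rcases hcases with ⟨h4, h6, hD⟩ | ⟨h4, h6, hD⟩
    · exact Or.inl (by rcases hε with rfl | rfl <;> (rw [h4, h6, hD]; norm_num))
    · exact Or.inr (Or.inl (by rcases hε with rfl | rfl <;> (rw [h4, h6, hD]; norm_num)))
  · refine Or.inr ⟨h37, ?_⟩
    rcases hcases with ⟨h4, h6, hD⟩ | ⟨h4, h6, hD⟩
    · exact Or.inr (Or.inl (by rcases hε with rfl | rfl <;> (rw [h4, h6, hD]; norm_num)))
    · exact Or.inr (Or.inr (by rcases hε with rfl | rfl <;> (rw [h4, h6, hD]; norm_num)))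

end Fermat.Agent.Cor.Table
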