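import Fermat.Agent.Corollaries.Table.Two
import Fermat.Agent.Corollaries.Table.CEq
import Fermat.Agent.Corollaries.Table.DiophTwo
import Fermat.Agent.Corollaries.CondLevel

/-!
# Tables of curves of given conductor with a rational point of order two: common part
-/

set_option autoImplicit false

namespace Fermat.Agent.Cor.Table

open WeierstrassCurve

variable {W : WeierstrassCurve ℤ}

/-- A semistable curve over `ℤ` with a rational point of order two and odd discriminant `Δ`, from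
the solutions `(a, b)` of `a² = 64 b + c`: both types `(I)` and `(II)` in one statement. -/
theorem exists_params (hΔ : W.Δ ≠ 0) (hW : W.IsSemistableModel) (h2 : ¬ (2 : ℤ) ∣ W.Δ) {x : ℚ}
    (hx : 4 * x ^ 3 + W.b₂ * x ^ 2 + 2 * W.b₄ * x + W.b₆ = 0) {P : ℕ → Prop}
    (hP : ∀ r : ℕ, r.Prime → (r : ℤ) ∣ W.Δ → P r) :
    ∃ a b c : ℤ, ¬ (2 : ℤ) ∣ a ∧ a ^ 2 = 64 * b + c ∧ IsCoprime a b ∧ b ≠ 0 ∧ c ≠ 0 ∧
      (∀ r : ℕ, r.Prime → (r : ℤ) ∣ b * c → P r) ∧ ((4 : ℤ) ∣ W.c₆ + 1) ∧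
      ((W.c₄ = a ^ 2 - 48 * b ∧ W.c₆ = -(a * (a ^ 2 - 72 * b))) ∨
        (W.c₄ = 4 * a ^ 2 - 3 * c ∧ W.c₆ = -(a * (8 * a ^ 2 - 9 * c)))) := by
  have hp2 : Prime (2 : ℤ) := Int.prime_two
  obtain ⟨a, b, h | h⟩ := exists_two (fun h => absurd h h2) hx
  · have hco := isCoprime_two hW (a := a) (b := b) (Or.inl ⟨h.1, h.2.1, h.2.2.2⟩)
    obtain ⟨ha, h4, h6, hD⟩ := h
    refine ⟨a, b, a ^ 2 - 64 * b, ha, by ring, hco, ?_, ?_, fun r hr hd => ?_, ?_,
      Or.inl ⟨h4, h6⟩⟩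
    · rintro rfl
      exact hΔ (by rw [hD]; ring)
    · intro h0
      exact hΔ (by rw [hD, h0]; ring)
    · refine hP r hr ?_
      rw [hD, sq, mul_assoc]
      exact hd.mul_left _
    · refine c₆_add_one fun hd => ha ?_
      rw [h4] at hd
      obtain ⟨k, hk⟩ := hd
      exact hp2.dvd_of_dvd_pow (n := 2) ⟨k + 24 * b, by linarith⟩
  · have hco := isCoprime_two hW (a := a) (b := b) (Or.inr ⟨h.1, h.2.1, h.2.2.2⟩)
    obtain ⟨hb, h4, h6, hD⟩ := h
    have h64 : (64 : ℤ) ∣ a ^ 2 - b := by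
      have h1 : IsCoprime ((2 : ℤ) ^ 6) (b ^ 2) :=
        ((hp2.coprime_iff_not_dvd.mpr hb).pow_left).pow_right
      norm_num at h1
      exact h1.dvd_of_dvd_mul_left ⟨W.Δ, hD.symm⟩
    obtain ⟨d, hd⟩ := h64
    have hD' : W.Δ = b ^ 2 * d := by
      rw [hd] at hD
      linarith
    have had : a ^ 2 = 64 * d + b := by linarith
    refine ⟨a, d, b, ?_, had, ?_, ?_, ?_, fun r hr hdv => ?_, ?_, Or.inr ⟨h4, h6⟩⟩
    · rintro ⟨k, rfl⟩
      exact hb ⟨2 * k ^ 2 - 32 * d, by linarith⟩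
    · rw [Int.isCoprime_iff_gcd_eq_one, Int.gcd_def]
      refine Nat.Coprime.gcd_eq_one (Nat.coprime_of_dvd fun q hq hqa hqd => ?_)
      have hqa' : (q : ℤ) ∣ a := Int.natCast_dvd.mpr hqa
      have hqd' : (q : ℤ) ∣ d := Int.natCast_dvd.mpr hqd
      have hqb : (q : ℤ) ∣ b := by
        have h7 : b = a ^ 2 - 64 * d := by linarith
        rw [h7, sq]
        exact dvd_sub (hqa'.mul_right _) (hqd'.mul_left _)
      exact (Nat.prime_iff_prime_int.mp hq).not_isUnit (hco.isUnit_of_dvd' hqa' hqb)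
    · rintro rfl
      exact hΔ (by rw [hD']; ring)
    · rintro rfl
      exact hΔ (by rw [hD']; ring)
    · refine hP r hr ?_
      rw [hD', sq, mul_assoc, mul_comm b d]
      exact hdv.mul_left _
    · refine c₆_add_one fun hdv => hb ?_
      rw [h4] at hdv
      obtain ⟨k, hk⟩ := hdv
      exact ⟨2 * a ^ 2 - k - b, by linarith⟩

/-- Curves with different `j`-invariants are not isomorphic over `ℚ`. -/
theorem not_iso_of_j {A B : WeierstrassCurve ℤ} (h : A.c₄ ^ 3 * B.Δ ≠ B.c₄ ^ 3 * A.Δ) :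
    ¬ ∃ C : VariableChange ℚ, C • A.map (Int.castRingHom ℚ) = B.map (Int.castRingHom ℚ) := by
  rintro ⟨C, hC⟩
  apply h
  have h4 := congrArg WeierstrassCurve.c₄ hC
  have hD := congrArg WeierstrassCurve.Δ hC
  rw [WeierstrassCurve.variableChange_c₄, WeierstrassCurve.map_c₄, WeierstrassCurve.map_c₄,
    eq_intCast, eq_intCast] at h4
  rw [WeierstrassCurve.variableChange_Δ, WeierstrassCurve.map_Δ, WeierstrassCurve.map_Δ,
    eq_intCast, eq_intCast] at hD
  have h1 : (A.c₄ : ℚ) ^ 3 * B.Δ = (B.c₄ : ℚ) ^ 3 * A.Δ := by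
    rw [← h4, ← hD]; ring
  exact_mod_cast h1

/-- An equation over `ℤ` isomorphic over `ℤ` to a model of `E` is a model of `E`. -/
theorem isIntegralModelOf_of_iso' {A : WeierstrassCurve ℤ} {E : WeierstrassCurve ℚ} {r s t : ℤ}
    (h : (⟨1, r, s, t⟩ : VariableChange ℤ) • W = A) (hE : W.IsIntegralModelOf E) :
    A.IsIntegralModelOf E := by
  obtain ⟨C, hC⟩ := hE
  refine ⟨(⟨1, r, s, t⟩ : VariableChange ℤ).map (Int.castRingHom ℚ) * C, ?_⟩
  rw [mul_smul, hC, ← h, WeierstrassCurve.map_variableChange]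

/-- Two models of the same curve are isomorphic over `ℚ`. -/
theorem iso_of_isIntegralModelOf {A B : WeierstrassCurve ℤ} {E : WeierstrassCurve ℚ}
    (hA : A.IsIntegralModelOf E) (hB : B.IsIntegralModelOf E) :
    ∃ C : VariableChange ℚ, C • A.map (Int.castRingHom ℚ) = B.map (Int.castRingHom ℚ) := by
  obtain ⟨C, hC⟩ := hA
  obtain ⟨C', hC'⟩ := hB
  exact ⟨C' * C⁻¹, by rw [mul_smul, ← hC, inv_smul_smul, hC']⟩

end Fermat.Agent.Cor.Table
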